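import Mathlib
import Fermat.Agent.Lib.EigenCharacter

/-!
# The eigencharacter of a normalised eigenform on the anemic Hecke algebras
-/

set_option autoImplicit false

noncomputable section

open CongruenceSubgroup ModularFormClass

namespace Fermat.Agent.CMP.EigenCharOn

open Fermat.Agent.EigenCharacter Fermat.Agent.HeckeDuality

variable {N : ℕ} [NeZero N] {f : CuspForm (Gamma0 N) 2}

/-- The eigencharacter of `f`, restricted to the Hecke algebra away from `S`. -/
def eigenCharOn (S : Set ℕ) (hf : f.IsNormalizedEigenform) :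
    CuspForm.heckeAlgebra N 2 S →+* ℂ :=
  (eigenChar hf).comp (Subalgebra.inclusion
    (CuspForm.heckeAlgebra_mono (N := N) (k := 2) (Set.empty_subset S))).toRingHom

theorem eigenCharOn_T (S : Set ℕ) (hf : f.IsNormalizedEigenform) {ℓ : ℕ} (hℓ : ℓ.Prime)
    (hℓN : ¬ ℓ ∣ N) (hℓS : ℓ ∉ S) :
    eigenCharOn S hf (CuspForm.heckeAlgebra.T hℓ hℓN hℓS) = qCoeff ⇑f ℓ := by
  rw [← eigenChar_gen hf hℓ, gen, dif_neg hℓN]
  rfl

theorem eigenCharOn_U (S : Set ℕ) (hf : f.IsNormalizedEigenform) {ℓ : ℕ} (hℓ : ℓ.Prime)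
    (hℓN : ℓ ∣ N) (hℓS : ℓ ∉ S) :
    eigenCharOn S hf (CuspForm.heckeAlgebra.U hℓ hℓN hℓS) = qCoeff ⇑f ℓ := by
  rw [← eigenChar_gen hf hℓ, gen, dif_pos hℓN]
  rfl

/-- The range of the eigencharacter is contained in any subring containing the eigenvalues. -/
theorem range_eigenCharOn_le (S : Set ℕ) (hf : f.IsNormalizedEigenform) (R : Subring ℂ)
    (hR : ∀ ℓ : ℕ, ℓ.Prime → ℓ ∉ S → qCoeff ⇑f ℓ ∈ R) : (eigenCharOn S hf).range ≤ R := by
  rintro _ ⟨t, rfl⟩
  let R' : Subalgebra ℤ (CuspForm.heckeAlgebra N 2 S) := subalgebraOfSubring (R.comap (eigenCharOn S hf))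
  have hle : CuspForm.heckeAlgebra N 2 S ≤ R'.map (CuspForm.heckeAlgebra N 2 S).val := by
    refine Algebra.adjoin_le ?_
    rintro _ (⟨ℓ, hℓ, hℓN, hℓS, rfl⟩ | ⟨q, hqN, hq, hqS, rfl⟩)
    · refine ⟨CuspForm.heckeAlgebra.T hℓ hℓN hℓS, ?_, rfl⟩
      change eigenCharOn S hf _ ∈ R
      rw [eigenCharOn_T]
      exact hR ℓ hℓ hℓS
    · refine ⟨CuspForm.heckeAlgebra.U hq hqN hqS, ?_, rfl⟩
      change eigenCharOn S hf _ ∈ R
      rw [eigenCharOn_U]
      exact hR q hq hqS
  obtain ⟨t', ht', h⟩ := hle t.2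
  have : t' = t := Subtype.ext h
  rw [← this]
  exact ht'

instance finite_range (S : Set ℕ) (hf : f.IsNormalizedEigenform) :
    Module.Finite ℤ (eigenCharOn S hf).range :=
  Module.Finite.of_surjective (eigenCharOn S hf).rangeRestrict.toIntAlgHom.toLinearMap
    (eigenCharOn S hf).rangeRestrict_surjective

/-- The range of any ring homomorphism from the Hecke algebra is finite over `ℤ`. -/
theorem finite_range_of_heckeAlgebra {S : Set ℕ} (χ : CuspForm.heckeAlgebra N 2 S →+* ℂ) :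
    Module.Finite ℤ χ.range :=
  Module.Finite.of_surjective χ.rangeRestrict.toIntAlgHom.toLinearMap
    χ.rangeRestrict_surjective

end Fermat.Agent.CMP.EigenCharOn
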