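import Mathlib
import Fermat.Agent.CMP.EigenCharOn
import Fermat.Agent.IntStr.Main
import Fermat.Agent.HeckeDualityB

/-!
# Extending characters of Hecke algebras and the eigenform behind a character
-/

set_option autoImplicit false

noncomputable section

open CongruenceSubgroup ModularFormClass

namespace Fermat.Agent.CMP.CharExtend

/-- A ring homomorphism to an algebraically closed field extends along integral extensions. -/
theorem exists_extend {A B K : Type*} [CommRing A] [CommRing B] [Algebra A B]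
    (hinj : Function.Injective (algebraMap A B)) [Algebra.IsIntegral A B] [Field K]
    [IsAlgClosed K] (χ : A →+* K) : ∃ χ' : B →+* K, χ'.comp (algebraMap A B) = χ := by
  let P : Ideal A := RingHom.ker χ
  have hP : P.IsPrime := RingHom.ker_isPrime χ
  obtain ⟨Q, -, hQ, hQP⟩ := Ideal.exists_ideal_over_prime_of_isIntegral P (⊥ : Ideal B) (by
    rw [← RingHom.ker_eq_comap_bot, (RingHom.injective_iff_ker_eq_bot _).mp hinj]
    exact bot_le)
  have hlo : Q.LiesOver P := ⟨hQP.symm⟩
  let _ : Algebra (A ⧸ P) K := (Ideal.Quotient.lift P χ fun a ha => ha).toAlgebra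
  have hK : Function.Injective (algebraMap (A ⧸ P) K) := RingHom.lift_injective_of_ker_le_ideal _ _ le_rfl
  have hBQ : Function.Injective (algebraMap (A ⧸ P) (B ⧸ Q)) := FaithfulSMul.algebraMap_injective _ _
  have h1 : Module.IsTorsionFree (A ⧸ P) K := by
    rw [Module.isTorsionFree_iff_algebraMap_injective]; exact hK
  have h2 : Module.IsTorsionFree (A ⧸ P) (B ⧸ Q) := by
    rw [Module.isTorsionFree_iff_algebraMap_injective]; exact hBQ
  have h3 : Algebra.IsIntegral (A ⧸ P) (B ⧸ Q) := inferInstance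
  let σ : (B ⧸ Q) →ₐ[A ⧸ P] K := IsAlgClosed.lift
  refine ⟨(σ : (B ⧸ Q) →+* K).comp (Ideal.Quotient.mk Q), RingHom.ext fun a => ?_⟩
  have h4 := σ.commutes (Ideal.Quotient.mk P a)
  exact h4

open Fermat.Agent.HeckeDuality in
/-- Every character of an anemic Hecke algebra comes from a normalised eigenform. -/
theorem exists_eigenform_of_char {N : ℕ} [NeZero N] {S : Set ℕ}
    (χ : CuspForm.heckeAlgebra N 2 S →+* ℂ) :
    ∃ f : CuspForm (Gamma0 N) 2, f.IsNormalizedEigenform ∧
      ∀ (ℓ : ℕ) (hℓ : ℓ.Prime) (hℓN : ¬ ℓ ∣ N) (hℓS : ℓ ∉ S),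
        qCoeff ⇑f ℓ = χ (CuspForm.heckeAlgebra.T hℓ hℓN hℓS) := by
  let i : CuspForm.heckeAlgebra N 2 S →+* CuspForm.heckeAlgebra N 2 ∅ :=
    (Subalgebra.inclusion
      (CuspForm.heckeAlgebra_mono (N := N) (k := 2) (Set.empty_subset S))).toRingHom
  have hi : Function.Injective i := Subalgebra.inclusion_injective _
  let _ : Algebra (CuspForm.heckeAlgebra N 2 S) (CuspForm.heckeAlgebra N 2 ∅) := i.toAlgebra
  have hfin : Module.Finite ℤ (CuspForm.heckeAlgebra N 2 ∅) := S22.result N 2 ∅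
  have hint : Algebra.IsIntegral ℤ (CuspForm.heckeAlgebra N 2 ∅) := Algebra.IsIntegral.of_finite ℤ _
  have hst : IsScalarTower ℤ (CuspForm.heckeAlgebra N 2 S) (CuspForm.heckeAlgebra N 2 ∅) :=
    IsScalarTower.of_algebraMap_eq' (RingHom.ext_int _ _)
  have hint' : Algebra.IsIntegral (CuspForm.heckeAlgebra N 2 S) (CuspForm.heckeAlgebra N 2 ∅) :=
    Algebra.IsIntegral.tower_top ℤ
  obtain ⟨χ', hχ'⟩ := exists_extend hi χ
  obtain ⟨f, hf, -, hfa⟩ := exists_eigenform_of_ringHom (IntStr.hasIntegralStructure N 2) χ'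
  refine ⟨f, hf, fun ℓ hℓ hℓN hℓS => ?_⟩
  rw [hfa ℓ hℓ, ← hχ', gen, dif_neg hℓN]
  rfl

end Fermat.Agent.CMP.CharExtend
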