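import Fermat.Agent.FrobCompare
import Fermat.Agent.FrobCompareDet
import Fermat.Agent.FrobeniusDensity

/-!
# The Frobenius density hypothesis `FrobCompare.FrobDensity` holds
-/

set_option autoImplicit false

namespace Fermat.Agent.CMP.Density

/-- The Frobenius density theorem in the form used by `Fermat.Agent.FrobCompare`. -/
theorem frobDensity : FrobCompare.FrobDensity := by
  intro L hL g S
  obtain ⟨ℓ, hℓ, hℓS, A, σ, hA, hσ, ⟨k, hk⟩, -⟩ :=
    Fermat.Agent.FrobDensity.frobenius_density L S g
  exact ⟨ℓ, hℓ, hℓS, A, hA, σ, hσ, k, hk⟩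

end Fermat.Agent.CMP.Density
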