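import Mathlib

/-!
# The determinant trick on the character module

`J` a module over a commutative ring `R` with `J[p]` finite. If `s` kills `J[p^n][𝔟]` then some
`d ≡ s^r mod 𝔟` kills `J[p^n]`, with `r` independent of `n`.

Also: a group all of whose elements `g` satisfy `(g-1)² = 0` on a module without `2`-torsion
satisfies `(g-1)(h-1)(k-1) = 0`.
-/

set_option autoImplicit false

namespace Fermat.Agent.CMP.DualTrick

section Dual

variable {R J : Type*} [CommRing R] [AddCommGroup J] [Module R J]

/-- A character vanishing on the kernel of `f` factors through `f`. -/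
theorem exists_factor {A B : Type*} [AddCommGroup A] [AddCommGroup B] (f : A →+ B)
    (c : CharacterModule A) (hc : ∀ x, f x = 0 → c x = 0) :
    ∃ h : CharacterModule B, ∀ x, c x = h (f x) := by
  let c₀ : A →+ AddCircle (1 : ℚ) := c
  have hc₀ : ∀ x, c₀ x = c x := fun _ => rfl
  -- descend to the range
  let e : A ⧸ f.ker ≃+ f.range := QuotientAddGroup.quotientKerEquivRange f
  let c₁ : A ⧸ f.ker →+ AddCircle (1 : ℚ) := QuotientAddGroup.lift f.ker c₀ (fun x hx => hc x hx)
  let c₂ : CharacterModule f.range := (c₁.comp (e.symm : f.range →+ A ⧸ f.ker) :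
    f.range →+ AddCircle (1 : ℚ))
  let i : f.range →ₗ[ℤ] B := f.range.subtype.toIntLinearMap
  obtain ⟨h, hh⟩ := CharacterModule.dual_surjective_of_injective i
    (fun a b hab => Subtype.ext hab) c₂
  refine ⟨h, fun x => ?_⟩
  have h1 := DFunLike.congr_fun hh (f.rangeRestrict x)
  have h2 : (CharacterModule.dual i h) (f.rangeRestrict x) = h (f x) := rfl
  rw [← h2, h1]
  have h3 : e (QuotientAddGroup.mk x) = f.rangeRestrict x := rfl
  have h4 : c₂ (f.rangeRestrict x) = c₁ (e.symm (f.rangeRestrict x)) := rfl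
  rw [h4, ← h3, AddEquiv.symm_apply_apply]
  rfl

/-- `c` vanishing on the common kernel of the `b i` lies in `∑ b i • J^∨`. -/
theorem exists_sum_smul {ι : Type*} [Fintype ι] [DecidableEq ι] (b : ι → R) (c : CharacterModule J)
    (hc : ∀ x : J, (∀ i, b i • x = 0) → c x = 0) :
    ∃ h : ι → CharacterModule J, c = ∑ i, b i • h i := by
  let f : J →+ (ι → J) :=
    { toFun := fun x i => b i • x
      map_zero' := by ext i; simp
      map_add' := fun x y => by ext i; simp }
  obtain ⟨h, hh⟩ := exists_factor f c (fun x hx => hc x fun i => congrFun hx i)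
  let h₀ : (ι → J) →+ AddCircle (1 : ℚ) := h
  refine ⟨fun i => (h₀.comp (AddMonoidHom.single (fun _ : ι => J) i) : J →+ AddCircle (1 : ℚ)), ?_⟩
  refine DFunLike.ext _ _ fun x => ?_
  have h1 : (∑ i, b i • (show CharacterModule J from
      (h₀.comp (AddMonoidHom.single (fun _ : ι => J) i) : J →+ AddCircle (1 : ℚ)))) x =
      ∑ i, h₀ (Pi.single i (b i • x)) := by
    have : ∀ (s : Finset ι) (g : ι → CharacterModule J), (∑ i ∈ s, g i) x = ∑ i ∈ s, g i x := by
      classical
      intro s g
      induction s using Finset.induction_on with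
      | empty => rfl
      | insert a s ha ih => rw [Finset.sum_insert ha, Finset.sum_insert ha, ← ih]; rfl
    rw [this]
    rfl
  rw [h1, ← map_sum, Finset.univ_sum_single (fun i => b i • x)]
  exact hh x

end Dual

section Trick

variable {R J : Type*} [CommRing R] [AddCommGroup J] [Module R J]

theorem finite_char (G : Type*) [AddCommGroup G] [Finite G] : Finite (CharacterModule G) := by
  have : Fintype G := Fintype.ofFinite G
  have hpos : 0 < Nat.card G := Nat.card_pos
  have hfin : Finite {u : AddCircle (1 : ℚ) | (Nat.card G) • u = 0} :=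
    AddCircle.finite_torsion (p := (1 : ℚ)) hpos
  have hmem : ∀ (c : CharacterModule G) (x : G), (Nat.card G) • c x = 0 := by
    intro c x
    rw [← map_nsmul, card_nsmul_eq_zero', map_zero]
  let F : CharacterModule G → (G → {u : AddCircle (1 : ℚ) | (Nat.card G) • u = 0}) :=
    fun c x => ⟨c x, hmem c x⟩
  refine Finite.of_injective F fun c c' h => DFunLike.ext _ _ fun x => ?_
  exact congrArg Subtype.val (congrFun h x)

theorem matrix_smul_det {ι : Type*} [Fintype ι] [DecidableEq ι] {M : Type*} [AddCommGroup M]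
    [Module R M] (A : Matrix ι ι R) (c : ι → M) (P : Submodule R M)
    (h : ∀ i, ∑ j, A i j • c j ∈ P) (k : ι) : A.det • c k ∈ P := by
  have h1 : ∑ i, A.adjugate k i • ∑ j, A i j • c j ∈ P :=
    Submodule.sum_mem _ fun i _ => P.smul_mem _ (h i)
  have h2 : ∑ i, A.adjugate k i • ∑ j, A i j • c j = A.det • c k := by
    have h3 : ∀ i, A.adjugate k i • ∑ j, A i j • c j = ∑ j, (A.adjugate k i * A i j) • c j := by
      intro i
      rw [Finset.smul_sum]
      exact Finset.sum_congr rfl fun j _ => by rw [smul_smul]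
    rw [Finset.sum_congr rfl fun i _ => h3 i, Finset.sum_comm]
    have h4 : ∀ j, ∑ i, (A.adjugate k i * A i j) • c j = ((A.adjugate * A) k j) • c j := by
      intro j
      rw [Matrix.mul_apply, Finset.sum_smul]
    rw [Finset.sum_congr rfl fun j _ => h4 j, Matrix.adjugate_mul]
    rw [Finset.sum_eq_single k]
    · simp
    · intro j _ hj
      simp [Matrix.smul_apply, Matrix.one_apply_ne (Ne.symm hj)]
    · intro h; exact absurd (Finset.mem_univ k) h
  rwa [h2] at h1

/-- **The dual determinant trick.** -/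
theorem dual_trick (p : ℕ) (hfin : ∀ n : ℕ, Finite {x : J // p ^ n • x = 0}) :
    ∃ r : ℕ, ∀ (n : ℕ) (𝔟 : Ideal R) (s : R),
      (∀ x : J, p ^ n • x = 0 → (∀ b ∈ 𝔟, b • x = 0) → s • x = 0) →
      ∃ d : R, d - s ^ r ∈ 𝔟 ∧ ∀ x : J, p ^ n • x = 0 → d • x = 0 := by
  classical
  -- the characters of `J[p]`
  let Tg : AddSubgroup J :=
    { carrier := {x | p • x = 0}
      zero_mem' := smul_zero _
      add_mem' := fun {a b} ha hb => by
        show p • (a + b) = 0
        rw [smul_add, ha, hb, add_zero]
      neg_mem' := fun {a} ha => by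
        show p • (-a) = 0
        rw [smul_neg, ha, neg_zero] }
  have hTg : Finite Tg := by
    have := hfin 1
    rw [pow_one] at this
    exact this
  have := finite_char Tg
  have : Fintype (CharacterModule Tg) := Fintype.ofFinite _
  -- extensions to `J`
  have hext : ∀ γ : CharacterModule Tg, ∃ C : CharacterModule J, ∀ x : Tg, C x = γ x := by
    intro γ
    obtain ⟨C, hC⟩ := exists_factor Tg.subtype γ (fun x hx => by
      have : x = 0 := Subtype.ext hx
      rw [this, map_zero])
    exact ⟨C, fun x => (hC x).symm⟩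
  choose C hC using hext
  have hstep : ∀ c : CharacterModule J, ∃ γ, ∃ c' : CharacterModule J,
      c = C γ + (p : R) • c' := by
    intro c
    let c₀ : J →+ AddCircle (1 : ℚ) := c
    let γ : CharacterModule Tg := (c₀.comp Tg.subtype : Tg →+ AddCircle (1 : ℚ))
    obtain ⟨c', hc'⟩ := exists_factor (nsmulAddMonoidHom p : J →+ J) (c - C γ) (fun x hx => by
      have h1 : (c - C γ) x = c x - C γ x := rfl
      have h2 : C γ x = γ ⟨x, hx⟩ := hC γ ⟨x, hx⟩
      rw [h1, h2]
      exact sub_self _)
    refine ⟨γ, c', ?_⟩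
    rw [← sub_eq_iff_eq_add']
    refine DFunLike.ext _ _ fun x => ?_
    rw [hc', CharacterModule.smul_apply, Nat.cast_smul_eq_nsmul]
    rfl
  -- `J^∨ = span C + p^n J^∨`
  have hgen : ∀ (n : ℕ) (c : CharacterModule J), ∃ (z : CharacterModule Tg → R)
      (c' : CharacterModule J), c = ∑ γ, z γ • C γ + (p : R) ^ n • c' := by
    intro n
    induction n with
    | zero => exact fun c => ⟨0, c, by simp⟩
    | succ n ih =>
      intro c
      obtain ⟨z, c', hc'⟩ := ih c
      obtain ⟨γ, c'', hc''⟩ := hstep c'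
      refine ⟨fun δ => z δ + if δ = γ then (p : R) ^ n else 0, c'', ?_⟩
      simp only [add_smul, Finset.sum_add_distrib, ite_smul, zero_smul, Finset.sum_ite_eq',
        Finset.mem_univ, if_true]
      rw [hc', hc'', smul_add, pow_succ, mul_smul, add_assoc]
  refine ⟨Fintype.card (CharacterModule Tg), fun n 𝔟 s hs => ?_⟩
  -- a finite family in `𝔟`
  have := hfin n
  have : Fintype {x : J // p ^ n • x = 0} := Fintype.ofFinite _
  let ι := Option {x : J // p ^ n • x = 0}
  have hb : ∀ x : {x : J // p ^ n • x = 0}, ∃ b ∈ 𝔟, (∃ b' ∈ 𝔟, b' • (x : J) ≠ 0) → b • (x : J) ≠ 0 := by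
    intro x
    by_cases h : ∃ b' ∈ 𝔟, b' • (x : J) ≠ 0
    · obtain ⟨b, hb, hbx⟩ := h
      exact ⟨b, hb, fun _ => hbx⟩
    · exact ⟨0, 𝔟.zero_mem, fun h' => absurd h' h⟩
  choose b hb𝔟 hbx using hb
  let β : ι → R := fun i => i.elim ((p : R) ^ n) b
  -- `s J^∨ ⊆ 𝔟 J^∨ + p^n J^∨`
  have hkey : ∀ c : CharacterModule J, ∃ h : ι → CharacterModule J, s • c = ∑ i, β i • h i := by
    intro c
    refine exists_sum_smul β (s • c) fun x hx => ?_
    have hx0 : p ^ n • x = 0 := by
      have h : (p : R) ^ n • x = 0 := hx none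
      rw [← Nat.cast_pow, Nat.cast_smul_eq_nsmul] at h
      exact h
    have hx1 : ∀ b' ∈ 𝔟, b' • x = 0 := by
      by_contra hcon
      push Not at hcon
      obtain ⟨b', hb', hb'x⟩ := hcon
      exact hbx ⟨x, hx0⟩ ⟨b', hb', hb'x⟩ (hx (some ⟨x, hx0⟩))
    rw [CharacterModule.smul_apply, hs x hx0 hx1, map_zero]
  let P : Submodule R (CharacterModule J) := LinearMap.range
    (LinearMap.lsmul R (CharacterModule J) ((p : R) ^ n))
  have hP : ∀ c, c ∈ P ↔ ∃ c', (p : R) ^ n • c' = c := fun c => Iff.rfl
  have hmat : ∀ γ : CharacterModule Tg, ∃ B : CharacterModule Tg → R, (∀ δ, B δ ∈ 𝔟) ∧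
      s • C γ - ∑ δ, B δ • C δ ∈ P := by
    intro γ
    obtain ⟨h, hh⟩ := hkey (C γ)
    choose z c' hc' using fun i => hgen n (h i)
    refine ⟨fun δ => ∑ x, b x * z (some x) δ, fun δ => 𝔟.sum_mem fun x _ =>
      𝔟.mul_mem_right _ (hb𝔟 x), ?_⟩
    have h1 : s • C γ - ∑ δ, (∑ x, b x * z (some x) δ) • C δ =
        (p : R) ^ n • h none + ∑ x, b x • ((p : R) ^ n • c' (some x)) := by
      rw [hh, Fintype.sum_option]
      have h2 : ∀ x, β (some x) • h (some x) = ∑ δ, (b x * z (some x) δ) • C δ +
          b x • ((p : R) ^ n • c' (some x)) := by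
        intro x
        conv_lhs => rw [hc' (some x)]
        rw [smul_add, Finset.smul_sum]
        congr 1
        exact Finset.sum_congr rfl fun δ _ => by rw [smul_smul]; rfl
      rw [Finset.sum_congr rfl fun x _ => h2 x, Finset.sum_add_distrib, Finset.sum_comm]
      have h3 : ∀ δ, (∑ x, b x * z (some x) δ) • C δ = ∑ x, (b x * z (some x) δ) • C δ :=
        fun δ => Finset.sum_smul
      rw [Finset.sum_congr rfl fun δ _ => h3 δ]
      change (p : R) ^ n • h none + _ - _ = _
      abel
    rw [h1]
    refine P.add_mem ⟨_, rfl⟩ (P.sum_mem fun x _ => P.smul_mem _ ⟨_, rfl⟩)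
  choose B hB𝔟 hB using hmat
  let A : Matrix (CharacterModule Tg) (CharacterModule Tg) R := Matrix.scalar _ s - Matrix.of B
  have hA : ∀ γ, ∑ δ, A γ δ • C δ ∈ P := by
    intro γ
    have : ∑ δ, A γ δ • C δ = s • C γ - ∑ δ, B γ δ • C δ := by
      simp only [A, Matrix.sub_apply, Matrix.of_apply, sub_smul, Finset.sum_sub_distrib,
        Matrix.scalar_apply, Matrix.diagonal_apply, ite_smul, zero_smul, Finset.sum_ite_eq,
        Finset.mem_univ, if_true]
    rw [this]
    exact hB γ
  refine ⟨A.det, ?_, ?_⟩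
  · rw [← Ideal.Quotient.eq, RingHom.map_det, map_pow]
    have : (Ideal.Quotient.mk 𝔟).mapMatrix A = Matrix.scalar _ (Ideal.Quotient.mk 𝔟 s) := by
      ext γ δ
      simp only [A, RingHom.mapMatrix_apply, Matrix.map_apply, Matrix.sub_apply, Matrix.of_apply,
        map_sub, Ideal.Quotient.eq_zero_iff_mem.mpr (hB𝔟 γ δ), sub_zero, Matrix.scalar_apply,
        Matrix.diagonal_apply]
      split_ifs <;> simp
    rw [this, Matrix.scalar_apply, Matrix.det_diagonal, Finset.prod_const, Finset.card_univ]
  · intro x hx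
    refine CharacterModule.eq_zero_of_character_apply (fun c => ?_)
    obtain ⟨z, c', hc'⟩ := hgen n c
    have h1 : A.det • c ∈ P := by
      rw [hc', smul_add, Finset.smul_sum]
      refine P.add_mem (P.sum_mem fun γ _ => ?_) (P.smul_mem _ ⟨_, rfl⟩)
      rw [smul_comm]
      exact P.smul_mem _ (matrix_smul_det A C P hA γ)
    obtain ⟨c'', hc''⟩ := h1
    have h2 : (A.det • c) x = c (A.det • x) := rfl
    rw [← h2, ← hc'']
    change c'' ((p : R) ^ n • x) = 0
    rw [← Nat.cast_pow, Nat.cast_smul_eq_nsmul, hx, map_zero]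

end Trick

section Triple

theorem sq_ring {E : Type*} [Ring E] (h2 : ∀ x : E, 2 * x = 0 → x = 0) {x y : E}
    (h₁ : (x * y + x + y) * (x * y + x + y) = 0) (h₃ : (-(x * y) + x - y) * (-(x * y) + x - y) = 0)
    (h₂ : (-(x * y) - x + y) * (-(x * y) - x + y) = 0)
    (h₄ : (x * y - x - y) * (x * y - x - y) = 0) (hx : x * x = 0) (hy : y * y = 0) :
    x * y + y * x = 0 := by
  have a1 : x * y * x * y + x * y * x + y * x * y + x * y + y * x = 0 := by
    have : (x * y + x + y) * (x * y + x + y) = x * y * x * y + x * y * x + y * x * y + x * y +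
        y * x + (x * (y * y) + x * x * y + x * x + y * y) := by noncomm_ring
    rw [this, hx, hy] at h₁
    simpa using h₁
  have a4 : x * y * x * y - x * y * x - y * x * y + x * y + y * x = 0 := by
    have : (x * y - x - y) * (x * y - x - y) = x * y * x * y - x * y * x - y * x * y + x * y +
        y * x + (- (x * (y * y)) - x * x * y + x * x + y * y) := by noncomm_ring
    rw [this, hx, hy] at h₄
    simpa using h₄
  have a2 : x * y * x * y + x * y * x - y * x * y - x * y - y * x = 0 := by
    have : (-(x * y) - x + y) * (-(x * y) - x + y) = x * y * x * y + x * y * x - y * x * y - x * y -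
        y * x + (- (x * (y * y)) + x * x * y + x * x + y * y) := by noncomm_ring
    rw [this, hx, hy] at h₂
    simpa using h₂
  have a3 : x * y * x * y - x * y * x + y * x * y - x * y - y * x = 0 := by
    have : (-(x * y) + x - y) * (-(x * y) + x - y) = x * y * x * y - x * y * x + y * x * y - x * y -
        y * x + (x * (y * y) - x * x * y + x * x + y * y) := by noncomm_ring
    rw [this, hx, hy] at h₃
    simpa using h₃
  have b1 : x * y * x + y * x * y = 0 := by
    apply h2
    have : 2 * (x * y * x + y * x * y) = (x * y * x * y + x * y * x + y * x * y + x * y + y * x) -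
      (x * y * x * y - x * y * x - y * x * y + x * y + y * x) := by noncomm_ring
    rw [this, a1, a4, sub_zero]
  have b2 : x * y * x - y * x * y = 0 := by
    apply h2
    have : 2 * (x * y * x - y * x * y) = (x * y * x * y + x * y * x - y * x * y - x * y - y * x) -
      (x * y * x * y - x * y * x + y * x * y - x * y - y * x) := by noncomm_ring
    rw [this, a2, a3, sub_zero]
  have b3 : x * y * x = 0 := by
    apply h2
    have : 2 * (x * y * x) = (x * y * x + y * x * y) + (x * y * x - y * x * y) := by noncomm_ring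
    rw [this, b1, b2, add_zero]
  have b4 : y * x * y = 0 := by rw [b3, zero_add] at b1; exact b1
  rw [b3, b4] at a1
  simpa using a1

/-- Triple products `(g - 1)(h - 1)(k - 1)` vanish in a group of elements with `(g - 1)² = 0`. -/
theorem triple_eq_zero {E G : Type*} [Ring E] [Group G] (h2 : ∀ x : E, 2 * x = 0 → x = 0)
    (u : G →* E) (hu : ∀ g, (u g - 1) * (u g - 1) = 0) (g h k : G) :
    (u g - 1) * (u h - 1) * (u k - 1) = 0 := by
  have hinv : ∀ g, u g⁻¹ = 1 - (u g - 1) := by
    intro g
    have h1 : u g⁻¹ * u g = 1 := by rw [← map_mul, inv_mul_cancel, map_one]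
    have h3 : u g * u g = 2 * u g - 1 := by
      have := hu g
      have h4 : (u g - 1) * (u g - 1) = u g * u g - 2 * u g + 1 := by noncomm_ring
      rw [h4] at this
      have h5 : u g * u g = (u g * u g - 2 * u g + 1) + 2 * u g - 1 := by abel
      rw [h5, this, zero_add]
    have h6 : u g⁻¹ * (u g * u g) = u g := by rw [← mul_assoc, h1, one_mul]
    rw [h3] at h6
    have h7 : u g⁻¹ * (2 * u g - 1) = 2 * (u g⁻¹ * u g) - u g⁻¹ := by noncomm_ring
    rw [h7, h1] at h6
    have h8 : u g⁻¹ = 2 * 1 - (2 * 1 - u g⁻¹) := by abel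
    rw [h8, h6, mul_one, ← one_add_one_eq_two]
    abel
  have hsq : ∀ g h : G, (u g - 1) * (u h - 1) + (u h - 1) * (u g - 1) = 0 := by
    intro g h
    refine sq_ring h2 ?_ ?_ ?_ ?_ (hu g) (hu h)
    · have h1 : (u g - 1) * (u h - 1) + (u g - 1) + (u h - 1) = u (g * h) - 1 := by
        rw [map_mul]; noncomm_ring
      rw [h1, hu]
    · have h1 : -((u g - 1) * (u h - 1)) + (u g - 1) - (u h - 1) = u (g * h⁻¹) - 1 := by
        rw [map_mul, hinv]; noncomm_ring
      rw [h1, hu]
    · have h1 : -((u g - 1) * (u h - 1)) - (u g - 1) + (u h - 1) = u (g⁻¹ * h) - 1 := by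
        rw [map_mul, hinv]; noncomm_ring
      rw [h1, hu]
    · have h1 : (u g - 1) * (u h - 1) - (u g - 1) - (u h - 1) = u (g⁻¹ * h⁻¹) - 1 := by
        rw [map_mul, hinv, hinv]; noncomm_ring
      rw [h1, hu]
  have e1 := hsq (g * h) k
  have e2 := hsq g k
  have e3 := hsq h k
  have h1 : u (g * h) - 1 = (u g - 1) * (u h - 1) + (u g - 1) + (u h - 1) := by
    rw [map_mul]; noncomm_ring
  rw [h1] at e1
  set x := u g - 1
  set y := u h - 1
  set z := u k - 1
  -- `xyz + zxy = 0`
  have e4 : x * y * z + z * x * y = 0 := by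
    have : x * y * z + z * x * y = ((x * y + x + y) * z + z * (x * y + x + y)) -
      (x * z + z * x) - (y * z + z * y) := by noncomm_ring
    rw [this, e1, e2, e3, sub_zero, sub_zero]
  -- `xyz = - xzy = zxy`
  have e5 : x * y * z - z * x * y = 0 := by
    have : x * y * z - z * x * y = x * (y * z + z * y) - (x * z + z * x) * y := by noncomm_ring
    rw [this, e2, e3, mul_zero, zero_mul, sub_zero]
  apply h2
  have : 2 * (x * y * z) = (x * y * z + z * x * y) + (x * y * z - z * x * y) := by noncomm_ring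
  rw [this, e4, e5, add_zero]

end Triple

end Fermat.Agent.CMP.DualTrick
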