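import Mathlib
import Fermat.Agent.CMP.DualTrick

/-!
# Unipotent inertia forces inertia-invariants

`J` a module over `R` with a commuting action of `G`, `I ≤ G`, `χ : R → O` a character such that
`τ + τ⁻¹ - 2` (`τ ∈ I`) is represented on `J[p^n]` by elements of `χ⁻¹(𝔪^n)`. If `s` kills
`J[p^n]^I` for all `n` then `χ s = 0`.
-/

set_option autoImplicit false

open IsLocalRing

namespace Fermat.Agent.CMP.InertiaFixed

open DualTrick

variable {R J G : Type*} [CommRing R] [AddCommGroup J] [Module R J] [Group G]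
  [DistribMulAction G J]

/-- The `𝔟`-torsion of `J[m]`. -/
def tors (m : ℕ) (𝔟 : Ideal R) (J : Type*) [AddCommGroup J] [Module R J] : AddSubgroup J where
  carrier := {x | m • x = 0 ∧ ∀ b ∈ 𝔟, b • x = 0}
  zero_mem' := ⟨smul_zero _, fun b _ => smul_zero b⟩
  add_mem' := fun {a b} ha hb => ⟨by rw [smul_add, ha.1, hb.1, add_zero],
    fun c hc => by rw [smul_add, ha.2 c hc, hb.2 c hc, add_zero]⟩
  neg_mem' := fun {a} ha => ⟨by rw [smul_neg, ha.1, neg_zero],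
    fun c hc => by rw [smul_neg, ha.2 c hc, neg_zero]⟩

theorem mem_tors {m : ℕ} {𝔟 : Ideal R} {x : J} :
    x ∈ tors m 𝔟 J ↔ m • x = 0 ∧ ∀ b ∈ 𝔟, b • x = 0 := Iff.rfl

theorem gal_nsmul' (g : G) (k : ℕ) (m : J) : g • (k • m) = k • (g • m) :=
  map_nsmul (DistribSMul.toAddMonoidHom J g) k m

variable [SMulCommClass G R J]

theorem smul_mem_tors {m : ℕ} {𝔟 : Ideal R} (g : G) {x : J} (hx : x ∈ tors m 𝔟 J) :
    g • x ∈ tors m 𝔟 J :=
  ⟨by rw [← gal_nsmul', hx.1, smul_zero], fun b hb => by rw [← smul_comm, hx.2 b hb, smul_zero]⟩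

/-- The action on `tors`. -/
def act (m : ℕ) (𝔟 : Ideal R) (I : Subgroup G) : I →* AddMonoid.End (tors m 𝔟 J) where
  toFun g := { toFun := fun x => ⟨(g : G) • (x : J), smul_mem_tors _ x.2⟩
               map_zero' := Subtype.ext (smul_zero _)
               map_add' := fun _ _ => Subtype.ext (smul_add _ _ _) }
  map_one' := AddMonoidHom.ext fun _ => Subtype.ext (one_smul _ _)
  map_mul' _ _ := AddMonoidHom.ext fun _ => Subtype.ext (mul_smul _ _ _)

theorem coe_act {m : ℕ} {𝔟 : Ideal R} {I : Subgroup G} (g : I) (x : tors m 𝔟 J) :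
    (act m 𝔟 I g x : J) = (g : G) • (x : J) := rfl

theorem eq_zero_of_two {m : ℕ} (hm : Odd m) {x : J} (hx : m • x = 0) (h2 : 2 • x = 0) : x = 0 := by
  obtain ⟨k, rfl⟩ := hm
  rw [add_smul, one_smul, mul_comm, mul_smul, h2, smul_zero, zero_add] at hx
  exact hx

theorem triple {m : ℕ} (hm : Odd m) (𝔟 : Ideal R) (I : Subgroup G)
    (hI : ∀ τ ∈ I, ∀ x : J, m • x = 0 → (∀ b ∈ 𝔟, b • x = 0) → τ • τ • x - 2 • (τ • x) + x = 0)
    {τ σ ρ : G} (hτ : τ ∈ I) (hσ : σ ∈ I) (hρ : ρ ∈ I) {x : J} (hx : m • x = 0)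
    (hxb : ∀ b ∈ 𝔟, b • x = 0) :
    τ • (σ • (ρ • x - x) - (ρ • x - x)) - (σ • (ρ • x - x) - (ρ • x - x)) = 0 := by
  have h := triple_eq_zero (E := AddMonoid.End (tors m 𝔟 J)) (fun f hf => ?_) (act m 𝔟 I)
    (fun g => ?_) ⟨τ, hτ⟩ ⟨σ, hσ⟩ ⟨ρ, hρ⟩
  · have h1 := congrArg (fun f : AddMonoid.End (tors m 𝔟 J) => ((f ⟨x, hx, hxb⟩ : tors m 𝔟 J) : J)) h
    exact h1
  · refine AddMonoidHom.ext fun y => Subtype.ext ?_
    have h1 := congrArg (fun f : AddMonoid.End (tors m 𝔟 J) => ((f y : tors m 𝔟 J) : J)) hf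
    have h2 : ((((2 : AddMonoid.End (tors m 𝔟 J)) * f) y : tors m 𝔟 J) : J) =
        2 • ((f y : tors m 𝔟 J) : J) := by
      rw [← one_add_one_eq_two, add_mul, one_mul]
      show ((f y + f y : tors m 𝔟 J) : J) = _
      rw [two_smul]
      rfl
    exact eq_zero_of_two hm (f y).2.1 (h2.symm.trans h1)
  · refine AddMonoidHom.ext fun y => Subtype.ext ?_
    have h1 := hI g g.2 (y : J) y.2.1 y.2.2
    change (g : G) • ((g : G) • (y : J) - y) - ((g : G) • (y : J) - y) = 0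
    rw [smul_sub]
    rw [two_smul] at h1
    have h3 : (g : G) • (g : G) • (y : J) - (g : G) • (y : J) - ((g : G) • (y : J) - y) =
        (g : G) • (g : G) • (y : J) - ((g : G) • (y : J) + (g : G) • (y : J)) + y := by abel
    rw [h3, h1]

/-- `s³` kills `J[m][𝔟]` if `s` kills the `I`-invariants of `J[m]`. -/
theorem cube_smul {m : ℕ} (hm : Odd m) (𝔟 : Ideal R) (I : Subgroup G)
    (hI : ∀ τ ∈ I, ∀ x : J, m • x = 0 → (∀ b ∈ 𝔟, b • x = 0) → τ • τ • x - 2 • (τ • x) + x = 0)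
    (s : R) (hs : ∀ x : J, m • x = 0 → (∀ τ ∈ I, τ • x = x) → s • x = 0)
    {x : J} (hx : m • x = 0) (hxb : ∀ b ∈ 𝔟, b • x = 0) : s ^ 3 • x = 0 := by
  have hD : ∀ (g : G) {y : J}, m • y = 0 → m • (g • y - y) = 0 := by
    intro g y hy
    rw [smul_sub, ← gal_nsmul', hy, smul_zero, sub_zero]
  have hsD : ∀ (g : G) (y : J), s • (g • y - y) = g • (s • y) - s • y := by
    intro g y
    rw [smul_sub, smul_comm g s]
  have hsm : ∀ (a : R) {y : J}, m • y = 0 → m • (a • y) = 0 := by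
    intro a y hy
    rw [smul_comm, hy, smul_zero]
  -- `s D_σ D_ρ x = 0`
  have h1 : ∀ σ ∈ I, ∀ ρ ∈ I, s • (σ • (ρ • x - x) - (ρ • x - x)) = 0 := by
    intro σ hσ ρ hρ
    refine hs _ (hD σ (hD ρ hx)) fun τ hτ => ?_
    exact sub_eq_zero.mp (triple hm 𝔟 I hI hτ hσ hρ hx hxb)
  have h2 : ∀ ρ ∈ I, s • (s • (ρ • x - x)) = 0 := by
    intro ρ hρ
    refine hs _ (hsm s (hD ρ hx)) fun σ hσ => ?_
    rw [← sub_eq_zero, ← hsD]
    exact h1 σ hσ ρ hρ
  have h3 : s • (s • s • x) = 0 := by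
    refine hs _ (hsm s (hsm s hx)) fun ρ hρ => ?_
    rw [← sub_eq_zero, ← hsD, ← hsD]
    exact h2 ρ hρ
  rw [pow_succ, pow_two, mul_smul, mul_smul]
  exact h3

/-- **Main abstract statement.** -/
theorem eq_zero_of_kill_fixed {p : ℕ} (hp : Odd p)
    (hfin : ∀ n : ℕ, Finite {x : J // p ^ n • x = 0})
    {O : Type*} [CommRing O] [IsDomain O] [IsLocalRing O] [IsNoetherianRing O]
    (hpO : (p : O) ∈ maximalIdeal O) (χ : R →+* O)
    (hsupp : ∀ (n : ℕ) (a : R), (∀ x : J, p ^ n • x = 0 → a • x = 0) → (p : O) ^ n ∣ χ a)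
    (I : Subgroup G)
    (hI : ∀ n : ℕ, ∀ τ ∈ I, ∃ a : R, χ a - 2 ∈ maximalIdeal O ^ n ∧
      ∀ x : J, p ^ n • x = 0 → a • x = τ • x + τ⁻¹ • x)
    (s : R) (hs : ∀ (n : ℕ) (x : J), p ^ n • x = 0 → (∀ τ ∈ I, τ • x = x) → s • x = 0) :
    χ s = 0 := by
  obtain ⟨r, hr⟩ := dual_trick (R := R) (J := J) p hfin
  have hmem : ∀ n : ℕ, (χ s ^ 3) ^ r ∈ maximalIdeal O ^ n := by
    intro n
    obtain ⟨d, hd1, hd2⟩ := hr n (Ideal.comap χ (maximalIdeal O ^ n)) (s ^ 3) (fun x hx hxb => by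
      refine cube_smul (hp.pow (n := n)) (Ideal.comap χ (maximalIdeal O ^ n)) I ?_ s (hs n) hx hxb
      intro τ hτ y hy hyb
      obtain ⟨a, ha1, ha2⟩ := hI n τ hτ
      have h1 : (a - 2) • y = 0 := hyb _ (by
        rw [Ideal.mem_comap, map_sub, map_ofNat]
        exact ha1)
      have h2 : (2 : R) • y = y + y := by
        rw [← one_add_one_eq_two, add_smul, one_smul]
      rw [sub_smul, ha2 y hy, h2] at h1
      have h3 := congrArg (fun z => τ • z) h1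
      simp only [smul_sub, smul_add, smul_inv_smul, smul_zero] at h3
      rw [two_smul]
      have h4 : τ • τ • y - (τ • y + τ • y) + y = τ • τ • y + y - (τ • y + τ • y) := by abel
      rw [h4]
      exact h3)
    obtain ⟨y, hy⟩ := hsupp n d hd2
    rw [Ideal.mem_comap, map_sub, map_pow, map_pow] at hd1
    have h5 : χ d ∈ maximalIdeal O ^ n := by
      rw [hy]
      exact Ideal.mul_mem_right _ _ (Ideal.pow_mem_pow hpO n)
    have h6 := Ideal.sub_mem _ h5 hd1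
    rwa [sub_sub_cancel] at h6
  have hzero : (χ s ^ 3) ^ r = 0 := by
    have h1 : (χ s ^ 3) ^ r ∈ (⨅ n : ℕ, maximalIdeal O ^ n : Ideal O) :=
      (Submodule.mem_iInf _).mpr hmem
    rw [Ideal.iInf_pow_eq_bot_of_isLocalRing _ (Ideal.IsMaximal.ne_top inferInstance)] at h1
    exact h1
  exact pow_eq_zero_iff (three_ne_zero) |>.mp (eq_zero_of_pow_eq_zero hzero)

end Fermat.Agent.CMP.InertiaFixed
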