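import Mathlib
import Fermat.Prelude.Thm_Algebra_finite_maximalSpectrum_and_bijective_localization_of_module_finite
import Fermat.Prelude.Thm_IsLocalRing_isAdicComplete_of_module_finite

/-!
# Complete discrete valuation rings containing a given order

* finite domains over complete noetherian local rings are local;
* the integral closure of a complete DVR (char 0, finite residue field) in a finite extension is a
  complete DVR with finite residue field;
* every domain of characteristic zero, finite over `ℤ`, embeds into such a ring with prescribed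
  residue characteristic.
-/

set_option autoImplicit false

open IsLocalRing

namespace Fermat.Agent.CMP.OrderDVR

/-- A domain which is finite over a complete noetherian local ring is local. -/
theorem isLocalRing_of_finite (𝒪 : Type) [CommRing 𝒪] [IsLocalRing 𝒪] [IsNoetherianRing 𝒪]
    [IsAdicComplete (maximalIdeal 𝒪) 𝒪] (A : Type) [CommRing A] [IsDomain A] [Algebra 𝒪 A]
    [Module.Finite 𝒪 A] : IsLocalRing A := by
  classical
  obtain ⟨hfin, hbij, -, -⟩ :=
    Algebra.finite_maximalSpectrum_and_bijective_localization_of_module_finite (𝒪 := 𝒪) A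
  obtain ⟨m, hm⟩ := Ideal.exists_maximal A
  refine IsLocalRing.of_unique_max_ideal ⟨m, hm, fun m' hm' => ?_⟩
  by_contra hne
  let I : MaximalSpectrum A := ⟨m, hm⟩
  let I' : MaximalSpectrum A := ⟨m', hm'⟩
  have hII' : I' ≠ I := fun h => hne (congrArg MaximalSpectrum.asIdeal h)
  -- orthogonal idempotents
  obtain ⟨e, he⟩ := hbij.2 (Pi.single I 1)
  obtain ⟨e', he'⟩ := hbij.2 (Pi.single I' 1)
  have h0 : e * e' = 0 := by
    apply hbij.1
    rw [map_mul, he, he', map_zero]
    ext J
    by_cases hJ : J = I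
    · subst hJ
      rw [Pi.mul_apply, Pi.single_eq_of_ne hII'.symm, mul_zero, Pi.zero_apply]
    · rw [Pi.mul_apply, Pi.single_eq_of_ne hJ, zero_mul, Pi.zero_apply]
  rcases mul_eq_zero.mp h0 with h | h
  · rw [h, map_zero] at he
    have := congrFun he I
    rw [Pi.zero_apply, Pi.single_eq_same] at this
    exact zero_ne_one this
  · rw [h, map_zero] at he'
    have := congrFun he' I'
    rw [Pi.zero_apply, Pi.single_eq_same] at this
    exact zero_ne_one this

/-- A finite module over `𝒪` has finite quotient by an ideal containing a power of the maximal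
ideal, here: the residue field of a local finite `𝒪`-algebra is finite. -/
theorem finite_residueField_of_finite (𝒪 : Type*) [CommRing 𝒪] [IsLocalRing 𝒪]
    [Finite (ResidueField 𝒪)] (A : Type*) [CommRing A] [IsLocalRing A] [Algebra 𝒪 A]
    [Module.Finite 𝒪 A] [IsLocalHom (algebraMap 𝒪 A)] : Finite (ResidueField A) := by
  have : Module.Finite 𝒪 (ResidueField A) :=
    Module.Finite.of_surjective (IsScalarTower.toAlgHom 𝒪 A (ResidueField A)).toLinearMap
      IsLocalRing.residue_surjective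
  have : Module.Finite (ResidueField 𝒪) (ResidueField A) :=
    Module.Finite.of_restrictScalars_finite 𝒪 (ResidueField 𝒪) (ResidueField A)
  exact Module.finite_of_finite (ResidueField 𝒪)

/-- The integral closure of a complete DVR of characteristic zero with finite residue field in a
finite extension of the fraction field. -/
theorem integralClosure_properties (𝒪 : Type) [CommRing 𝒪] [IsDomain 𝒪]
    [IsDiscreteValuationRing 𝒪] [IsAdicComplete (maximalIdeal 𝒪) 𝒪] [Finite (ResidueField 𝒪)]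
    [CharZero 𝒪] (K : Type) [Field K] [Algebra 𝒪 K] [IsFractionRing 𝒪 K] (L : Type) [Field L]
    [Algebra K L] [Algebra 𝒪 L] [IsScalarTower 𝒪 K L] [FiniteDimensional K L] :
    ∃ _ : IsDiscreteValuationRing (integralClosure 𝒪 L),
      IsAdicComplete (maximalIdeal (integralClosure 𝒪 L)) (integralClosure 𝒪 L) ∧
      Finite (ResidueField (integralClosure 𝒪 L)) ∧ CharZero (integralClosure 𝒪 L) ∧
      Module.Finite 𝒪 (integralClosure 𝒪 L) ∧
      IsLocalHom (algebraMap 𝒪 (integralClosure 𝒪 L)) ∧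
      Function.Injective (algebraMap 𝒪 (integralClosure 𝒪 L)) := by
  have hKz : CharZero K := charZero_of_injective_algebraMap (IsFractionRing.injective 𝒪 K)
  have hLinj : Function.Injective (algebraMap 𝒪 L) := by
    rw [IsScalarTower.algebraMap_eq 𝒪 K L]
    exact (algebraMap K L).injective.comp (IsFractionRing.injective 𝒪 K)
  have hinj : Function.Injective (algebraMap 𝒪 (integralClosure 𝒪 L)) := by
    intro x y hxy
    exact hLinj (congrArg (algebraMap (integralClosure 𝒪 L) L) hxy)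
  have : FaithfulSMul 𝒪 (integralClosure 𝒪 L) := (faithfulSMul_iff_algebraMap_injective _ _).mpr hinj
  have hfin : Module.Finite 𝒪 (integralClosure 𝒪 L) :=
    IsIntegralClosure.finite 𝒪 K L (integralClosure 𝒪 L)
  have hded : IsDedekindDomain (integralClosure 𝒪 L) := integralClosure.isDedekindDomain 𝒪 K L
  have hloc : IsLocalRing (integralClosure 𝒪 L) := isLocalRing_of_finite 𝒪 _
  have hlh : IsLocalHom (algebraMap 𝒪 (integralClosure 𝒪 L)) := inferInstance
  have hnf : ¬ IsField (integralClosure 𝒪 L) := fun h =>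
    IsDiscreteValuationRing.not_isField 𝒪 (hlh.isField hinj h)
  have hdvr : IsDiscreteValuationRing (integralClosure 𝒪 L) :=
    ((IsDiscreteValuationRing.TFAE (integralClosure 𝒪 L) hnf).out 0 2).mpr hded
  refine ⟨hdvr, ?_, ?_, ?_, hfin, hlh, hinj⟩
  · exact IsLocalRing.isAdicComplete_of_module_finite (𝒪 := 𝒪)
  · exact finite_residueField_of_finite 𝒪 _
  · exact charZero_of_injective_algebraMap hinj

/-- Every domain finite over a complete DVR `𝒪` (char 0, finite residue field) and containing `𝒪`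
embeds, by a local homomorphism, into a finite extension DVR of `𝒪`. -/
theorem exists_dvr_of_finite_domain (𝒪 : Type) [CommRing 𝒪] [IsDomain 𝒪]
    [IsDiscreteValuationRing 𝒪] [IsAdicComplete (maximalIdeal 𝒪) 𝒪] [Finite (ResidueField 𝒪)]
    [CharZero 𝒪] (B : Type) [CommRing B] [IsDomain B] [Algebra 𝒪 B] [Module.Finite 𝒪 B]
    (hB : Function.Injective (algebraMap 𝒪 B)) :
    ∃ (O' : Type) (_ : CommRing O') (_ : IsDomain O') (_ : IsDiscreteValuationRing O')
      (_ : IsAdicComplete (maximalIdeal O') O') (_ : Finite (ResidueField O'))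
      (_ : CharZero O') (_ : Algebra 𝒪 O') (_ : Module.Finite 𝒪 O')
      (_ : IsLocalHom (algebraMap 𝒪 O')),
      Function.Injective (algebraMap 𝒪 O') ∧
        ∃ f : B →ₐ[𝒪] O', Function.Injective f ∧ IsLocalHom (f : B →+* O') := by
  classical
  let K := FractionRing 𝒪
  let Ω := AlgebraicClosure K
  have hinjΩ : Function.Injective (algebraMap 𝒪 Ω) := by
    rw [IsScalarTower.algebraMap_eq 𝒪 K Ω]
    exact (algebraMap K Ω).injective.comp (IsFractionRing.injective 𝒪 K)
  have : Module.IsTorsionFree 𝒪 Ω := by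
    rw [Module.isTorsionFree_iff_algebraMap_injective]; exact hinjΩ
  have : Module.IsTorsionFree 𝒪 B := by
    rw [Module.isTorsionFree_iff_algebraMap_injective]; exact hB
  have hint : Algebra.IsIntegral 𝒪 B := Algebra.IsIntegral.of_finite 𝒪 B
  let g : B →ₐ[𝒪] Ω := IsAlgClosed.lift
  have hg : Function.Injective g := by
    rw [injective_iff_map_eq_zero]
    have h1 : RingHom.ker (g : B →+* Ω) = ⊥ := by
      refine Ideal.eq_bot_of_comap_eq_bot (R := 𝒪) ?_
      rw [RingHom.comap_ker, ← RingHom.injective_iff_ker_eq_bot]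
      have : (g : B →+* Ω).comp (algebraMap 𝒪 B) = algebraMap 𝒪 Ω := g.comp_algebraMap
      rw [this]
      exact hinjΩ
    intro b hb
    have : b ∈ RingHom.ker (g : B →+* Ω) := hb
    rw [h1] at this
    exact this
  obtain ⟨s, hs⟩ := (‹Module.Finite 𝒪 B›).fg_top
  let T : Set Ω := g '' (s : Set B)
  have hTfin : Finite T := (s.finite_toSet.image g).to_subtype
  let L := IntermediateField.adjoin K T
  have hLfd : FiniteDimensional K L := IntermediateField.finiteDimensional_adjoin (S := T) (by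
    rintro _ ⟨b, -, rfl⟩
    exact ((hint.isIntegral b).map g).tower_top)
  have hgL : ∀ b : B, g b ∈ L := by
    intro b
    have hb : b ∈ Submodule.span 𝒪 (s : Set B) := by rw [hs]; trivial
    induction hb using Submodule.span_induction with
    | mem x hx => exact IntermediateField.subset_adjoin _ _ ⟨x, hx, rfl⟩
    | zero => rw [map_zero]; exact zero_mem _
    | add x y _ _ hx hy => rw [map_add]; exact add_mem hx hy
    | smul a x _ hx =>
      rw [map_smul, Algebra.smul_def, IsScalarTower.algebraMap_apply 𝒪 K Ω]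
      exact mul_mem (algebraMap_mem L _) hx
  let g' : B →ₐ[𝒪] L := 
    { toFun := fun b => ⟨g b, hgL b⟩
      map_one' := Subtype.ext (map_one g)
      map_mul' := fun x y => Subtype.ext (map_mul g x y)
      map_zero' := Subtype.ext (map_zero g)
      map_add' := fun x y => Subtype.ext (map_add g x y)
      commutes' := fun a => Subtype.ext (by
        change g (algebraMap 𝒪 B a) = algebraMap 𝒪 Ω a
        exact g.commutes a) }
  have hg' : Function.Injective g' := fun x y hxy => hg (congrArg Subtype.val hxy)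
  obtain ⟨hdvr, hac, hfr, hcz, hmf, hlh, hi⟩ := integralClosure_properties 𝒪 K L
  let f : B →ₐ[𝒪] integralClosure 𝒪 L :=
    g'.codRestrict _ (fun b => (hint.isIntegral b).map g')
  have hf : Function.Injective f := fun x y hxy => hg' (congrArg Subtype.val hxy)
  refine ⟨integralClosure 𝒪 L, inferInstance, inferInstance, hdvr, hac, hfr, hcz, inferInstance,
    hmf, hlh, hi, f, hf, ?_⟩
  refine RingHom.IsIntegral.isLocalHom ?_ hf
  have h2 : ((f : B →+* integralClosure 𝒪 L).comp (algebraMap 𝒪 B)).IsIntegral := by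
    have : (f : B →+* integralClosure 𝒪 L).comp (algebraMap 𝒪 B) = algebraMap 𝒪 _ :=
      f.comp_algebraMap
    rw [this]
    exact algebraMap_isIntegral_iff.mpr (Algebra.IsIntegral.of_finite 𝒪 _)
  exact RingHom.IsIntegral.tower_top _ _ h2

open scoped TensorProduct in
/-- Every maximal ideal `𝔪 ∋ p` of a finite torsion-free `ℤ`-algebra `R` is the pull back of the
maximal ideal of a complete DVR of characteristic zero, finite over `ℤ_p`, along some ring
homomorphism, which is injective when `R` is a domain. -/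
theorem exists_dvr_of_order (p : ℕ) [hpp : Fact p.Prime] (R : Type) [CommRing R]
    [Module.Finite ℤ R] [Module.IsTorsionFree ℤ R] (𝔪 : Ideal R) [h𝔪 : 𝔪.IsMaximal]
    (hp : (p : R) ∈ 𝔪) :
    ∃ (O' : Type) (_ : CommRing O') (_ : IsDomain O') (_ : IsDiscreteValuationRing O')
      (_ : IsAdicComplete (maximalIdeal O') O') (_ : Finite (ResidueField O'))
      (_ : CharZero O') (_ : Algebra ℤ_[p] O') (_ : Module.Finite ℤ_[p] O')
      (_ : IsLocalHom (algebraMap ℤ_[p] O')),
      Function.Injective (algebraMap ℤ_[p] O') ∧ (p : O') ∈ maximalIdeal O' ∧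
        ∃ f : R →+* O', (maximalIdeal O').comap f = 𝔪 ∧ (IsDomain R → Function.Injective f) := by
  classical
  let _ : Field (R ⧸ 𝔪) := Ideal.Quotient.field 𝔪
  have hchar : CharP (R ⧸ 𝔪) p := by
    have h0 : ((p : ℕ) : R ⧸ 𝔪) = 0 := by
      rw [← map_natCast (Ideal.Quotient.mk 𝔪), Ideal.Quotient.eq_zero_iff_mem]
      exact hp
    exact (CharP.charP_iff_prime_eq_zero hpp.out).mpr h0
  let α : ℤ_[p] →ₐ[ℤ] (R ⧸ 𝔪) :=
    ((ZMod.castHom (dvd_refl p) (R ⧸ 𝔪)).comp PadicInt.toZMod).toIntAlgHom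
  let β : R →ₐ[ℤ] (R ⧸ 𝔪) := Ideal.Quotient.mkₐ ℤ 𝔪
  let φ : ℤ_[p] ⊗[ℤ] R →ₐ[ℤ] (R ⧸ 𝔪) := Algebra.TensorProduct.productMap α β
  have hφr : ∀ r : R, φ (1 ⊗ₜ r) = Ideal.Quotient.mk 𝔪 r := by
    intro r
    rw [Algebra.TensorProduct.productMap_apply_tmul, map_one, one_mul]
    rfl
  have hφs : Function.Surjective (φ : ℤ_[p] ⊗[ℤ] R →+* (R ⧸ 𝔪)) := by
    intro y
    obtain ⟨r, rfl⟩ := Ideal.Quotient.mk_surjective y
    exact ⟨1 ⊗ₜ r, hφr r⟩
  let 𝔐 : Ideal (ℤ_[p] ⊗[ℤ] R) := RingHom.ker (φ : ℤ_[p] ⊗[ℤ] R →+* (R ⧸ 𝔪))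
  have h𝔐 : 𝔐.IsMaximal := RingHom.ker_isMaximal_of_surjective _ hφs
  obtain ⟨𝔓, h𝔓, h𝔓𝔐⟩ := Ideal.exists_minimalPrimes_le (I := ⊥) (J := 𝔐) bot_le
  have h𝔓p : 𝔓.IsPrime := h𝔓.1.1
  have hdisj := Ideal.disjoint_nonZeroDivisors_of_mem_minimalPrimes (p := 𝔓) h𝔓
  have hfreeR : Module.Free ℤ R := inferInstance
  have hfree : Module.Free ℤ_[p] (ℤ_[p] ⊗[ℤ] R) := inferInstance
  have hfin : Module.Finite ℤ_[p] (ℤ_[p] ⊗[ℤ] R) := inferInstance
  have hB : Function.Injective (algebraMap ℤ_[p] ((ℤ_[p] ⊗[ℤ] R) ⧸ 𝔓)) := by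
    rw [injective_iff_map_eq_zero]
    intro a ha
    by_contra hne
    have hmem : algebraMap ℤ_[p] (ℤ_[p] ⊗[ℤ] R) a ∈ 𝔓 := by
      rw [← Ideal.Quotient.eq_zero_iff_mem]; exact ha
    refine Set.disjoint_left.mp hdisj hmem ?_
    refine mem_nonZeroDivisors_iff_right.mpr fun x hx => ?_
    rw [mul_comm, ← Algebra.smul_def] at hx
    exact (smul_eq_zero_iff_right hne).mp hx
  have hdom : IsDomain ((ℤ_[p] ⊗[ℤ] R) ⧸ 𝔓) := Ideal.Quotient.isDomain 𝔓
  obtain ⟨O', i1, i2, i3, i4, i5, i6, i7, i8, i9, hinj, f, hf, hfl⟩ :=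
    exists_dvr_of_finite_domain ℤ_[p] ((ℤ_[p] ⊗[ℤ] R) ⧸ 𝔓) hB
  let F : R →+* O' := (f : _ →+* O').comp ((Ideal.Quotient.mk 𝔓).comp
    (Algebra.TensorProduct.includeRight (R := ℤ) (A := ℤ_[p]) (B := R)).toRingHom)
  have hpO : (p : O') ∈ maximalIdeal O' := by
    have h1 : (p : ℤ_[p]) ∈ maximalIdeal ℤ_[p] := by
      rw [PadicInt.maximalIdeal_eq_span_p]
      exact Ideal.mem_span_singleton_self _
    have h2 := (IsLocalRing.local_hom_TFAE (algebraMap ℤ_[p] O')).out 0 2
    have h3 := h2.mp i9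
    have h4 := h3 (Ideal.mem_map_of_mem _ h1)
    rwa [map_natCast] at h4
  refine ⟨O', i1, i2, i3, i4, i5, i6, i7, i8, i9, hinj, hpO, F, ?_, ?_⟩
  · symm
    refine h𝔪.eq_of_le (Ideal.IsPrime.ne_top inferInstance) fun x hx => ?_
    rw [Ideal.mem_comap, mem_maximalIdeal, mem_nonunits_iff]
    intro hu
    have hu' : IsUnit (Ideal.Quotient.mk 𝔓 ((1 : ℤ_[p]) ⊗ₜ[ℤ] x)) := hfl.map_nonunit _ hu
    let ψ : (ℤ_[p] ⊗[ℤ] R) ⧸ 𝔓 →+* (R ⧸ 𝔪) := Ideal.Quotient.lift 𝔓
      (φ : ℤ_[p] ⊗[ℤ] R →+* (R ⧸ 𝔪)) (fun a ha => RingHom.mem_ker.mp (h𝔓𝔐 ha))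
    have hu'' := hu'.map ψ
    have : ψ (Ideal.Quotient.mk 𝔓 ((1 : ℤ_[p]) ⊗ₜ[ℤ] x)) = 0 := by
      rw [Ideal.Quotient.lift_mk]
      change φ (1 ⊗ₜ x) = 0
      rw [hφr, Ideal.Quotient.eq_zero_iff_mem]
      exact hx
    rw [this] at hu''
    exact not_isUnit_zero hu''
  · intro hR
    have hint : Algebra.IsIntegral ℤ R := Algebra.IsIntegral.of_finite ℤ R
    rw [RingHom.injective_iff_ker_eq_bot]
    refine Ideal.eq_bot_of_comap_eq_bot (R := ℤ) ?_
    rw [RingHom.comap_ker, ← RingHom.injective_iff_ker_eq_bot]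
    have : F.comp (algebraMap ℤ R) = Int.castRingHom O' := RingHom.ext_int _ _
    rw [this]
    exact Int.cast_injective

/-- A domain of characteristic zero, finite over `ℤ`, embeds into a complete DVR of characteristic
zero, finite over `ℤ_p`. -/
theorem exists_embedding (p : ℕ) [hpp : Fact p.Prime] (R : Type) [CommRing R] [IsDomain R]
    [Module.Finite ℤ R] [CharZero R] :
    ∃ (O' : Type) (_ : CommRing O') (_ : IsDomain O') (_ : IsDiscreteValuationRing O')
      (_ : IsAdicComplete (maximalIdeal O') O') (_ : Finite (ResidueField O'))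
      (_ : CharZero O') (_ : Algebra ℤ_[p] O') (_ : Module.Finite ℤ_[p] O')
      (_ : IsLocalHom (algebraMap ℤ_[p] O')),
      Function.Injective (algebraMap ℤ_[p] O') ∧ (p : O') ∈ maximalIdeal O' ∧
        ∃ f : R →+* O', Function.Injective f := by
  have hnu : ¬ IsUnit (p : R) := by
    have hint : Algebra.IsIntegral ℤ R := Algebra.IsIntegral.of_finite ℤ R
    have hinj : Function.Injective (algebraMap ℤ R) := Int.cast_injective
    have : FaithfulSMul ℤ R := (faithfulSMul_iff_algebraMap_injective _ _).mpr hinj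
    have hl : IsLocalHom (algebraMap ℤ R) := inferInstance
    intro h
    have h1 : IsUnit (algebraMap ℤ R (p : ℤ)) := by
      rw [map_natCast]; exact h
    have h2 := hl.map_nonunit _ h1
    rw [Int.isUnit_iff] at h2
    have := hpp.out.two_le
    omega
  obtain ⟨𝔪, h𝔪, hle⟩ := Ideal.exists_le_maximal (Ideal.span {(p : R)})
    (fun htop => hnu (Ideal.span_singleton_eq_top.mp htop))
  have hp : (p : R) ∈ 𝔪 := hle (Ideal.mem_span_singleton_self _)
  have htf : Module.IsTorsionFree ℤ R := by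
    rw [Module.isTorsionFree_iff_algebraMap_injective]; exact Int.cast_injective
  obtain ⟨O', i1, i2, i3, i4, i5, i6, i7, i8, i9, hinj, hpO, f, -, hf⟩ :=
    exists_dvr_of_order p R 𝔪 hp
  exact ⟨O', i1, i2, i3, i4, i5, i6, i7, i8, i9, hinj, hpO, f, hf inferInstance⟩

end Fermat.Agent.CMP.OrderDVR
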