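import Mathlib
import Fermat.Agent.CMP.Density
import Fermat.Agent.CMP.OrderDVR
import Fermat.Agent.CMP.EigenCharOn
import Fermat.Agent.CMP.CharExtend
import Fermat.Agent.FrobExists
import Fermat.Prelude.Def_CuspForm_HeckeGaloisRepDatum

/-!
# Strong multiplicity one for Hecke eigensystems, via Galois representations

Two normalised eigenforms whose eigenvalues `a_ℓ` agree for almost all `ℓ` have the same `a_q` for
all primes `q` dividing neither level.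
-/

set_option autoImplicit false

open Polynomial IsLocalRing CongruenceSubgroup ModularFormClass

namespace Fermat.Agent.CMP.StrongMult

open Fermat.Agent.FrobCompare Fermat.Agent.CMP.Density

local notation "Γℚ" => (AlgebraicClosure ℚ ≃ₐ[ℚ] AlgebraicClosure ℚ)

/-- S30 with coefficients in the given ring itself (as produced by
`S30Wiring.exists_galoisRepAdic_of_point`). -/
def PointRep : Prop :=
  ∀ (p : ℕ) [Fact p.Prime] (N : ℕ) [NeZero N] (S : Finset ℕ)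
      (_hpS : p ∈ S) (_hNS : ∀ q : ℕ, q.Prime → q ∣ N → q ∈ S)
      (𝒪' : Type) [CommRing 𝒪'] [IsDomain 𝒪'] [IsDiscreteValuationRing 𝒪']
      [IsAdicComplete (IsLocalRing.maximalIdeal 𝒪') 𝒪'] [CharZero 𝒪']
      (_hp𝒪' : (p : 𝒪') ∈ IsLocalRing.maximalIdeal 𝒪')
      (χ : CuspForm.heckeAlgebra N 2 (↑S : Set ℕ) →+* 𝒪'),
      ∃ ρ : GaloisRepAdic 𝒪',
        (∀ (ℓ : ℕ) (hℓ : ℓ.Prime) (hℓN : ¬ ℓ ∣ N) (hℓS : ℓ ∉ (↑S : Set ℕ)),
          ∀ A : ValuationSubring (AlgebraicClosure ℚ), A.LiesOverPrime ℓ →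
            ∀ σ : AlgebraicClosure ℚ ≃ₐ[ℚ] AlgebraicClosure ℚ, A.IsFrobeniusAt σ ℓ →
              LinearMap.charpoly (ρ.ρ σ) =
                X ^ 2 - C (χ (CuspForm.heckeAlgebra.T hℓ hℓN hℓS)) * X + C ((ℓ : 𝒪'))) ∧
        (∀ q : ℕ, q.Prime → ¬ q ∣ N → q ≠ p → ρ.IsUnramifiedAt q)

theorem eq_of_quad {R : Type*} [CommRing R] {a a' b b' : R}
    (h : (X ^ 2 - C a * X + C b : R[X]) = X ^ 2 - C a' * X + C b') : a = a' := by
  have h1 := congrArg (fun P => P.coeff 1) h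
  simpa [coeff_X, coeff_C] using h1

/-- The character of an anemic Hecke algebra attached to an eigenform and a ring homomorphism on a
subring containing its range. -/
noncomputable def charTo {N : ℕ} [NeZero N] {S : Set ℕ} {O : Type*} [CommRing O]
    (χ : CuspForm.heckeAlgebra N 2 S →+* ℂ) {R : Subring ℂ} (h : χ.range ≤ R) (ι : R →+* O) :
    CuspForm.heckeAlgebra N 2 S →+* O :=
  (ι.comp (Subring.inclusion h)).comp χ.rangeRestrict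

theorem charTo_apply {N : ℕ} [NeZero N] {S : Set ℕ} {O : Type*} [CommRing O]
    (χ : CuspForm.heckeAlgebra N 2 S →+* ℂ) {R : Subring ℂ} (h : χ.range ≤ R) (ι : R →+* O)
    (t : CuspForm.heckeAlgebra N 2 S) :
    charTo χ h ι t = ι ⟨χ t, h ⟨t, rfl⟩⟩ := rfl

/-- **Strong multiplicity one** (away from the levels). -/
theorem qCoeff_eq_of_almost_all (hPR : PointRep) {N₁ N₂ : ℕ} [NeZero N₁] [NeZero N₂]
    {f₁ : CuspForm (Gamma0 N₁) 2} {f₂ : CuspForm (Gamma0 N₂) 2} (hf₁ : f₁.IsNormalizedEigenform)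
    (hf₂ : f₂.IsNormalizedEigenform) (D : Finset ℕ)
    (hD : ∀ ℓ : ℕ, ℓ.Prime → ℓ ∉ D → qCoeff ⇑f₁ ℓ = qCoeff ⇑f₂ ℓ) (q : ℕ) (hq : q.Prime)
    (hq₁ : ¬ q ∣ N₁) (hq₂ : ¬ q ∣ N₂) : qCoeff ⇑f₁ q = qCoeff ⇑f₂ q := by
  classical
  obtain ⟨lam, hlam, hne⟩ : ∃ lam : ℕ, lam.Prime ∧ lam ≠ q := by
    by_cases h : q = 2
    · exact ⟨3, Nat.prime_three, by omega⟩
    · exact ⟨2, Nat.prime_two, fun h' => h h'.symm⟩
  have : Fact lam.Prime := ⟨hlam⟩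
  let S : Finset ℕ := insert lam (N₁.primeFactors ∪ N₂.primeFactors)
  have hlamS : lam ∈ S := Finset.mem_insert_self _ _
  have hN₁S : ∀ q : ℕ, q.Prime → q ∣ N₁ → q ∈ S := fun q hq hqM =>
    Finset.mem_insert_of_mem (Finset.mem_union_left _
      (Nat.mem_primeFactors.mpr ⟨hq, hqM, NeZero.ne N₁⟩))
  have hN₂S : ∀ q : ℕ, q.Prime → q ∣ N₂ → q ∈ S := fun q hq hqM =>
    Finset.mem_insert_of_mem (Finset.mem_union_right _
      (Nat.mem_primeFactors.mpr ⟨hq, hqM, NeZero.ne N₂⟩))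
  let χ₁ := EigenCharOn.eigenCharOn (↑S : Set ℕ) hf₁
  let χ₂ := EigenCharOn.eigenCharOn (↑S : Set ℕ) hf₂
  have hfin₁ : Module.Finite ℤ χ₁.range := EigenCharOn.finite_range_of_heckeAlgebra χ₁
  have hfin₂ : Module.Finite ℤ χ₂.range := EigenCharOn.finite_range_of_heckeAlgebra χ₂
  let R₁ : Subalgebra ℤ ℂ := subalgebraOfSubring χ₁.range
  let R₂ : Subalgebra ℤ ℂ := subalgebraOfSubring χ₂.range
  have hR₁ : Module.Finite ℤ R₁ := hfin₁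
  have hR₂ : Module.Finite ℤ R₂ := hfin₂
  have hR : Module.Finite ℤ ↥(R₁ ⊔ R₂) := Subalgebra.finite_sup R₁ R₂
  let R : Subring ℂ := (R₁ ⊔ R₂).toSubring
  have hRfin : Module.Finite ℤ R := hR
  have hle₁ : χ₁.range ≤ R := fun x hx => (le_sup_left : R₁ ≤ R₁ ⊔ R₂) hx
  have hle₂ : χ₂.range ≤ R := fun x hx => (le_sup_right : R₂ ≤ R₁ ⊔ R₂) hx
  obtain ⟨O', i1, i2, i3, i4, i5, i6, i7, i8, i9, hinj, hpO, ι, hι⟩ :=
    OrderDVR.exists_embedding lam R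
  obtain ⟨ρ₁, hρ₁, -⟩ := hPR lam N₁ S hlamS hN₁S O' hpO (charTo χ₁ hle₁ ι)
  obtain ⟨ρ₂, hρ₂, -⟩ := hPR lam N₂ S hlamS hN₂S O' hpO (charTo χ₂ hle₂ ι)
  have hloc1 : IsLocalHom (RingHom.id O') := ⟨fun a ha => ha⟩
  have key := adic_charpoly_map_eq frobDensity (RingHom.id O') (RingHom.id O') hloc1 hloc1 ρ₁ ρ₂
    (S ∪ D) (by
      intro ℓ hℓ hℓS A hA τ hτ
      rw [Finset.mem_union, not_or] at hℓS
      have hS' : ℓ ∉ (↑S : Set ℕ) := fun h => hℓS.1 (Finset.mem_coe.mp h)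
      have hℓ₁ : ¬ ℓ ∣ N₁ := fun h => hℓS.1 (hN₁S ℓ hℓ h)
      have hℓ₂ : ¬ ℓ ∣ N₂ := fun h => hℓS.1 (hN₂S ℓ hℓ h)
      rw [hρ₁ ℓ hℓ hℓ₁ hS' A hA τ hτ, hρ₂ ℓ hℓ hℓ₂ hS' A hA τ hτ, charTo_apply, charTo_apply]
      have e1 : χ₁ (CuspForm.heckeAlgebra.T hℓ hℓ₁ hS') = χ₂ (CuspForm.heckeAlgebra.T hℓ hℓ₂ hS') := by
        rw [EigenCharOn.eigenCharOn_T, EigenCharOn.eigenCharOn_T]
        exact hD ℓ hℓ hℓS.2
      have e2 : (⟨χ₁ (CuspForm.heckeAlgebra.T hℓ hℓ₁ hS'), hle₁ ⟨_, rfl⟩⟩ : R) =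
        ⟨χ₂ (CuspForm.heckeAlgebra.T hℓ hℓ₂ hS'), hle₂ ⟨_, rfl⟩⟩ := Subtype.ext e1
      rw [e2])
  obtain ⟨A, hA⟩ := FrobExists.exists_liesOverPrime (AlgebraicClosure ℚ) hq
  obtain ⟨σ, hσ⟩ := FrobExists.exists_isFrobeniusAt A hq hA
  have hqS : q ∉ (↑S : Set ℕ) := by
    intro h
    rw [Finset.mem_coe, Finset.mem_insert, Finset.mem_union] at h
    rcases h with h | h | h
    · exact hne h.symm
    · exact hq₁ (Nat.dvd_of_mem_primeFactors h)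
    · exact hq₂ (Nat.dvd_of_mem_primeFactors h)
  have h1 := key σ
  rw [Polynomial.map_id, Polynomial.map_id, hρ₁ q hq hq₁ hqS A hA σ hσ,
    hρ₂ q hq hq₂ hqS A hA σ hσ, charTo_apply, charTo_apply] at h1
  have h2 := congrArg Subtype.val (hι (eq_of_quad h1))
  change χ₁ _ = χ₂ _ at h2
  rwa [EigenCharOn.eigenCharOn_T, EigenCharOn.eigenCharOn_T] at h2

end Fermat.Agent.CMP.StrongMult
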