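import Mathlib
import Fermat.Agent.CMP.StrongMult
import Fermat.Agent.S30Wiring
import Fermat.Prelude.Def_CuspForm_Newforms

/-!
# Newforms and lower level Hecke algebras

If `g` is a newform of level `M` and `M' ∣ M` is a proper divisor, some Hecke polynomial in the
`T_ℓ`, `ℓ ∉ S`, kills `S₂(Γ₀(M'))` but has a nonzero eigenvalue on `g`.
-/

set_option autoImplicit false

open CongruenceSubgroup ModularFormClass

namespace Fermat.Agent.CMP.Newness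

open Fermat.Agent.S30Wiring Fermat.Agent.CMP.StrongMult

/-- `PointRep` from helper69's inputs on `J₀(N)`. -/
theorem pointRep_of_inputs (HI : ∀ (p : ℕ) [Fact p.Prime] (N : ℕ) [NeZero N] (S : Finset ℕ),
      p ∈ S → (∀ q : ℕ, q.Prime → q ∣ N → q ∈ S) → Inputs N p S) : PointRep := by
  intro p _ N _ S hpS hNS 𝒪' _ _ _ _ _ hp𝒪' χ
  exact exists_galoisRepAdic_of_point hpS hNS (HI p N S hpS hNS) 𝒪' hp𝒪' χ

theorem anemicEval_X {N : ℕ} [NeZero N] {S : Finset ℕ} (hNS : ∀ q : ℕ, q.Prime → q ∣ N → q ∈ S)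
    (ℓ : {ℓ : Nat.Primes // (ℓ : ℕ) ∉ S}) (hℓN : ¬ (ℓ.1 : ℕ) ∣ N)
    (hℓS : (ℓ.1 : ℕ) ∉ (↑S : Set ℕ)) :
    anemicEval hNS (MvPolynomial.X ℓ) = CuspForm.heckeAlgebra.T ℓ.1.2 hℓN hℓS := by
  rw [anemicEval, MvPolynomial.aeval_X]

theorem anemicEval_surjective {N : ℕ} [NeZero N] {S : Finset ℕ}
    (hNS : ∀ q : ℕ, q.Prime → q ∣ N → q ∈ S) : Function.Surjective (anemicEval hNS) := by
  have hle : CuspForm.heckeAlgebra N 2 (↑S : Set ℕ) ≤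
      (anemicEval hNS).range.map (CuspForm.heckeAlgebra N 2 (↑S : Set ℕ)).val := by
    refine Algebra.adjoin_le ?_
    rintro _ (⟨ℓ, hℓ, hℓN, hℓS, rfl⟩ | ⟨q, hqN, hq, hqS, rfl⟩)
    · exact ⟨CuspForm.heckeAlgebra.T hℓ hℓN hℓS, ⟨MvPolynomial.X ⟨⟨ℓ, hℓ⟩, fun h =>
        hℓS (Finset.mem_coe.mpr h)⟩, anemicEval_X hNS _ hℓN hℓS⟩, rfl⟩
    · exact absurd (Finset.mem_coe.mpr (hNS q hq hqN)) hqS
  intro t
  obtain ⟨t', ⟨a, ha⟩, h⟩ := hle t.2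
  exact ⟨a, by rw [← (Subtype.ext h : t' = t)]; exact ha⟩

/-- Newness, expressed through the anemic Hecke algebra away from any finite set `S`. -/
theorem exists_kill_of_isNewform (hPR : PointRep) {M : ℕ} [NeZero M] {g : CuspForm (Gamma0 M) 2}
    (hg : g.IsNewform) {M' : ℕ} [NeZero M'] (hM' : M' ∣ M) (hne : M' ≠ M) (S : Finset ℕ)
    (hMS : ∀ q : ℕ, q.Prime → q ∣ M → q ∈ S) (hM'S : ∀ q : ℕ, q.Prime → q ∣ M' → q ∈ S) :
    ∃ t : AnemicAlg S, anemicEval (N := M') hM'S t = 0 ∧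
      EigenCharOn.eigenCharOn (↑S : Set ℕ) hg.1 (anemicEval (N := M) hMS t) ≠ 0 := by
  classical
  by_contra hcon
  push Not at hcon
  let ev : AnemicAlg S →+* CuspForm.heckeAlgebra M' 2 (↑S : Set ℕ) :=
    (anemicEval (N := M') hM'S).toRingHom
  have hsurj : Function.Surjective ev := anemicEval_surjective hM'S
  let ψ : AnemicAlg S →+* ℂ := (EigenCharOn.eigenCharOn (↑S : Set ℕ) hg.1).comp
    (anemicEval (N := M) hMS).toRingHom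
  let χ' : CuspForm.heckeAlgebra M' 2 (↑S : Set ℕ) →+* ℂ :=
    ev.liftOfSurjective hsurj ⟨ψ, fun t ht => hcon t ht⟩
  have hχ' : ∀ t : AnemicAlg S, χ' (anemicEval (N := M') hM'S t) = ψ t := fun t =>
    RingHom.liftOfRightInverse_comp_apply ev _ (Function.rightInverse_surjInv hsurj) ⟨ψ, _⟩ t
  obtain ⟨h, hh, hha⟩ := CharExtend.exists_eigenform_of_char χ'
  have hagree : ∀ ℓ : ℕ, ℓ.Prime → ℓ ∉ S → qCoeff ⇑h ℓ = qCoeff ⇑g ℓ := by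
    intro ℓ hℓ hℓS
    have hℓM : ¬ ℓ ∣ M := fun h => hℓS (hMS ℓ hℓ h)
    have hℓM' : ¬ ℓ ∣ M' := fun h => hℓS (hM'S ℓ hℓ h)
    have hℓS' : ℓ ∉ (↑S : Set ℕ) := fun h => hℓS (Finset.mem_coe.mp h)
    rw [hha ℓ hℓ hℓM' hℓS', ← anemicEval_X hM'S ⟨⟨ℓ, hℓ⟩, hℓS⟩ hℓM' hℓS', hχ']
    change EigenCharOn.eigenCharOn (↑S : Set ℕ) hg.1 (anemicEval (N := M) hMS _) = _
    rw [anemicEval_X hMS ⟨⟨ℓ, hℓ⟩, hℓS⟩ hℓM hℓS', EigenCharOn.eigenCharOn_T]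
  refine hg.2 M' hM' hne ⟨h, hh, fun ℓ hℓ hℓM => ?_⟩
  exact qCoeff_eq_of_almost_all hPR hh hg.1 S hagree ℓ hℓ (fun h' => hℓM (h'.trans hM')) hℓM

end Fermat.Agent.CMP.Newness
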