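import Mathlib
import Fermat.Prelude.Def_FLTPrelim_Modularity

/-!
# The trivial bound on the number of points of a Weierstrass curve over a finite field
-/

set_option autoImplicit false

namespace Fermat.Agent.CMP.PointCount

open WeierstrassCurve

variable {F : Type*} [Field F] (W : WeierstrassCurve F)

theorem card_fibre_le (x : F) : Nat.card {y : F // W.toAffine.Equation x y} ≤ 2 := by
  by_cases h : Nonempty {y : F // W.toAffine.Equation x y}
  · obtain ⟨y₁, hy₁⟩ := h
    have hsub : {y : F | W.toAffine.Equation x y} ⊆ {y₁, W.toAffine.negY x y₁} := by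
      intro y hy
      rcases Affine.Y_eq_of_X_eq hy hy₁ rfl with h | h
      · exact Or.inl h
      · exact Or.inr h
    calc Nat.card {y : F // W.toAffine.Equation x y}
        = Set.ncard {y : F | W.toAffine.Equation x y} := rfl
      _ ≤ Set.ncard ({y₁, W.toAffine.negY x y₁} : Set F) :=
          Set.ncard_le_ncard hsub (Set.toFinite _)
      _ ≤ 2 := by
          refine (Set.ncard_insert_le _ _).trans ?_
          rw [Set.ncard_singleton]
  · rw [not_nonempty_iff] at h
    rw [Nat.card_of_isEmpty]
    omega

theorem card_le [Finite F] : W.card ≤ 2 * Nat.card F + 1 := by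
  classical
  let _ := Fintype.ofFinite F
  let g : W.toAffine.Point → Option (Σ x : F, {y : F // W.toAffine.Equation x y})
    | .zero => none
    | .some x y h => Option.some ⟨x, y, h.1⟩
  have hg : Function.Injective g := by
    rintro (_ | ⟨x₁, y₁, h₁⟩) (_ | ⟨x₂, y₂, h₂⟩) h
    · rfl
    · exact absurd h (by simp [g])
    · exact absurd h (by simp [g])
    · simp only [g, Option.some.injEq, Sigma.mk.injEq] at h
      obtain ⟨rfl, h⟩ := h
      have := congrArg Subtype.val (eq_of_heq h)
      simp only at this
      subst this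
      rfl
  calc W.card = Nat.card W.toAffine.Point := rfl
    _ ≤ Nat.card (Option (Σ x : F, {y : F // W.toAffine.Equation x y})) :=
        Nat.card_le_card_of_injective g hg
    _ = Nat.card (Σ x : F, {y : F // W.toAffine.Equation x y}) + 1 := Finite.card_option
    _ = (∑ x : F, Nat.card {y : F // W.toAffine.Equation x y}) + 1 := by rw [Nat.card_sigma]
    _ ≤ (∑ _x : F, 2) + 1 := by
        gcongr with x
        exact card_fibre_le W x
    _ = 2 * Nat.card F + 1 := by
        rw [Finset.sum_const, Finset.card_univ, smul_eq_mul, Nat.card_eq_fintype_card, mul_comm]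

theorem one_le_card [Finite F] : 1 ≤ W.card := by
  have : Nonempty W.toAffine.Point := ⟨0⟩
  exact Nat.card_pos

theorem traceOfFrobenius_le [Finite F] : W.traceOfFrobenius ≤ Nat.card F := by
  have := one_le_card W
  rw [traceOfFrobenius]
  omega

theorem neg_le_traceOfFrobenius [Finite F] : -(Nat.card F : ℤ) ≤ W.traceOfFrobenius := by
  have := card_le W
  rw [traceOfFrobenius]
  omega

/-- The trivial bound: `a_q ≠ ±(q+1)`. -/
theorem apOfModel_ne (W : WeierstrassCurve ℤ) (q : ℕ) (hq : q.Prime) :
    W.apOfModel q ≠ q + 1 ∧ W.apOfModel q ≠ -((q : ℤ) + 1) := by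
  have : Fact q.Prime := ⟨hq⟩
  have h1 := traceOfFrobenius_le (W.reductionMod q)
  have h2 := neg_le_traceOfFrobenius (W.reductionMod q)
  rw [Nat.card_zmod] at h1 h2
  rw [apOfModel]
  constructor <;> omega

end Fermat.Agent.CMP.PointCount
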