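import Mathlib
import Fermat.Agent.DR.ModGal.Galois
import Fermat.Agent.JRED.AtkinLehnerInput
import Fermat.Agent.Jan.JAlgProof

/-!
# Push-forward on `Pic⁰` and Hecke operators

The push-forwards along `α, β : F_N → F_{Nd}` commute with `T_ℓ`, `ℓ` prime, `ℓ ∤ N d`.
-/

set_option autoImplicit false
set_option linter.style.haveILetI false

noncomputable section

open AlgebraicCurve ModularCurve

namespace Fermat.Agent.CMP.PushHecke

open Fermat.FF Fermat.Agent.Jan.HeckeInputs Fermat.Agent.Jan.RelFundamental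
  Fermat.Agent.Jan.PushPull Fermat.Agent.Jan.HeckeCommute

section Abstract

variable {K F F' : Type*} [Field K] [Field F] [Field F'] [Algebra K F] [Algebra K F']

/-- Push-forward on degree zero divisors. -/
def pushDegZero (φ : F →ₐ[K] F') (hφ : φ.toRingHom.IsIntegral) :
    Divisor.degZero (K := K) (F := F') →+ Divisor.degZero (K := K) (F := F) :=
  ((Divisor.pushforwardAlong φ hφ).domRestrict (Divisor.degZero (K := K) (F := F'))).codRestrict _
    (fun D => Divisor.pushforwardAlong_mem_degZero φ hφ D.2)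

/-- Push-forward on `Pic⁰`. -/
def pushPic0 (φ : F →ₐ[K] F') (hφ : φ.toRingHom.IsIntegral) (hfin : FiniteAlong K φ)
    (hN : NormFormulaAlong K φ hfin) : Pic0 K F' →+ Pic0 K F :=
  QuotientAddGroup.map _ _ (pushDegZero φ hφ) (by
    rintro ⟨D, hD0⟩ hD
    simp only [AddSubgroup.mem_addSubgroupOf] at hD ⊢
    exact Divisor.isPrincipal_pushforwardAlong φ hφ hfin hN hD)

theorem pushPic0_mk (φ : F →ₐ[K] F') (hφ : φ.toRingHom.IsIntegral) (hfin : FiniteAlong K φ)
    (hN : NormFormulaAlong K φ hfin) (D : Divisor.degZero (K := K) (F := F')) :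
    pushPic0 φ hφ hfin hN (Pic0.mk D) = Pic0.mk (pushDegZero φ hφ D) := rfl

theorem coe_pushDegZero (φ : F →ₐ[K] F') (hφ : φ.toRingHom.IsIntegral)
    (D : Divisor.degZero (K := K) (F := F')) :
    (pushDegZero φ hφ D : Divisor K F) = Divisor.pushforwardAlong φ hφ D := rfl

theorem pushPic0_congr {φ φ' : F →ₐ[K] F'} (h : φ = φ') (hφ : φ.toRingHom.IsIntegral)
    (hfin : FiniteAlong K φ) (hN : NormFormulaAlong K φ hfin) (hφ' : φ'.toRingHom.IsIntegral)
    (hfin' : FiniteAlong K φ') (hN' : NormFormulaAlong K φ' hfin') (x : Pic0 K F') :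
    pushPic0 φ hφ hfin hN x = pushPic0 φ' hφ' hfin' hN' x := by
  subst h; rfl

/-- Norms along `φ ∘ automorphisms`. -/
theorem normAlong_conj (φ : F →ₐ[K] F') (w : F ≃ₐ[K] F) (w' : F' ≃ₐ[K] F')
    (h : ∀ x, w' (φ x) = φ (w x)) (f : F') : normAlong φ (w' f) = w (normAlong φ f) := by
  letI := algebraAlong φ
  show Algebra.norm F (w' f) = w (Algebra.norm F f)
  have h1 := Algebra.norm_eq_of_equiv_equiv (A₁ := F) (B₁ := F') (A₂ := F) (B₂ := F')
    (w : F ≃+* F) (w' : F' ≃+* F') (by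
      ext x
      exact (h x).symm) f
  exact ((AlgEquiv.symm_apply_eq w).mp h1.symm)

end Abstract

section Modular

variable (L : Type) [Field L] [Algebra ℚ L] [IsAlgClosed L]

theorem generation (N : ℕ) [NeZero N] : FunctionFieldGeneration N :=
  Fermat.Agent.FunField.functionFieldGeneration N

variable {N M d ℓ : ℕ} [NeZero N] [NeZero M] [NeZero d] [NeZero ℓ]

/-- The degrees of `F_N → F_M` and `F_{Nℓ} → F_{Mℓ}` (both `x(q) ↦ x(q^e)`) agree, `ℓ ∤ M`. -/
theorem finrankAlong_degen_mul {e : ℕ} [NeZero e] (hℓ : ℓ.Prime) (hℓM : ¬ ℓ ∣ M) (h : N * e ∣ M)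
    [NeZero (M * ℓ)] (h' : N * ℓ * e ∣ M * ℓ) :
    finrankAlong L (degen L (N * ℓ) (M * ℓ) e h') = finrankAlong L (degen L N M e h) := by
  have hNM : N ∣ M := (dvd_mul_right N e).trans h
  have hℓN : ¬ ℓ ∣ N := fun h1 => hℓM (h1.trans hNM)
  have hc : (degen L (N * ℓ) (M * ℓ) e h').comp (heckeAlphaBar L N ℓ) =
      (heckeAlphaBar L M ℓ).comp (degen L N M e h) := by
    refine AlgHom.ext fun x => Subtype.ext ?_
    show qExpand L e ((heckeAlphaBar L N ℓ x : _) : LaurentSeries L) =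
      ((heckeAlphaBar L M ℓ (degen L N M e h x) : _) : LaurentSeries L)
    rw [coe_heckeAlphaBar, coe_heckeAlphaBar]
    rfl
  have h1 := congrArg (finrankAlong L) hc
  rw [finrankAlong_comp, finrankAlong_comp, JRED.AL.finrankAlong_alpha_of_not_dvd L N ℓ hℓ hℓN,
    JRED.AL.finrankAlong_alpha_of_not_dvd L M ℓ hℓ hℓM, mul_comm] at h1
  exact Nat.eq_of_mul_eq_mul_right (Nat.succ_pos ℓ) h1

/-- Base change of divisors along a square from the norm identity. -/
theorem baseChange_of_norm {F L₁ L₂ E : Type*} [Field F] [Field L₁] [Field L₂] [Field E]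
    [Algebra L F] [Algebra L L₁] [Algebra L L₂] [Algebra L E] [IsFF1 L F] [IsFF1 L L₁] [IsFF1 L L₂]
    [IsFF1 L E] [HasPrincipalDivisors L L₁] [HasPrincipalDivisors L L₂] [HasPrincipalDivisors L E]
    (a : F →ₐ[L] L₁) (b : F →ₐ[L] L₂) (a' : L₂ →ₐ[L] E) (b' : L₁ →ₐ[L] E)
    (ha : a.toRingHom.IsIntegral) (hb : b.toRingHom.IsIntegral)
    (ha' : a'.toRingHom.IsIntegral) (hb' : b'.toRingHom.IsIntegral)
    (hcomm : ∀ x, b' (a x) = a' (b x))
    (hnorm : ∀ f : L₂, normAlong b' (a' f) = a (normAlong b f)) (D : Divisor L L₂) :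
    Divisor.pullbackAlong a ha (Divisor.pushforwardAlong b hb D) =
      Divisor.pushforwardAlong b' hb' (Divisor.pullbackAlong a' ha' D) := by
  have : CharZero L := charZero_of_injective_algebraMap (algebraMap ℚ L).injective
  exact pullback_pushforward a b a' b' ha hb ha' hb' hcomm (finiteAlong _) (finiteAlong _)
    (normFormulaAlong _ _) (normFormulaAlong _ _) hnorm D

/-- The square `(β_ℓ, α_d)`. -/
theorem baseChange_alpha (hℓ : ℓ.Prime) (hℓM : ¬ ℓ ∣ N * d) [NeZero (N * d * ℓ)]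
    (h1 : N * 1 ∣ N * d) (h2 : N * ℓ * 1 ∣ N * d * ℓ)
    (D : Divisor L (laurentBaseChange L (modularFunctionFieldFull (N * d)))) :
    haveI := hasPrincipalDivisors_modular L jAlg (N * ℓ)
    haveI := hasPrincipalDivisors_modular L jAlg (N * d * ℓ)
    Divisor.pullbackAlong (heckeBetaBar L N ℓ) (heckeBetaBarIntegral L N ℓ jAlg)
      (Divisor.pushforwardAlong (degen L N (N * d) 1 h1) (degen_integral L jAlg _ _ _ h1) D) =
    Divisor.pushforwardAlong (degen L (N * ℓ) (N * d * ℓ) 1 h2) (degen_integral L jAlg _ _ _ h2)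
      (Divisor.pullbackAlong (heckeBetaBar L (N * d) ℓ)
        (heckeBetaBarIntegral L (N * d) ℓ jAlg) D) := by
  haveI := hasPrincipalDivisors_modular L jAlg (N * ℓ)
  haveI := hasPrincipalDivisors_modular L jAlg (N * d * ℓ)
  haveI := hasPrincipalDivisors_modular L jAlg (N * d)
  haveI := isFF1_modular L jAlg N
  haveI := isFF1_modular L jAlg (N * d)
  haveI := isFF1_modular L jAlg (N * ℓ)
  haveI := isFF1_modular L jAlg (N * d * ℓ)
  have hcomm : ∀ x, degen L (N * ℓ) (N * d * ℓ) 1 h2 (heckeBetaBar L N ℓ x) =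
      heckeBetaBar L (N * d) ℓ (degen L N (N * d) 1 h1 x) := by
    intro x
    refine Subtype.ext ?_
    rw [coe_degen, coe_heckeBetaBar, coe_heckeBetaBar, coe_degen, qExpand_one_apply,
      qExpand_one_apply]
  refine baseChange_of_norm L _ _ _ _ _ _ _ _ hcomm ?_ D
  refine normAlong_baseChange _ _ _ _ hcomm (finiteAlong _) (finiteAlong _)
    (finrankAlong_degen_mul L hℓ hℓM h1 h2) ?_
  have h3 : N * d * ℓ ∣ N * d * ℓ := dvd_rfl
  have h4 := mem_closure_of_generation (ℓ := ℓ) (ℓ' := d) L (show N * ℓ * d = N * d * ℓ by ring)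
    (generation (N * d * ℓ)) h2 h3
  intro x
  rw [heckeBetaBar_eq_degen]
  exact h4 x

/-- The square `(α_ℓ, β_d)`, norms. -/
theorem norm_alpha_beta (hℓ : ℓ.Prime) (hℓM : ¬ ℓ ∣ N * d) [NeZero (N * d * ℓ)]
    (h1 : N * d ∣ N * d) (h2 : N * ℓ * d ∣ N * d * ℓ)
    (f : laurentBaseChange L (modularFunctionFieldFull (N * d))) :
    normAlong (degen L (N * ℓ) (N * d * ℓ) d h2) (heckeAlphaBar L (N * d) ℓ f) =
      heckeAlphaBar L N ℓ (normAlong (degen L N (N * d) d h1) f) := by
  haveI := isFF1_modular L jAlg N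
  haveI := isFF1_modular L jAlg (N * d)
  haveI := isFF1_modular L jAlg (N * ℓ)
  haveI := isFF1_modular L jAlg (N * d * ℓ)
  have hcomm : ∀ x, degen L (N * ℓ) (N * d * ℓ) d h2 (heckeAlphaBar L N ℓ x) =
      heckeAlphaBar L (N * d) ℓ (degen L N (N * d) d h1 x) := by
    intro x
    refine Subtype.ext ?_
    rw [coe_degen, coe_heckeAlphaBar, coe_heckeAlphaBar, coe_degen]
  refine normAlong_baseChange _ _ _ _ hcomm (finiteAlong _) (finiteAlong _)
    (finrankAlong_degen_mul L hℓ hℓM h1 h2) ?_ f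
  have h3 : N * d * 1 ∣ N * d * ℓ := by rw [mul_one]; exact dvd_mul_right _ _
  have h4 := mem_closure_of_generation (ℓ := d) (ℓ' := ℓ) L (show N * d * ℓ = N * d * ℓ from rfl)
    (generation (N * d * ℓ)) h3 h2
  intro x
  rw [heckeAlphaBar_eq_degen, Set.union_comm]
  exact h4 x

/-- The square `(β_ℓ, β_d)`, norms. -/
theorem norm_beta_beta (hℓ : ℓ.Prime) (hℓM : ¬ ℓ ∣ N * d) [NeZero (N * d * ℓ)]
    (h1 : N * d ∣ N * d) (h2 : N * ℓ * d ∣ N * d * ℓ)
    (f : laurentBaseChange L (modularFunctionFieldFull (N * d))) :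
    normAlong (degen L (N * ℓ) (N * d * ℓ) d h2) (heckeBetaBar L (N * d) ℓ f) =
      heckeBetaBar L N ℓ (normAlong (degen L N (N * d) d h1) f) := by
  haveI : Fact ℓ.Prime := ⟨hℓ⟩
  have hℓN : ¬ ℓ ∣ N := fun h => hℓM (h.mul_right d)
  obtain ⟨w, -, hw1, hw2⟩ := JRED.AL.exists_wBar L N ℓ hℓN
  obtain ⟨w', -, hw1', hw2'⟩ := JRED.AL.exists_wBar L (N * d) ℓ hℓM
  have key : ∀ x, w' (degen L (N * ℓ) (N * d * ℓ) d h2 x) =
      degen L (N * ℓ) (N * d * ℓ) d h2 (w x) := by
    have hext : (w' : laurentBaseChange L (modularFunctionFieldFull (N * d * ℓ)) →+*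
        laurentBaseChange L (modularFunctionFieldFull (N * d * ℓ))).comp
        ((degen L (N * ℓ) (N * d * ℓ) d h2 : _ →ₐ[L] _) : _ →+* _) =
        ((degen L (N * ℓ) (N * d * ℓ) d h2 : _ →ₐ[L] _) : _ →+* _).comp
        (w : laurentBaseChange L (modularFunctionFieldFull (N * ℓ)) →+*
          laurentBaseChange L (modularFunctionFieldFull (N * ℓ))) := by
      refine DR.ModGal.hom_ext_alpha_beta hℓ (fun c => ?_) (fun x => ?_) (fun x => ?_)
      · simp only [RingHom.comp_apply, RingHom.coe_coe]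
        rw [AlgHom.commutes, AlgEquiv.commutes, AlgEquiv.commutes, AlgHom.commutes]
      · simp only [RingHom.comp_apply, RingHom.coe_coe]
        have e1 : degen L (N * ℓ) (N * d * ℓ) d h2 (heckeAlphaBar L N ℓ x) =
            heckeAlphaBar L (N * d) ℓ (degen L N (N * d) d h1 x) := by
          refine Subtype.ext ?_
          rw [coe_degen, coe_heckeAlphaBar, coe_heckeAlphaBar, coe_degen]
        rw [e1, hw1', hw1]
        refine Subtype.ext ?_
        rw [coe_heckeBetaBar, coe_degen, coe_degen, coe_heckeBetaBar, qExpand_qExpand,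
          qExpand_qExpand]
        exact qExpand_congr (mul_comm _ _) _
      · simp only [RingHom.comp_apply, RingHom.coe_coe]
        have e1 : degen L (N * ℓ) (N * d * ℓ) d h2 (heckeBetaBar L N ℓ x) =
            heckeBetaBar L (N * d) ℓ (degen L N (N * d) d h1 x) := by
          refine Subtype.ext ?_
          rw [coe_degen, coe_heckeBetaBar, coe_heckeBetaBar, coe_degen, qExpand_qExpand,
            qExpand_qExpand]
          exact qExpand_congr (mul_comm _ _) _
        rw [e1, hw2', hw2]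
        refine Subtype.ext ?_
        rw [coe_heckeAlphaBar, coe_degen, coe_degen, coe_heckeAlphaBar]
    exact fun x => RingHom.congr_fun hext x
  rw [← hw1' f, normAlong_conj _ w w' key, norm_alpha_beta L hℓ hℓM h1 h2, hw1]

/-- The square `(β_ℓ, β_d)`. -/
theorem baseChange_beta (hℓ : ℓ.Prime) (hℓM : ¬ ℓ ∣ N * d) [NeZero (N * d * ℓ)]
    (h1 : N * d ∣ N * d) (h2 : N * ℓ * d ∣ N * d * ℓ)
    (D : Divisor L (laurentBaseChange L (modularFunctionFieldFull (N * d)))) :
    haveI := hasPrincipalDivisors_modular L jAlg (N * ℓ)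
    haveI := hasPrincipalDivisors_modular L jAlg (N * d * ℓ)
    Divisor.pullbackAlong (heckeBetaBar L N ℓ) (heckeBetaBarIntegral L N ℓ jAlg)
      (Divisor.pushforwardAlong (degen L N (N * d) d h1) (degen_integral L jAlg _ _ _ h1) D) =
    Divisor.pushforwardAlong (degen L (N * ℓ) (N * d * ℓ) d h2) (degen_integral L jAlg _ _ _ h2)
      (Divisor.pullbackAlong (heckeBetaBar L (N * d) ℓ)
        (heckeBetaBarIntegral L (N * d) ℓ jAlg) D) := by
  haveI := hasPrincipalDivisors_modular L jAlg (N * ℓ)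
  haveI := hasPrincipalDivisors_modular L jAlg (N * d * ℓ)
  haveI := hasPrincipalDivisors_modular L jAlg (N * d)
  haveI := isFF1_modular L jAlg N
  haveI := isFF1_modular L jAlg (N * d)
  haveI := isFF1_modular L jAlg (N * ℓ)
  haveI := isFF1_modular L jAlg (N * d * ℓ)
  refine baseChange_of_norm L _ _ _ _ _ _ _ _ ?_ (norm_beta_beta L hℓ hℓM h1 h2) D
  intro x
  refine Subtype.ext ?_
  rw [coe_degen, coe_heckeBetaBar, coe_heckeBetaBar, coe_degen, qExpand_qExpand, qExpand_qExpand]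
  exact qExpand_congr (mul_comm _ _) _

/-- Push-forward along `x(q) ↦ x(q^e)`, on `Pic⁰`. -/
def push (N M e : ℕ) [NeZero N] [NeZero M] [NeZero e] (h : N * e ∣ M) :
    Pic0 L (laurentBaseChange L (modularFunctionFieldFull M)) →+
      Pic0 L (laurentBaseChange L (modularFunctionFieldFull N)) :=
  haveI := isFF1_modular L jAlg N
  haveI := isFF1_modular L jAlg M
  haveI := hasPrincipalDivisors_modular L jAlg N
  haveI := hasPrincipalDivisors_modular L jAlg M
  haveI : CharZero L := charZero_of_injective_algebraMap (algebraMap ℚ L).injective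
  pushPic0 (degen L N M e h) (degen_integral L jAlg N M e h) (finiteAlong _)
    (normFormulaAlong _ _)

theorem push_mk (N M e : ℕ) [NeZero N] [NeZero M] [NeZero e] (h : N * e ∣ M)
    (D : Divisor.degZero (K := L) (F := laurentBaseChange L (modularFunctionFieldFull M))) :
    push L N M e h (Pic0.mk D) =
      Pic0.mk (pushDegZero (degen L N M e h) (degen_integral L jAlg N M e h) D) := rfl

omit [Algebra ℚ L] [IsAlgClosed L] in
/-- The divisor identity behind `push ∘ T_ℓ = T_ℓ ∘ push`. -/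
theorem push_correspondence {F L₁ F' E : Type*} [Field F] [Field L₁] [Field F'] [Field E]
    [Algebra L F] [Algebra L L₁] [Algebra L F'] [Algebra L E]
    [HasPrincipalDivisors L L₁] [HasPrincipalDivisors L E]
    (φ : F →ₐ[L] F') (φ' : L₁ →ₐ[L] E) (α β : F →ₐ[L] L₁) (α' β' : F' →ₐ[L] E)
    (hφ : φ.toRingHom.IsIntegral) (hφ' : φ'.toRingHom.IsIntegral)
    (hα : α.toRingHom.IsIntegral) (hβ : β.toRingHom.IsIntegral)
    (hα' : α'.toRingHom.IsIntegral) (hβ' : β'.toRingHom.IsIntegral)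
    (hc : α'.comp φ = φ'.comp α) (hdeg : ∀ w : Place L E, w.deg = 1)
    (hbc : ∀ D : Divisor L F', Divisor.pullbackAlong β hβ (Divisor.pushforwardAlong φ hφ D) =
      Divisor.pushforwardAlong φ' hφ' (Divisor.pullbackAlong β' hβ' D)) (D : Divisor L F') :
    Divisor.pushforwardAlong φ hφ (Divisor.correspondence β' α' hβ' hα' D) =
      Divisor.correspondence β α hβ hα (Divisor.pushforwardAlong φ hφ D) := by
  rw [Divisor.correspondence_apply, Divisor.correspondence_apply, hbc,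
    ← pushforwardAlong_comp φ α' hφ hα' (isIntegral_comp _ _ hφ hα') hdeg,
    ← pushforwardAlong_comp α φ' hα hφ' (isIntegral_comp _ _ hα hφ') hdeg]
  exact pushforwardAlong_congr hc _ _ _

theorem mk_eq_of_coe {K F : Type*} [Field K] [Field F] [Algebra K F]
    {D D' : Divisor.degZero (K := K) (F := F)} (h : (D : Divisor K F) = D') :
    Pic0.mk D = Pic0.mk D' := congrArg Pic0.mk (Subtype.ext h)

/-- `T_ℓ` on the class of a divisor. -/
theorem heckeOperatorAlong_mk (N ℓ : ℕ) [NeZero N] [NeZero ℓ]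
    (D : Divisor.degZero (K := L) (F := laurentBaseChange L (modularFunctionFieldFull N))) :
    haveI := hasPrincipalDivisors_modular L jAlg (N * ℓ)
    ∃ D' : Divisor.degZero (K := L) (F := laurentBaseChange L (modularFunctionFieldFull N)),
      heckeOperatorAlong L N ℓ (Pic0.mk D) = Pic0.mk D' ∧
      (D' : Divisor L (laurentBaseChange L (modularFunctionFieldFull N))) =
        Divisor.correspondence (heckeBetaBar L N ℓ) (heckeAlphaBar L N ℓ)
          (heckeBetaBarIntegral L N ℓ jAlg) (heckeAlphaBarIntegral L N ℓ jAlg) D := by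
  obtain ⟨hα, hβ, hP, hfin, hFI, hN⟩ := heckeInputsAlong L N ℓ jAlg
  rw [heckeOperatorAlong_eq hα hβ hFI hfin hN]
  exact ⟨_, rfl, rfl⟩

/-- Push-forward commutes with `T_ℓ` once the base change formula holds. -/
theorem push_hecke_of_baseChange {e : ℕ} [NeZero e] [NeZero (M * ℓ)] (h1 : N * e ∣ M)
    (h2 : N * ℓ * e ∣ M * ℓ)
    (hbc : ∀ D : Divisor L (laurentBaseChange L (modularFunctionFieldFull M)),
      haveI := hasPrincipalDivisors_modular L jAlg (N * ℓ)
      haveI := hasPrincipalDivisors_modular L jAlg (M * ℓ)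
      Divisor.pullbackAlong (heckeBetaBar L N ℓ) (heckeBetaBarIntegral L N ℓ jAlg)
        (Divisor.pushforwardAlong (degen L N M e h1) (degen_integral L jAlg _ _ _ h1) D) =
      Divisor.pushforwardAlong (degen L (N * ℓ) (M * ℓ) e h2) (degen_integral L jAlg _ _ _ h2)
        (Divisor.pullbackAlong (heckeBetaBar L M ℓ) (heckeBetaBarIntegral L M ℓ jAlg) D))
    (x : Pic0 L (laurentBaseChange L (modularFunctionFieldFull M))) :
    push L N M e h1 (heckeOperatorAlong L M ℓ x) = heckeOperatorAlong L N ℓ (push L N M e h1 x) := by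
  haveI i1 := hasPrincipalDivisors_modular L jAlg (N * ℓ)
  haveI i2 := hasPrincipalDivisors_modular L jAlg (M * ℓ)
  haveI : CharZero L := charZero_of_injective_algebraMap (algebraMap ℚ L).injective
  haveI := isFF1_modular L jAlg (M * ℓ)
  have hc : (heckeAlphaBar L M ℓ).comp (degen L N M e h1) =
      (degen L (N * ℓ) (M * ℓ) e h2).comp (heckeAlphaBar L N ℓ) := by
    refine AlgHom.ext fun x => Subtype.ext ?_
    show ((heckeAlphaBar L M ℓ (degen L N M e h1 x) : _) : LaurentSeries L) =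
      qExpand L e ((heckeAlphaBar L N ℓ x : _) : LaurentSeries L)
    rw [coe_heckeAlphaBar, coe_heckeAlphaBar]
    rfl
  have hdeg : ∀ w : Place L (laurentBaseChange L (modularFunctionFieldFull (M * ℓ))), w.deg = 1 :=
    fun w => deg_eq_one w
  obtain ⟨D, rfl⟩ := Pic0.mk_surjective x
  have key := push_correspondence L (degen L N M e h1) (degen L (N * ℓ) (M * ℓ) e h2)
    (heckeAlphaBar L N ℓ) (heckeBetaBar L N ℓ) (heckeAlphaBar L M ℓ) (heckeBetaBar L M ℓ)
    (degen_integral L jAlg _ _ _ h1) (degen_integral L jAlg _ _ _ h2)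
    (heckeAlphaBarIntegral L N ℓ jAlg) (heckeBetaBarIntegral L N ℓ jAlg)
    (heckeAlphaBarIntegral L M ℓ jAlg) (heckeBetaBarIntegral L M ℓ jAlg) hc hdeg hbc
    (D : Divisor L _)
  obtain ⟨D₁, hD₁, hD₁'⟩ := heckeOperatorAlong_mk L M ℓ D
  obtain ⟨D₂, hD₂, hD₂'⟩ := heckeOperatorAlong_mk L N ℓ
    (pushDegZero (degen L N M e h1) (degen_integral L jAlg _ _ _ h1) D)
  rw [hD₁, push_mk, push_mk, hD₂]
  refine mk_eq_of_coe ?_
  rw [hD₂', coe_pushDegZero, hD₁', key, coe_pushDegZero]

/-- `α_* T_ℓ = T_ℓ α_*`. -/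
theorem push_alpha_hecke (hℓ : ℓ.Prime) (hℓM : ¬ ℓ ∣ N * d) [NeZero (N * d)] (h1 : N * 1 ∣ N * d)
    (x : Pic0 L (laurentBaseChange L (modularFunctionFieldFull (N * d)))) :
    push L N (N * d) 1 h1 (heckeOperatorAlong L (N * d) ℓ x) =
      heckeOperatorAlong L N ℓ (push L N (N * d) 1 h1 x) :=
  haveI : NeZero (N * d * ℓ) := ⟨Nat.mul_ne_zero (NeZero.ne _) (NeZero.ne _)⟩
  have h2 : N * ℓ * 1 ∣ N * d * ℓ := ⟨d, by ring⟩
  push_hecke_of_baseChange L h1 h2 (baseChange_alpha L hℓ hℓM h1 h2) x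

/-- `β_* T_ℓ = T_ℓ β_*`. -/
theorem push_beta_hecke (hℓ : ℓ.Prime) (hℓM : ¬ ℓ ∣ N * d) [NeZero (N * d)] (h1 : N * d ∣ N * d)
    (x : Pic0 L (laurentBaseChange L (modularFunctionFieldFull (N * d)))) :
    push L N (N * d) d h1 (heckeOperatorAlong L (N * d) ℓ x) =
      heckeOperatorAlong L N ℓ (push L N (N * d) d h1 x) :=
  haveI : NeZero (N * d * ℓ) := ⟨Nat.mul_ne_zero (NeZero.ne _) (NeZero.ne _)⟩
  have h2 : N * ℓ * d ∣ N * d * ℓ := ⟨1, by ring⟩
  push_hecke_of_baseChange L h1 h2 (baseChange_beta L hℓ hℓM h1 h2) x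

end Modular

end Fermat.Agent.CMP.PushHecke
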