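import Mathlib
import Fermat.Agent.CMP.Density
import Fermat.Agent.CMP.OrderDVR
import Fermat.Agent.CMP.PointCount
import Fermat.Agent.CMP.EigenCharOn
import Fermat.Agent.Oldform
import Fermat.Agent.BrauerNesbittGalois
import Fermat.Agent.FrobExists
import Fermat.Prelude.Def_CuspForm_Newforms
import Fermat.Prelude.Def_CuspForm_HeckeGaloisRepDatum
import Fermat.Prelude.Def_GaloisRep_LocalConditions
import Fermat.Prelude.Def_WeierstrassCurve_ConductorLevel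

/-!
# Level lowering to the conductor for semistable modular elliptic curves (S58), from S35, S36 and
the Tate modules of the curve
-/

set_option autoImplicit false

open Polynomial IsLocalRing CongruenceSubgroup ModularFormClass

namespace Fermat.Agent.CMP.S58Assembly

open Fermat.Agent.FrobCompare Fermat.Agent.CMP.Density

local notation "Γℚ" => (AlgebraicClosure ℚ ≃ₐ[ℚ] AlgebraicClosure ℚ)

/-- The statement S35. -/
def S35Prop : Prop :=
  ∀ {M : ℕ} [NeZero M] {g : CuspForm (CongruenceSubgroup.Gamma0 M) 2} (_hg : g.IsNewform)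
    (lam : ℕ) [Fact lam.Prime]
    (S : Finset ℕ)
    (O' : Type) [CommRing O'] [IsDomain O'] [IsDiscreteValuationRing O']
    [IsAdicComplete (IsLocalRing.maximalIdeal O') O'] [Finite (IsLocalRing.ResidueField O')]
    [CharZero O'] (_hlamO' : (lam : O') ∈ IsLocalRing.maximalIdeal O')
    (chig : CuspForm.heckeAlgebra M 2 (↑S : Set ℕ) →+* ℂ)
    (_hchig : ∀ (ℓ : ℕ) (hℓ : ℓ.Prime) (hℓM : ¬ ℓ ∣ M) (hℓS : ℓ ∉ (↑S : Set ℕ)),
      chig (CuspForm.heckeAlgebra.T hℓ hℓM hℓS) = ModularFormClass.qCoeff g ℓ)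
    (iota : chig.range →+* O')
    (_hlamS : lam ∈ S) (_hMS : ∀ q : ℕ, q.Prime → q ∣ M → q ∈ S),
    ∃ (O'' : Type) (_ : CommRing O'') (_ : IsDomain O'') (_ : IsDiscreteValuationRing O'')
      (_ : IsAdicComplete (IsLocalRing.maximalIdeal O'') O'') (_ : Finite (IsLocalRing.ResidueField O''))
      (_ : CharZero O'') (_ : Algebra O' O'') (_ : Module.Finite O' O'') (_ : IsLocalHom (algebraMap O' O'')),
      Function.Injective (algebraMap O' O'') ∧
      ∃ ρ : GaloisRepAdic O'',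
        (∀ (ℓ : ℕ) (hℓ : ℓ.Prime) (hℓM : ¬ ℓ ∣ M) (hℓS : ℓ ∉ (↑S : Set ℕ)),
          ∀ A : ValuationSubring (AlgebraicClosure ℚ), A.LiesOverPrime ℓ →
            ∀ σ : AlgebraicClosure ℚ ≃ₐ[ℚ] AlgebraicClosure ℚ, A.IsFrobeniusAt σ ℓ →
              LinearMap.charpoly (ρ.ρ σ) =
                X ^ 2 - C (algebraMap O' O'' ((iota.comp chig.rangeRestrict) (CuspForm.heckeAlgebra.T hℓ hℓM hℓS))) * X
                  + C ((ℓ : O''))) ∧
        (∀ q : ℕ, q.Prime → q ≠ lam → q ∣ M → ¬ q ^ 2 ∣ M →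
          ∀ A : ValuationSubring (AlgebraicClosure ℚ), A.LiesOverPrime q →
            ∀ σ : AlgebraicClosure ℚ ≃ₐ[ℚ] AlgebraicClosure ℚ, A.IsFrobeniusAt σ q →
              LinearMap.charpoly (ρ.ρ σ) = X ^ 2 - C ((q : O'') + 1) * X + C ((q : O'')) ∨
              LinearMap.charpoly (ρ.ρ σ) = X ^ 2 + C ((q : O'') + 1) * X + C ((q : O'')))

/-- The statement S36. -/
def S36Prop : Prop :=
  ∀ {M : ℕ} [NeZero M] {g : CuspForm (CongruenceSubgroup.Gamma0 M) 2} (_hg : g.IsNewform)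
    (lam : ℕ) [Fact lam.Prime]
    (S : Finset ℕ)
    (O' : Type) [CommRing O'] [IsDomain O'] [IsDiscreteValuationRing O']
    [IsAdicComplete (IsLocalRing.maximalIdeal O') O'] [Finite (IsLocalRing.ResidueField O')]
    [CharZero O'] (_hlamO' : (lam : O') ∈ IsLocalRing.maximalIdeal O')
    (_hlam2 : lam ≠ 2)
    (chig : CuspForm.heckeAlgebra M 2 (↑S : Set ℕ) →+* ℂ)
    (_hchig : ∀ (ℓ : ℕ) (hℓ : ℓ.Prime) (hℓM : ¬ ℓ ∣ M) (hℓS : ℓ ∉ (↑S : Set ℕ)),
      chig (CuspForm.heckeAlgebra.T hℓ hℓM hℓS) = ModularFormClass.qCoeff g ℓ)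
    (iota : chig.range →+* O')
    (_hlamS : lam ∈ S) (_hMS : ∀ q : ℕ, q.Prime → q ∣ M → q ∈ S)
    (_hres : ∀ (O'' : Type) [CommRing O''] [IsDomain O''] [IsDiscreteValuationRing O'']
      [IsAdicComplete (IsLocalRing.maximalIdeal O'') O''] [Finite (IsLocalRing.ResidueField O'')] [CharZero O'']
      [Algebra O' O''] [Module.Finite O' O''] [IsLocalHom (algebraMap O' O'')],
      Function.Injective (algebraMap O' O'') → ∀ (ρ : GaloisRepAdic O''),
      (∀ (ℓ : ℕ) (hℓ : ℓ.Prime) (_hℓlam : ℓ ≠ lam) (hℓM : ¬ ℓ ∣ M) (hℓS : ℓ ∉ (↑S : Set ℕ)),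
        ∀ A : ValuationSubring (AlgebraicClosure ℚ), A.LiesOverPrime ℓ →
          ∀ σ : AlgebraicClosure ℚ ≃ₐ[ℚ] AlgebraicClosure ℚ, A.IsFrobeniusAt σ ℓ →
            LinearMap.charpoly (ρ.ρ σ) =
              X ^ 2 - C (algebraMap O' O'' ((iota.comp chig.rangeRestrict) (CuspForm.heckeAlgebra.T hℓ hℓM hℓS))) * X
                + C ((ℓ : O'')))
      → ρ.residual.IsAbsolutelyIrreducible ∧ ρ.residual.IsOdd),
    ∃ (O'' : Type) (_ : CommRing O'') (_ : IsDomain O'') (_ : IsDiscreteValuationRing O'')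
      (_ : IsAdicComplete (IsLocalRing.maximalIdeal O'') O'') (_ : Finite (IsLocalRing.ResidueField O''))
      (_ : CharZero O'') (_ : Algebra O' O'') (_ : Module.Finite O' O'') (_ : IsLocalHom (algebraMap O' O'')),
      Function.Injective (algebraMap O' O'') ∧
      ∃ ρ : GaloisRepAdic O'',
        (∀ (ℓ : ℕ) (hℓ : ℓ.Prime) (hℓM : ¬ ℓ ∣ M) (hℓS : ℓ ∉ (↑S : Set ℕ)),
          ∀ A : ValuationSubring (AlgebraicClosure ℚ), A.LiesOverPrime ℓ →
            ∀ σ : AlgebraicClosure ℚ ≃ₐ[ℚ] AlgebraicClosure ℚ, A.IsFrobeniusAt σ ℓ →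
              LinearMap.charpoly (ρ.ρ σ) =
                X ^ 2 - C (algebraMap O' O'' ((iota.comp chig.rangeRestrict) (CuspForm.heckeAlgebra.T hℓ hℓM hℓS))) * X
                  + C ((ℓ : O''))) ∧
        (∀ q : ℕ, q.Prime → q ≠ lam → M.factorization q = 2 → ¬ ρ.IsUnipotentOnInertiaAt q)

/-- What we use about the `p`-adic Tate module of the semistable curve `W`. -/
structure IsTateOf (W : WeierstrassCurve ℤ) (p : ℕ) [Fact p.Prime] (ρ : GaloisRepAdic ℤ_[p]) :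
    Prop where
  charpoly_frob : ∀ ℓ : ℕ, ℓ.Prime → ℓ ≠ p → ¬ (ℓ : ℤ) ∣ W.Δ →
    ∀ A : ValuationSubring (AlgebraicClosure ℚ), A.LiesOverPrime ℓ →
      ∀ σ : Γℚ, A.IsFrobeniusAt σ ℓ →
        LinearMap.charpoly (ρ.ρ σ) =
          X ^ 2 - C ((W.apOfModel ℓ : ℤ) : ℤ_[p]) * X + C (ℓ : ℤ_[p])
  unip : ∀ q : ℕ, q.Prime → q ≠ p → ρ.IsUnipotentOnInertiaAt q
  irr : W.ModRepIsIrreducible p → ρ.residual.IsIrreducible

/-- The Tate module input. -/
def TateInput (W : WeierstrassCurve ℤ) : Prop :=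
  ∀ (p : ℕ) [Fact p.Prime], ∃ ρ : GaloisRepAdic ℤ_[p], IsTateOf W p ρ

theorem eq_of_quad {R : Type*} [CommRing R] {a a' b b' : R}
    (h : (X ^ 2 - C a * X + C b : R[X]) = X ^ 2 - C a' * X + C b') : a = a' := by
  have h1 := congrArg (fun P => P.coeff 1) h
  simpa [coeff_X, coeff_C] using h1

theorem map_quad {R R' : Type*} [CommRing R] [CommRing R'] (f : R →+* R') (a : ℤ) (b : ℕ) :
    (X ^ 2 - C (a : R) * X + C (b : R) : R[X]).map f = X ^ 2 - C (a : R') * X + C (b : R') := by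
  rw [Polynomial.map_add, Polynomial.map_sub, Polynomial.map_mul, Polynomial.map_pow,
    Polynomial.map_X, Polynomial.map_C, Polynomial.map_C, map_intCast, map_natCast]

section Compare

variable {M : ℕ} [NeZero M] {g : CuspForm (Gamma0 M) 2} {W : WeierstrassCurve ℤ}

/-- The representation attached to `g` has the same characteristic polynomials as the Tate module
of `W`. -/
theorem compare (hΔ : W.Δ ≠ 0) (D : Finset ℕ)
    (hgW : ∀ ℓ : ℕ, ℓ.Prime → ℓ ∉ D → qCoeff ⇑g ℓ = (W.apOfModel ℓ : ℂ))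
    (lam : ℕ) [Fact lam.Prime] (S : Finset ℕ)
    (O' O'' : Type) [CommRing O'] [IsLocalRing O'] [CommRing O''] [IsLocalRing O'']
    [IsNoetherianRing O''] [Algebra ℤ_[lam] O'] [IsLocalHom (algebraMap ℤ_[lam] O')]
    [Algebra O' O''] [IsLocalHom (algebraMap O' O'')]
    (chig : CuspForm.heckeAlgebra M 2 (↑S : Set ℕ) →+* ℂ)
    (hchig : ∀ (ℓ : ℕ) (hℓ : ℓ.Prime) (hℓM : ¬ ℓ ∣ M) (hℓS : ℓ ∉ (↑S : Set ℕ)),
      chig (CuspForm.heckeAlgebra.T hℓ hℓM hℓS) = ModularFormClass.qCoeff g ℓ)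
    (iota : chig.range →+* O') (ρ : GaloisRepAdic O'')
    (hρ : ∀ (ℓ : ℕ) (hℓ : ℓ.Prime) (_hℓlam : ℓ ≠ lam) (hℓM : ¬ ℓ ∣ M)
      (hℓS : ℓ ∉ (↑S : Set ℕ)),
      ∀ A : ValuationSubring (AlgebraicClosure ℚ), A.LiesOverPrime ℓ →
        ∀ σ : Γℚ, A.IsFrobeniusAt σ ℓ →
          LinearMap.charpoly (ρ.ρ σ) =
            X ^ 2 - C (algebraMap O' O'' ((iota.comp chig.rangeRestrict)
              (CuspForm.heckeAlgebra.T hℓ hℓM hℓS))) * X + C ((ℓ : O'')))
    (ρE : GaloisRepAdic ℤ_[lam]) (hρE : IsTateOf W lam ρE) (σ : Γℚ) :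
    LinearMap.charpoly (ρ.ρ σ) = (LinearMap.charpoly (ρE.ρ σ)).map
      ((algebraMap O' O'').comp (algebraMap ℤ_[lam] O')) := by
  classical
  have hloc : IsLocalHom ((algebraMap O' O'').comp (algebraMap ℤ_[lam] O')) := inferInstance
  have hloc1 : IsLocalHom (RingHom.id O'') := ⟨fun a ha => ha⟩
  have key := adic_charpoly_map_eq frobDensity (RingHom.id O'')
    ((algebraMap O' O'').comp (algebraMap ℤ_[lam] O')) hloc1 hloc ρ ρE
    (S ∪ D ∪ {lam} ∪ M.primeFactors ∪ W.Δ.natAbs.primeFactors) ?_ σ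
  · rwa [Polynomial.map_id] at key
  · intro ℓ hℓ hℓS A hA τ hτ
    simp only [Finset.mem_union, Finset.mem_singleton, not_or] at hℓS
    obtain ⟨⟨⟨⟨hS, hD⟩, hlam⟩, hM⟩, hΔ'⟩ := hℓS
    have hℓM : ¬ ℓ ∣ M := fun h => hM (Nat.mem_primeFactors.mpr ⟨hℓ, h, NeZero.ne M⟩)
    have hℓΔ : ¬ (ℓ : ℤ) ∣ W.Δ := fun h => hΔ' (Nat.mem_primeFactors.mpr
      ⟨hℓ, Int.natCast_dvd.mp h, Int.natAbs_ne_zero.mpr hΔ⟩)
    have hS' : ℓ ∉ (↑S : Set ℕ) := fun h => hS (Finset.mem_coe.mp h)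
    rw [hρ ℓ hℓ hlam hℓM hS' A hA τ hτ, hρE.charpoly_frob ℓ hℓ hlam hℓΔ A hA τ hτ]
    have h1 : chig.rangeRestrict (CuspForm.heckeAlgebra.T hℓ hℓM hS') =
        ((W.apOfModel ℓ : ℤ) : chig.range) := by
      apply Subtype.ext
      rw [RingHom.coe_rangeRestrict, hchig, hgW ℓ hℓ hD]
      simp
    rw [RingHom.comp_apply, h1]
    simp

/-- The eigenvalue of `T_q` on `g` is `a_q(W)` at every common good prime `q`; moreover `q ∥ M`
implies `q ∣ Δ`. -/
theorem apOfModel_eq_and_dvd (h35 : S35Prop) (hT : TateInput W) (hg : g.IsNewform) (hΔ : W.Δ ≠ 0)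
    (D : Finset ℕ)
    (hgW : ∀ ℓ : ℕ, ℓ.Prime → ℓ ∉ D → qCoeff ⇑g ℓ = (W.apOfModel ℓ : ℂ)) (q : ℕ) (hq : q.Prime)
    (hqΔ : ¬ (q : ℤ) ∣ W.Δ) :
    (¬ q ∣ M → qCoeff ⇑g q = (W.apOfModel q : ℂ)) ∧ ¬ (q ∣ M ∧ ¬ q ^ 2 ∣ M) := by
  classical
  -- an auxiliary prime
  obtain ⟨lam, hlam, hne⟩ : ∃ lam : ℕ, lam.Prime ∧ lam ≠ q := by
    by_cases h : q = 2
    · exact ⟨3, Nat.prime_three, by omega⟩
    · exact ⟨2, Nat.prime_two, fun h' => h h'.symm⟩
  have : Fact lam.Prime := ⟨hlam⟩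
  let S : Finset ℕ := insert lam M.primeFactors
  have hlamS : lam ∈ S := Finset.mem_insert_self _ _
  have hMS : ∀ q : ℕ, q.Prime → q ∣ M → q ∈ S := fun q hq hqM =>
    Finset.mem_insert_of_mem (Nat.mem_primeFactors.mpr ⟨hq, hqM, NeZero.ne M⟩)
  let chig := EigenCharOn.eigenCharOn (↑S : Set ℕ) hg.1
  have hchig : ∀ (ℓ : ℕ) (hℓ : ℓ.Prime) (hℓM : ¬ ℓ ∣ M) (hℓS : ℓ ∉ (↑S : Set ℕ)),
      chig (CuspForm.heckeAlgebra.T hℓ hℓM hℓS) = ModularFormClass.qCoeff g ℓ :=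
    fun ℓ hℓ hℓM hℓS => EigenCharOn.eigenCharOn_T _ hg.1 hℓ hℓM hℓS
  have hfin : Module.Finite ℤ chig.range := EigenCharOn.finite_range_of_heckeAlgebra chig
  obtain ⟨O', i1, i2, i3, i4, i5, i6, i7, i8, i9, hinj, hpO, iota, hiota⟩ :=
    OrderDVR.exists_embedding lam chig.range
  obtain ⟨O'', j1, j2, j3, j4, j5, j6, j7, j8, j9, hinj', ρ, hρ, hρq⟩ :=
    h35 hg lam S O' hpO chig hchig iota hlamS hMS
  obtain ⟨ρE, hρE⟩ := hT lam
  have hcmp := compare hΔ D hgW lam S O' O'' chig hchig iota ρ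
    (fun ℓ hℓ _ hℓM hℓS => hρ ℓ hℓ hℓM hℓS) ρE hρE
  obtain ⟨A, hA⟩ := FrobExists.exists_liesOverPrime (AlgebraicClosure ℚ) hq
  obtain ⟨σ, hσ⟩ := FrobExists.exists_isFrobeniusAt A hq hA
  have hE := hρE.charpoly_frob q hq hne.symm hqΔ A hA σ hσ
  have h1 := hcmp σ
  rw [hE] at h1
  rw [map_quad] at h1
  constructor
  · intro hqM
    have hqS : q ∉ (↑S : Set ℕ) := by
      intro h
      rw [Finset.mem_coe, Finset.mem_insert] at h
      rcases h with h | h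
      · exact hne h.symm
      · exact hqM (Nat.dvd_of_mem_primeFactors h)
    rw [hρ q hq hqM hqS A hA σ hσ] at h1
    have h2 := eq_of_quad h1
    have h3 : algebraMap O' O'' (iota ((W.apOfModel q : ℤ) : chig.range)) =
        ((W.apOfModel q : ℤ) : O'') := by rw [map_intCast, map_intCast]
    rw [← h3] at h2
    have h4 := hiota (hinj' h2)
    have h5 := congrArg Subtype.val h4
    rw [RingHom.coe_rangeRestrict, hchig] at h5
    rw [h5]
    simp
  · rintro ⟨hqM, hqM2⟩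
    obtain ⟨hn1, hn2⟩ := PointCount.apOfModel_ne W q hq
    rcases hρq q hq hne.symm hqM hqM2 A hA σ hσ with h | h
    · rw [h] at h1
      have h2 := eq_of_quad h1
      apply hn1
      have : (((q : ℤ) + 1 : ℤ) : O'') = ((W.apOfModel q : ℤ) : O'') := by
        rw [← h2]; push_cast; rfl
      exact (Int.cast_injective this).symm
    · rw [h] at h1
      have h2 : (X ^ 2 - C (-((q : O'') + 1)) * X + C (q : O'') : O''[X]) =
          X ^ 2 - C ((W.apOfModel q : ℤ) : O'') * X + C (q : O'') := by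
        rw [← h1, C_neg]; ring
      have h3 := eq_of_quad h2
      apply hn2
      have : ((-((q : ℤ) + 1) : ℤ) : O'') = ((W.apOfModel q : ℤ) : O'') := by
        rw [← h3]; push_cast; rfl
      exact (Int.cast_injective this).symm

omit [NeZero M] in
theorem charP_residueField (p : ℕ) [Fact p.Prime] : CharP (ResidueField ℤ_[p]) p :=
  charP_of_injective_ringHom (f := (PadicInt.residueField (p := p)).symm.toRingHom)
    (PadicInt.residueField (p := p)).symm.injective p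

theorem charpoly_residual {A : Type} [CommRing A] [IsLocalRing A] (ρ : GaloisRepAdic A) (σ : Γℚ) :
    LinearMap.charpoly (ρ.residual.ρ σ) = (LinearMap.charpoly (ρ.ρ σ)).map (residue A) :=
  LinearMap.charpoly_baseChange (ρ.ρ σ) (ResidueField A)

/-- The residual representation of the Tate module is absolutely irreducible and odd. -/
theorem residual_tate (hΔ : W.Δ ≠ 0) (p : ℕ) [Fact p.Prime] (hp2 : p ≠ 2)
    (hirr : W.ModRepIsIrreducible p) (ρE : GaloisRepAdic ℤ_[p]) (hρE : IsTateOf W p ρE) :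
    ρE.residual.IsAbsolutelyIrreducible ∧ ρE.residual.IsOdd := by
  classical
  have := charP_residueField p
  have hodd : ρE.residual.IsOdd := by
    refine isOdd_of_frob frobDensity p ρE.residual ({p} ∪ W.Δ.natAbs.primeFactors) ?_
    intro ℓ hℓ hℓS P hP σ hσ
    simp only [Finset.mem_union, Finset.mem_singleton, not_or] at hℓS
    have hℓΔ : ¬ (ℓ : ℤ) ∣ W.Δ := fun h => hℓS.2 (Nat.mem_primeFactors.mpr
      ⟨hℓ, Int.natCast_dvd.mp h, Int.natAbs_ne_zero.mpr hΔ⟩)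
    have h1 := charpoly_residual ρE σ
    rw [hρE.charpoly_frob ℓ hℓ hℓS.1 hℓΔ P hP σ hσ, map_quad,
      BN2.charpoly_eq_of_finrank_two ρE.residual.finrank_eq] at h1
    have h2 := congrArg (fun P => P.coeff 0) h1
    simpa [coeff_C] using h2
  refine ⟨BN2.isAbsolutelyIrreducible_of_isIrreducible_of_isOdd ?_ _ (hρE.irr hirr) hodd, hodd⟩
  intro h
  have h2 : ((2 : ℕ) : ResidueField ℤ_[p]) = 0 := by exact_mod_cast h
  rw [CharP.cast_eq_zero_iff (ResidueField ℤ_[p]) p] at h2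
  have := (Nat.prime_dvd_prime_iff_eq (Fact.out : p.Prime) Nat.prime_two).mp h2
  exact hp2 this

/-- If `q ≠ p` then `q` does not divide `M` exactly twice. -/
theorem factorization_ne_two (h36 : S36Prop) (hT : TateInput W) (hg : g.IsNewform) (hΔ : W.Δ ≠ 0)
    (D : Finset ℕ)
    (hgW : ∀ ℓ : ℕ, ℓ.Prime → ℓ ∉ D → qCoeff ⇑g ℓ = (W.apOfModel ℓ : ℂ))
    (p : ℕ) [hpf : Fact p.Prime] (hp2 : p ≠ 2) (hirr : W.ModRepIsIrreducible p)
    (q : ℕ) (hq : q.Prime) (hqp : q ≠ p) :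
    M.factorization q ≠ 2 := by
  classical
  let S : Finset ℕ := insert p M.primeFactors
  have hpS : p ∈ S := Finset.mem_insert_self _ _
  have hMS : ∀ q : ℕ, q.Prime → q ∣ M → q ∈ S := fun q hq hqM =>
    Finset.mem_insert_of_mem (Nat.mem_primeFactors.mpr ⟨hq, hqM, NeZero.ne M⟩)
  let chig := EigenCharOn.eigenCharOn (↑S : Set ℕ) hg.1
  have hchig : ∀ (ℓ : ℕ) (hℓ : ℓ.Prime) (hℓM : ¬ ℓ ∣ M) (hℓS : ℓ ∉ (↑S : Set ℕ)),
      chig (CuspForm.heckeAlgebra.T hℓ hℓM hℓS) = ModularFormClass.qCoeff g ℓ :=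
    fun ℓ hℓ hℓM hℓS => EigenCharOn.eigenCharOn_T _ hg.1 hℓ hℓM hℓS
  have hfin : Module.Finite ℤ chig.range := EigenCharOn.finite_range_of_heckeAlgebra chig
  obtain ⟨O', i1, i2, i3, i4, i5, i6, i7, i8, i9, hinj, hpO, iota, hiota⟩ :=
    OrderDVR.exists_embedding p chig.range
  obtain ⟨ρE, hρE⟩ := hT p
  obtain ⟨hEirr, hEodd⟩ := residual_tate hΔ p hp2 hirr ρE hρE
  obtain ⟨O'', j1, j2, j3, j4, j5, j6, j7, j8, j9, hinj', ρ, hρ, hρq⟩ :=
    h36 hg p S O' hpO hp2 chig hchig iota hpS hMS (by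
      intro O'' _ _ _ _ _ _ _ _ _ _ ρ hρ
      have hcmp := compare hΔ D hgW p S O' O'' chig hchig iota ρ hρ ρE hρE
      let φ : ℤ_[p] →+* O'' := (algebraMap O' O'').comp (algebraMap ℤ_[p] O')
      have hφ : IsLocalHom φ := inferInstanceAs
        (IsLocalHom ((algebraMap O' O'').comp (algebraMap ℤ_[p] O')))
      have hcr : ∀ σ : Γℚ, (LinearMap.charpoly (ρ.residual.ρ σ)).map (RingHom.id _) =
          (LinearMap.charpoly (ρE.residual.ρ σ)).map (ResidueField.map φ) := by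
        intro σ
        rw [Polynomial.map_id, charpoly_residual, charpoly_residual, hcmp σ, Polynomial.map_map,
          Polynomial.map_map]
        rfl
      refine ⟨BN2.isAbsolutelyIrreducible_of_charpoly_eq _ _ _ _ hcr hEirr, ?_⟩
      intro c hc hc1
      have h1 := BN2.det_eq_of_charpoly_map_eq ρ.residual.finrank_eq ρE.residual.finrank_eq
        _ _ _ _ (hcr c)
      rw [hEodd c hc hc1, map_neg, map_one, RingHom.id_apply] at h1
      exact h1)
  intro hfac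
  apply hρq q hq hqp hfac
  intro P hP σ hσ
  rw [compare hΔ D hgW p S O' O'' chig hchig iota ρ (fun ℓ hℓ _ hℓM hℓS => hρ ℓ hℓ hℓM hℓS)
    ρE hρE σ, hρE.unip q hq hqp P hP σ hσ]
  rw [Polynomial.map_pow, Polynomial.map_sub, Polynomial.map_X, Polynomial.map_one]

end Compare

/-- **S58 from S35, S36 and the Tate modules of `W`.** -/
theorem s58_of (h35 : S35Prop) (h36 : S36Prop)
    (W : WeierstrassCurve ℤ) (N : ℕ)
    (p : ℕ) [Fact p.Prime] (hp2 : p ≠ 2) (hirr : W.ModRepIsIrreducible p)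
    (hp2N : ¬ p ^ 2 ∣ N)
    (hN : W.IsModularModelOfLevel N) (hbad : ∀ ℓ : ℕ, ℓ.Prime → (ℓ : ℤ) ∣ W.Δ → ℓ ∣ N)
    (hN3 : ∀ q : ℕ, q.Prime → ¬ q ^ 3 ∣ N) (hT : W.Δ ≠ 0 → TateInput W) :
    W.IsModularModelOfLevel W.conductorLevel := by
  classical
  have hN0 : N ≠ 0 := by
    rintro rfl
    exact hN3 2 Nat.prime_two (dvd_zero _)
  have hΔ : W.Δ ≠ 0 := by
    intro h
    obtain ⟨ℓ, hℓ, hprime⟩ := Nat.exists_infinite_primes (N + 1)
    have h1 := hbad ℓ hprime (by rw [h]; exact dvd_zero _)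
    have := Nat.le_of_dvd (Nat.pos_of_ne_zero hN0) h1
    omega
  have hT' := hT hΔ
  obtain ⟨f, hf, hfa⟩ := hN
  obtain ⟨M, hMN, g, hg, hga⟩ := Oldform.exists_isNewform hN0 hf
  have hM0 : M ≠ 0 := fun h => hN0 (by rw [h] at hMN; exact zero_dvd_iff.mp hMN)
  have : NeZero M := ⟨hM0⟩
  have hgW : ∀ ℓ : ℕ, ℓ.Prime → ℓ ∉ N.primeFactors → qCoeff ⇑g ℓ = (W.apOfModel ℓ : ℂ) := by
    intro ℓ hℓ hℓN
    have hℓN' : ¬ ℓ ∣ N := fun h => hℓN (Nat.mem_primeFactors.mpr ⟨hℓ, h, hN0⟩)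
    rw [hga ℓ hℓ hℓN']
    exact hfa ℓ hℓ (fun h => hℓN' (hbad ℓ hℓ h)) hℓN'
  have hgood := fun q hq hqΔ => apOfModel_eq_and_dvd h35 hT' hg hΔ N.primeFactors hgW q hq hqΔ
  have h2 := fun q hq hqp => factorization_ne_two h36 hT' hg hΔ N.primeFactors hgW p hp2 hirr q hq
    hqp
  -- `M` is squarefree
  have hsq : ∀ q : ℕ, q.Prime → ¬ q ^ 2 ∣ M := by
    intro q hq h
    by_cases hqp : q = p
    · subst hqp
      exact hp2N (h.trans hMN)
    · refine h2 q hq hqp ?_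
      have h3 : ¬ q ^ 3 ∣ M := fun h' => hN3 q hq (h'.trans hMN)
      have h4 := (hq.pow_dvd_iff_le_factorization hM0).mp h
      have h5 := mt (hq.pow_dvd_iff_le_factorization hM0).mpr h3
      omega
  have hMsq : Squarefree M := by
    rw [Nat.squarefree_iff_prime_squarefree]
    intro q hq h
    exact hsq q hq (by rwa [pow_two])
  have hMdvd : M ∣ W.conductorLevel := by
    rw [← Nat.prod_primeFactors_of_squarefree hMsq]
    refine Finset.prod_primes_dvd _ (fun q hq => (Nat.prime_of_mem_primeFactors hq).prime) ?_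
    intro q hq
    have hqp := Nat.prime_of_mem_primeFactors hq
    rw [WeierstrassCurve.prime_dvd_conductorLevel_iff W hΔ hqp]
    by_contra hqΔ
    exact (hgood q hqp hqΔ).2 ⟨Nat.dvd_of_mem_primeFactors hq, hsq q hqp⟩
  have hMmod : W.IsModularModelOfLevel M :=
    ⟨g, hg.1, fun q hq hqW hqM => (hgood q hq hqW).1 hqM⟩
  exact Oldform.isModularModelOfLevel_of_dvd (NeZero.ne _) hMdvd hMmod

end Fermat.Agent.CMP.S58Assembly
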