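import Mathlib
import Fermat.Agent.FrobCompare
import Fermat.Agent.S30Assembly
import Fermat.Agent.CMP.Density

/-!
# Transfer principle between Hecke–Galois modules and Galois representations

Let `M` be a module over a commutative ring `A` with a commuting action of `G_ℚ` such that good
Frobenii satisfy `σ² - x_ℓ σ + ℓ = 0` on `M[p^∞]`, and let `ρ` be a Galois representation over `R`
with `charpoly ρ(Frob_ℓ) = X² - χ(x_ℓ) X + ℓ` for a ring homomorphism `χ : A → R`. Then for every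
`g` and `n` there is `a ∈ A` representing `g + ε(g) g⁻¹` on `M[p^n]` with
`tr ρ(g) ≡ χ(a) mod 𝔪^n`.
-/

set_option autoImplicit false

open Polynomial IsLocalRing

namespace Fermat.Agent.CMP.Transfer

open Fermat.Agent.FrobCompare Fermat.Agent.S30Assembly Fermat.Agent.CMP.Density
open Fermat.Agent.Cyclotomic

local notation "Qbar" => AlgebraicClosure ℚ
local notation "Γℚ" => (AlgebraicClosure ℚ ≃ₐ[ℚ] AlgebraicClosure ℚ)

section Lucas

variable {A M : Type*} [CommRing A] [AddCommGroup M] [Module A M] [DistribMulAction Γℚ M]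
  {p : ℕ}

theorem powTrace_smul (n : ℕ) {σ : Γℚ} {x : A} {ℓ : ℕ}
    (hσ : ∀ m : M, p ^ n • m = 0 → x • m = σ • m + ℓ • (σ⁻¹ • m)) (k : ℕ) (m : M)
    (hm : p ^ n • m = 0) :
    powTrace x (ℓ : A) k • m = σ ^ k • m + ℓ ^ k • ((σ ^ k)⁻¹ • m) := by
  induction k using Nat.twoStepInduction with
  | zero =>
    rw [powTrace]
    have : (2 : A) • m = (1 + 1 : A) • m := by norm_num
    rw [this, add_smul]
    simp
  | one => simpa [powTrace] using hσ m hm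
  | more k iha ihb =>
    rw [powTrace]
    have hbm : p ^ n • (powTrace x (ℓ : A) (k + 1) • m) = 0 := by rw [smul_comm, hm, smul_zero]
    rw [sub_smul, mul_smul, mul_smul, Nat.cast_smul_eq_nsmul, hσ _ hbm, iha, ihb]
    have e1 : σ • σ ^ (k + 1) • m = σ ^ (k + 1 + 1) • m := by rw [smul_smul, ← pow_succ']
    have e2 : σ • (σ ^ (k + 1))⁻¹ • m = (σ ^ k)⁻¹ • m := by
      rw [smul_smul]; congr 1; group
    have e3 : σ⁻¹ • σ ^ (k + 1) • m = σ ^ k • m := by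
      rw [pow_succ', mul_smul, inv_smul_smul]
    have e4 : σ⁻¹ • (σ ^ (k + 1))⁻¹ • m = (σ ^ (k + 1 + 1))⁻¹ • m := by
      rw [smul_smul, ← mul_inv_rev, ← pow_succ]
    rw [smul_add, smul_add, gal_nsmul, gal_nsmul, e1, e2, e3, e4, smul_add, smul_add, smul_smul,
      smul_smul, ← pow_succ', ← pow_succ']
    abel

end Lucas

section Main

variable {A M : Type*} [CommRing A] [AddCommGroup M] [Module A M] [DistribMulAction Γℚ M]
  {p : ℕ} [Fact p.Prime]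

/-- **Transfer principle.** -/
theorem exists_represents_trace (S : Finset ℕ) (x : ℕ → A)
    (hlev : ∀ n : ℕ, ∃ L : IntermediateField ℚ Qbar, FiniteDimensional ℚ L ∧
      ∀ σ : Γℚ, (∀ y ∈ L, σ y = y) → ∀ m : M, p ^ n • m = 0 → σ • m = m)
    (hfrob : ∀ ℓ : ℕ, ℓ.Prime → ℓ ∉ S → ∀ B : ValuationSubring Qbar, B.LiesOverPrime ℓ →
      ∀ σ : Γℚ, B.IsFrobeniusAt σ ℓ → ∀ m : M, (∃ n : ℕ, p ^ n • m = 0) →
        σ • σ • m - x ℓ • (σ • m) + ℓ • m = 0)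
    {R : Type} [CommRing R] [IsLocalRing R] (hpR : (p : R) ∈ maximalIdeal R) (χ : A →+* R)
    (ρ : GaloisRepAdic R)
    (hρ : ∀ ℓ : ℕ, ℓ.Prime → ℓ ∉ S → ∀ B : ValuationSubring Qbar, B.LiesOverPrime ℓ →
      ∀ σ : Γℚ, B.IsFrobeniusAt σ ℓ →
        LinearMap.charpoly (ρ.ρ σ) = X ^ 2 - C (χ (x ℓ)) * X + C (ℓ : R))
    (n : ℕ) (g : Γℚ) :
    ∃ a : A, Represents M p n g a ∧
      LinearMap.trace R ρ.V (ρ.ρ g) - χ a ∈ maximalIdeal R ^ n ∧
      LinearMap.det (ρ.ρ g) - (e p n g : R) ∈ maximalIdeal R ^ n := by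
  obtain ⟨L₁, hL₁, h₁⟩ := hlev n
  obtain ⟨L₂, hL₂, h₂⟩ := cyc_finite_level (p ^ n)
  obtain ⟨L₃, hL₃, h₃⟩ := exists_charpolyConstantOn_of_isAdicContinuous ρ.ρ ρ.isAdicContinuous n
    (Ideal.Quotient.mk (maximalIdeal R ^ n)) (by rw [Ideal.mk_ker])
  have hfd : FiniteDimensional ℚ (L₁ ⊔ L₂ : IntermediateField ℚ Qbar) :=
    IntermediateField.finiteDimensional_sup L₁ L₂
  have hfd' : FiniteDimensional ℚ (L₁ ⊔ L₂ ⊔ L₃ : IntermediateField ℚ Qbar) :=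
    IntermediateField.finiteDimensional_sup (L₁ ⊔ L₂) L₃
  have hle₁ : L₁ ≤ L₁ ⊔ L₂ ⊔ L₃ := le_sup_left.trans le_sup_left
  have hle₂ : L₂ ≤ L₁ ⊔ L₂ ⊔ L₃ := le_sup_right.trans le_sup_left
  have hle₃ : L₃ ≤ L₁ ⊔ L₂ ⊔ L₃ := le_sup_right
  obtain ⟨ℓ, hℓ, hℓS, B, hB, σ, hσ, k, hk⟩ := frobDensity (L₁ ⊔ L₂ ⊔ L₃) g (S ∪ {p})
  rw [Finset.mem_union, Finset.mem_singleton, not_or] at hℓS
  have hℓp : ¬ ℓ ∣ p ^ n := fun h => hℓS.2 ((Nat.prime_dvd_prime_iff_eq hℓ Fact.out).mp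
    (hℓ.dvd_of_dvd_pow h))
  -- the relation for `σ`
  have hσ1 : ∀ m : M, p ^ n • m = 0 → x ℓ • m = σ • m + ℓ • (σ⁻¹ • m) := by
    intro m hm
    have h := hfrob ℓ hℓ hℓS.1 B hB σ hσ (σ⁻¹ • m) ⟨n, nsmul_smul_gal hm⟩
    rw [smul_inv_smul] at h
    rw [sub_add_eq_add_sub, sub_eq_zero] at h
    exact h.symm
  -- `g` and `σ ^ k` agree at level `L₁ ⊔ L₂ ⊔ L₃`
  have hfix : ∀ y ∈ (L₁ ⊔ L₂ ⊔ L₃ : IntermediateField ℚ Qbar), ((σ ^ k)⁻¹ * g) y = y := by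
    intro y hy
    rw [AlgEquiv.mul_apply, hk y hy, ← AlgEquiv.mul_apply, inv_mul_cancel, AlgEquiv.one_apply]
  have hM : ∀ m : M, p ^ n • m = 0 → g • m = σ ^ k • m := by
    intro m hm
    have := h₁ _ (fun y hy => hfix y (hle₁ hy)) m hm
    rw [mul_smul, inv_smul_eq_iff] at this
    exact this
  have hM' : ∀ m : M, p ^ n • m = 0 → g⁻¹ • m = (σ ^ k)⁻¹ • m := by
    intro m hm
    rw [inv_smul_eq_iff, hM _ (nsmul_smul_gal hm), smul_inv_smul]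
  have hC : cyc (p ^ n) g = cyc (p ^ n) (σ ^ k) := by
    have := h₂ _ (fun y hy => hfix y (hle₂ hy))
    rw [map_mul, map_inv, inv_mul_eq_one] at this
    exact this.symm
  have hC' : ((e p n g : ℕ) : ZMod (p ^ n)) = ((ℓ ^ k : ℕ) : ZMod (p ^ n)) := by
    rw [e_cast, hC, map_pow, Units.val_pow_eq_pow_val, cyc_frobenius hℓ hℓp B hB hσ]
    push_cast
    rfl
  -- traces and determinants
  have hcp : (LinearMap.charpoly (ρ.ρ g)).map (Ideal.Quotient.mk (maximalIdeal R ^ n)) =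
      (LinearMap.charpoly (ρ.ρ (σ ^ k))).map (Ideal.Quotient.mk (maximalIdeal R ^ n)) :=
    h₃ g (σ ^ k) fun y hy => hk y (hle₃ hy)
  have htr := BN2.trace_eq_of_charpoly_map_eq ρ.finrank_eq ρ.finrank_eq _ _ _ _ hcp
  have hdet := BN2.det_eq_of_charpoly_map_eq ρ.finrank_eq ρ.finrank_eq _ _ _ _ hcp
  have hcσ := hρ ℓ hℓ hℓS.1 B hB σ hσ
  have hcσ' : LinearMap.trace R ρ.V (ρ.ρ σ) = χ (x ℓ) ∧ LinearMap.det (ρ.ρ σ) = (ℓ : R) := by
    rw [BN2.charpoly_eq_of_finrank_two ρ.finrank_eq] at hcσ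
    constructor
    · have h1 := congrArg (fun P => P.coeff 1) hcσ
      simpa [coeff_X, coeff_C] using h1
    · have h1 := congrArg (fun P => P.coeff 0) hcσ
      simpa [coeff_X, coeff_C] using h1
  refine ⟨powTrace (x ℓ) (ℓ : A) k, fun m hm => ?_, ?_, ?_⟩
  · rw [powTrace_smul n hσ1 k m hm, hM m hm, hM' m hm, nsmul_congr hC' (nsmul_smul_gal hm)]
  · rw [← Ideal.Quotient.eq, htr, map_pow, trace_pow_eq ρ.finrank_eq, hcσ'.1, hcσ'.2,
      map_powTrace χ, map_natCast]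
  · have h1 : Ideal.Quotient.mk (maximalIdeal R ^ n) ((e p n g : ℕ) : R) =
        Ideal.Quotient.mk (maximalIdeal R ^ n) ((ℓ ^ k : ℕ) : R) := by
      rw [Ideal.Quotient.eq]
      obtain ⟨y, hy⟩ := pow_dvd_of_zmod_eq (R := R) hC'
      rw [hy]
      exact Ideal.mul_mem_right _ _ (Ideal.pow_mem_pow hpR n)
    rw [← Ideal.Quotient.eq, h1, hdet, map_pow, map_pow, hcσ'.2]
    push_cast
    rfl

variable [SMulCommClass Γℚ A M]

/-- The trace of a Frobenius at a prime `q` of multiplicative reduction, from the relation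
`(φ² - q²) t (φ² - 1) = 0` on `M[p^∞]`. -/
theorem trace_sq_of_relation (S : Finset ℕ) (x : ℕ → A)
    (hlev : ∀ n : ℕ, ∃ L : IntermediateField ℚ Qbar, FiniteDimensional ℚ L ∧
      ∀ σ : Γℚ, (∀ y ∈ L, σ y = y) → ∀ m : M, p ^ n • m = 0 → σ • m = m)
    (hfrob : ∀ ℓ : ℕ, ℓ.Prime → ℓ ∉ S → ∀ B : ValuationSubring Qbar, B.LiesOverPrime ℓ →
      ∀ σ : Γℚ, B.IsFrobeniusAt σ ℓ → ∀ m : M, (∃ n : ℕ, p ^ n • m = 0) →
        σ • σ • m - x ℓ • (σ • m) + ℓ • m = 0)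
    {R : Type} [CommRing R] [IsLocalRing R] [IsNoetherianRing R]
    (hpR : (p : R) ∈ maximalIdeal R) (χ : A →+* R)
    (hsupp : ∀ (n : ℕ) (a : A), (∀ m : M, p ^ n • m = 0 → a • m = 0) → (p : R) ^ n ∣ χ a)
    (ρ : GaloisRepAdic R)
    (hρ : ∀ ℓ : ℕ, ℓ.Prime → ℓ ∉ S → ∀ B : ValuationSubring Qbar, B.LiesOverPrime ℓ →
      ∀ σ : Γℚ, B.IsFrobeniusAt σ ℓ →
        LinearMap.charpoly (ρ.ρ σ) = X ^ 2 - C (χ (x ℓ)) * X + C (ℓ : R))
    (q : ℕ) (hq : q.Prime) (hqp : q ≠ p) (B : ValuationSubring Qbar) (hB : B.LiesOverPrime q)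
    (φ : Γℚ) (hφ : B.IsFrobeniusAt φ q) (t : A)
    (hrel : ∀ (n : ℕ) (m : M), p ^ n • m = 0 →
      φ • φ • (t • (φ • φ • m - m)) = (q ^ 2) • (t • (φ • φ • m - m))) :
    χ t * (LinearMap.trace R ρ.V (ρ.ρ φ) ^ 2 - ((q : R) + 1) ^ 2) = 0 ∧
      LinearMap.det (ρ.ρ φ) = (q : R) := by
  have hqp' : ∀ n, ¬ q ∣ p ^ n := fun n h => hqp ((Nat.prime_dvd_prime_iff_eq hq Fact.out).mp
    (hq.dvd_of_dvd_pow h))
  have he : ∀ n, ((e p n φ : ℕ) : ZMod (p ^ n)) = (q : ℕ) := fun n => by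
    rw [e_cast, cyc_frobenius hq (hqp' n) B hB hφ]
  constructor
  · refine eq_zero_of_forall_mem_pow fun n => ?_
    obtain ⟨a, ha, htr, -⟩ := exists_represents_trace S x hlev hfrob hpR χ ρ hρ n φ
    have ha' : ∀ m : M, p ^ n • m = 0 → a • m = φ • m + q • (φ⁻¹ • m) := by
      intro m hm
      rw [ha m hm, nsmul_congr (he n) (nsmul_smul_gal hm)]
    have hkill : ∀ m : M, p ^ n • m = 0 → (t * (a ^ 2 - ((q : A) + 1) ^ 2)) • m = 0 := by
      intro m hm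
      have hrm := congrArg (fun y => φ⁻¹ • φ⁻¹ • y) (hrel n m hm)
      simp only [inv_smul_smul] at hrm
      have h1 : a • a • m = φ • φ • m + (2 * q) • m + (q ^ 2) • (φ⁻¹ • φ⁻¹ • m) := by
        rw [ha' (a • m) (by rw [smul_comm, hm, smul_zero]), ha' m hm]
        rw [smul_add φ, smul_add φ⁻¹, gal_nsmul, gal_nsmul, smul_inv_smul, inv_smul_smul,
          smul_add q, smul_smul q q, two_mul, add_smul, pow_two]
        abel
      have h2 : (a ^ 2 - ((q : A) + 1) ^ 2) • m = φ • φ • m - m - (q ^ 2) • m +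
          (q ^ 2) • (φ⁻¹ • φ⁻¹ • m) := by
        have h3 : ((q : A) + 1) ^ 2 = ((q ^ 2 + 2 * q + 1 : ℕ) : A) := by push_cast; ring
        rw [sub_smul, pow_two, mul_smul, h1, h3, Nat.cast_smul_eq_nsmul, add_smul, add_smul,
          one_smul]
        abel
      rw [mul_smul, h2]
      have h4 : φ⁻¹ • φ⁻¹ • ((q ^ 2) • (t • (φ • φ • m - m))) =
          (q ^ 2) • (t • (m - φ⁻¹ • φ⁻¹ • m)) := by
        rw [gal_nsmul, gal_nsmul, smul_comm φ⁻¹ t, smul_comm φ⁻¹ t, smul_sub, smul_sub,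
          inv_smul_smul, inv_smul_smul]
      rw [h4] at hrm
      have h5 : t • (φ • φ • m - m - (q ^ 2) • m + (q ^ 2) • (φ⁻¹ • φ⁻¹ • m)) =
          t • (φ • φ • m - m) - (q ^ 2) • (t • (m - φ⁻¹ • φ⁻¹ • m)) := by
        have h6 : φ • φ • m - m - (q ^ 2) • m + (q ^ 2) • (φ⁻¹ • φ⁻¹ • m) =
            (φ • φ • m - m) - (q ^ 2) • (m - φ⁻¹ • φ⁻¹ • m) := by
          rw [smul_sub (q ^ 2)]; abel
        rw [h6, smul_sub t, smul_comm t (q ^ 2)]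
      rw [h5, hrm, sub_self]
    obtain ⟨y, hy⟩ := hsupp n _ hkill
    have h7 : χ t * (χ a ^ 2 - ((q : R) + 1) ^ 2) ∈ maximalIdeal R ^ n := by
      have : χ t * (χ a ^ 2 - ((q : R) + 1) ^ 2) = (p : R) ^ n * y := by
        rw [← hy]
        simp
      rw [this]
      exact Ideal.mul_mem_right _ _ (Ideal.pow_mem_pow hpR n)
    have h8 : χ t * (LinearMap.trace R ρ.V (ρ.ρ φ) ^ 2 - ((q : R) + 1) ^ 2) =
        χ t * (χ a ^ 2 - ((q : R) + 1) ^ 2) +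
        χ t * (LinearMap.trace R ρ.V (ρ.ρ φ) + χ a) *
          (LinearMap.trace R ρ.V (ρ.ρ φ) - χ a) := by ring
    rw [h8]
    exact Ideal.add_mem _ h7 (Ideal.mul_mem_left _ _ htr)
  · rw [← sub_eq_zero]
    refine eq_zero_of_forall_mem_pow fun n => ?_
    obtain ⟨a, -, -, hdet⟩ := exists_represents_trace S x hlev hfrob hpR χ ρ hρ n φ
    have h1 : ((e p n φ : ℕ) : R) - (q : R) ∈ maximalIdeal R ^ n := by
      obtain ⟨y, hy⟩ := pow_dvd_of_zmod_eq (R := R) (he n)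
      rw [hy]
      exact Ideal.mul_mem_right _ _ (Ideal.pow_mem_pow hpR n)
    have h2 := Ideal.add_mem _ hdet h1
    rwa [sub_add_sub_cancel] at h2

end Main

end Fermat.Agent.CMP.Transfer
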