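import Mathlib
import Fermat.Agent.CMP.Newness
import Fermat.Agent.CMP.Transfer
import Fermat.Agent.CMP.S58Assembly

/-!
# S35 from the inputs on `J₀(N)` and the Frobenius relation at `q ∥ M`
-/

set_option autoImplicit false
set_option linter.style.haveILetI false

open Polynomial IsLocalRing CongruenceSubgroup ModularFormClass ModularCurve

namespace Fermat.Agent.CMP.S35Assembly

open Fermat.Agent.S30Wiring Fermat.Agent.S30Assembly Fermat.Agent.CMP.StrongMult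
  Fermat.Agent.CMP.Newness

local notation "Qbar" => AlgebraicClosure ℚ
local notation "Γℚ" => (AlgebraicClosure ℚ ≃ₐ[ℚ] AlgebraicClosure ℚ)

/-- **DR input for S35**: for `M = q M'`, `q ∤ M'`, `q ≠ p`, every Frobenius lift `φ` at every place
over `q`, and every Hecke polynomial `t` in the `T_ℓ`, `ℓ ∉ S`, killing `S₂(Γ₀(M'))`:
`(φ² - q²) t (φ² - 1) = 0` on `J₀(M)[p^∞]`. -/
def DRFrobInput (M M' q p : ℕ) [NeZero M] [NeZero M'] (S : Finset ℕ) : Prop :=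
  letI := heckeModuleBar M
  ∀ (hM'S : ∀ r : ℕ, r.Prime → r ∣ M' → r ∈ S) (t : AnemicAlg S),
    anemicEval (N := M') hM'S t = 0 →
    ∀ B : ValuationSubring Qbar, B.LiesOverPrime q → ∀ φ : Γℚ, B.IsFrobeniusAt φ q →
      ∀ (n : ℕ) (m : JZero M), p ^ n • m = 0 →
        φ • φ • (anemicIncl S t • (φ • φ • m - m)) =
          (q ^ 2) • (anemicIncl S t • (φ • φ • m - m))

/-- The generators of the anemic algebra. -/
noncomputable def gens (S : Finset ℕ) (ℓ : ℕ) : AnemicAlg S :=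
  open Classical in
  if h : ∃ hℓ : ℓ.Prime, ((⟨ℓ, hℓ⟩ : Nat.Primes) : ℕ) ∉ S then
    MvPolynomial.X ⟨⟨ℓ, h.choose⟩, h.choose_spec⟩ else 0

theorem gens_eq {S : Finset ℕ} (ℓ : ℕ) (hℓ : ℓ.Prime) (hℓS : ℓ ∉ S) :
    gens S ℓ = MvPolynomial.X ⟨⟨ℓ, hℓ⟩, hℓS⟩ := by
  classical
  exact dif_pos ⟨hℓ, hℓS⟩

/-- The trace of a Frobenius at `q ∥ M`, from the inputs. -/
theorem trace_sq {p : ℕ} [Fact p.Prime] {M : ℕ} [NeZero M] {S : Finset ℕ}
    (hpS : p ∈ S) (hMS : ∀ q : ℕ, q.Prime → q ∣ M → q ∈ S) (I : Inputs M p S)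
    (O' : Type) [CommRing O'] [IsDomain O'] [IsDiscreteValuationRing O']
    [IsAdicComplete (IsLocalRing.maximalIdeal O') O'] [CharZero O']
    (hpO' : (p : O') ∈ IsLocalRing.maximalIdeal O')
    (χ : CuspForm.heckeAlgebra M 2 (↑S : Set ℕ) →+* O') (ρ : GaloisRepAdic O')
    (hρ : ∀ (ℓ : ℕ) (hℓ : ℓ.Prime) (hℓM : ¬ ℓ ∣ M) (hℓS : ℓ ∉ (↑S : Set ℕ)),
        ∀ A : ValuationSubring (AlgebraicClosure ℚ), A.LiesOverPrime ℓ →
          ∀ σ : AlgebraicClosure ℚ ≃ₐ[ℚ] AlgebraicClosure ℚ, A.IsFrobeniusAt σ ℓ →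
            LinearMap.charpoly (ρ.ρ σ) =
              X ^ 2 - C (χ (CuspForm.heckeAlgebra.T hℓ hℓM hℓS)) * X + C ((ℓ : O')))
    (M' : ℕ) [NeZero M'] (hM'S : ∀ r : ℕ, r.Prime → r ∣ M' → r ∈ S)
    (q : ℕ) (hq : q.Prime) (hqp : q ≠ p) (hDR : DRFrobInput M M' q p S)
    (t : AnemicAlg S) (ht : anemicEval (N := M') hM'S t = 0)
    (B : ValuationSubring Qbar) (hB : B.LiesOverPrime q) (φ : Γℚ) (hφ : B.IsFrobeniusAt φ q) :
    χ (anemicEval hMS t) * (LinearMap.trace O' ρ.V (ρ.ρ φ) ^ 2 - ((q : O') + 1) ^ 2) = 0 ∧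
      LinearMap.det (ρ.ρ φ) = (q : O') := by
  classical
  letI := heckeModuleBar M
  haveI : SMulCommClass Γℚ HeckeAlg (JZero M) := I.galois_hecke
  letI : Module (AnemicAlg S) (JZero M) := Module.compHom (JZero M) (anemicIncl S).toRingHom
  have hsmul : ∀ (a : AnemicAlg S) (x : JZero M), a • x = anemicIncl S a • x := fun _ _ => rfl
  haveI : SMulCommClass Γℚ (AnemicAlg S) (JZero M) :=
    ⟨fun g a x => by rw [hsmul, hsmul, smul_comm]⟩
  have hspec : SpecializationExists (K := ℚ) (L := Qbar) M p (JZero M) :=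
    I.specialization I.galois_hecke
  have hfrob := frobeniusQuadratic_of_specialization hspec
  have hsm : ∀ x : JZero M, ∃ L : IntermediateField ℚ Qbar, FiniteDimensional ℚ L ∧
      ∀ g : Γℚ, (∀ y ∈ L, g y = y) → g • x = x := I.smooth
  have hdvd : ∀ ℓ : ℕ, ℓ.Prime → ℓ ∉ S → ¬ ℓ ∣ M * p := by
    intro ℓ hℓ hℓS h
    rcases (Nat.Prime.dvd_mul hℓ).mp h with h | h
    · exact hℓS (hMS ℓ hℓ h)
    · rw [(Nat.prime_dvd_prime_iff_eq hℓ Fact.out).mp h] at hℓS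
      exact hℓS hpS
  let χ' : AnemicAlg S →+* O' := χ.comp (anemicEval hMS).toRingHom
  refine Transfer.trace_sq_of_relation (A := AnemicAlg S) (M := JZero M) S (gens S)
    (fun n => finite_level_of_smooth (J := JZero M) hsm n (I.finite n)) ?_ hpO' χ'
    (fun n a ha => I.support hMS O' χ n a ha) ρ ?_ q hq hqp B hB φ hφ t
    (fun n m hm => hDR hM'S t ht B hB φ hφ n m hm)
  · intro ℓ hℓ hℓS B hB σ hσ m hm
    have h := hfrob ℓ hℓ (hdvd ℓ hℓ hℓS) B hB σ hσ m hm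
    rw [gens_eq ℓ hℓ hℓS, hsmul, anemicIncl, MvPolynomial.rename_X]
    exact h
  · intro ℓ hℓ hℓS B hB σ hσ
    have hℓM : ¬ ℓ ∣ M := fun h => hℓS (hMS ℓ hℓ h)
    have hℓS' : ℓ ∉ (↑S : Set ℕ) := fun h => hℓS (Finset.mem_coe.mp h)
    have hχ : χ' (MvPolynomial.X ⟨⟨ℓ, hℓ⟩, hℓS⟩) = χ (CuspForm.heckeAlgebra.T hℓ hℓM hℓS') := by
      change χ (anemicEval hMS (MvPolynomial.X _)) = _
      rw [anemicEval_X hMS _ hℓM hℓS']
    rw [hρ ℓ hℓ hℓM hℓS' B hB σ hσ, gens_eq ℓ hℓ hℓS, hχ]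

/-- **S35 from the inputs.** -/
theorem s35_of (HI : ∀ (p : ℕ) [Fact p.Prime] (N : ℕ) [NeZero N] (S : Finset ℕ),
      p ∈ S → (∀ q : ℕ, q.Prime → q ∣ N → q ∈ S) → Inputs N p S)
    (HDR : ∀ (p : ℕ) [Fact p.Prime] (M M' q : ℕ) [NeZero M] [NeZero M'] (S : Finset ℕ),
      p ∈ S → (∀ r : ℕ, r.Prime → r ∣ M → r ∈ S) → q.Prime → q ≠ p → M = q * M' → ¬ q ∣ M' →
        DRFrobInput M M' q p S) : S58Assembly.S35Prop := by
  intro M _ g hg lam _ S O' _ _ _ _ _ _ hlamO' chig hchig iota hlamS hMS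
  classical
  let χ : CuspForm.heckeAlgebra M 2 (↑S : Set ℕ) →+* O' := iota.comp chig.rangeRestrict
  obtain ⟨ρ, hρ, -⟩ := exists_galoisRepAdic_of_point hlamS hMS (HI lam M S hlamS hMS) O' hlamO' χ
  refine ⟨O', inferInstance, inferInstance, inferInstance, inferInstance, inferInstance,
    inferInstance, Algebra.id O', Module.Finite.self O', ⟨fun a ha => ha⟩, fun a b h => h, ρ, hρ, ?_⟩
  intro q hq hqlam hqM hqM2 A hA σ hσ
  obtain ⟨M', hM'⟩ := hqM
  have hM'0 : NeZero M' := ⟨fun h => NeZero.ne M (by rw [hM', h, mul_zero])⟩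
  have hqM' : ¬ q ∣ M' := fun ⟨c, hc⟩ => hqM2 ⟨c, by rw [hM', hc]; ring⟩
  have hM'M : M' ∣ M := ⟨q, by rw [hM', mul_comm]⟩
  have hne : M' ≠ M := by
    intro h
    rw [← h] at hM'
    have h1 : 1 < q := hq.one_lt
    have h2 : 0 < M' := Nat.pos_of_ne_zero (NeZero.ne M')
    nlinarith
  have hM'S : ∀ r : ℕ, r.Prime → r ∣ M' → r ∈ S := fun r hr h => hMS r hr (h.trans hM'M)
  obtain ⟨t, ht, htg⟩ := exists_kill_of_isNewform (pointRep_of_inputs HI) hg hM'M hne S hMS hM'S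
  obtain ⟨h1, h2⟩ := trace_sq hlamS hMS (HI lam M S hlamS hMS) O' hlamO' χ ρ hρ M' hM'S q hq hqlam
    (HDR lam M M' q S hlamS hMS hq hqlam hM' hqM') t ht A hA σ hσ
  -- `χ (eval t) ≠ 0`
  have hchar : chig = EigenCharOn.eigenCharOn (↑S : Set ℕ) hg.1 := by
    have h3 : chig.comp (anemicEval hMS).toRingHom =
        (EigenCharOn.eigenCharOn (↑S : Set ℕ) hg.1).comp (anemicEval hMS).toRingHom := by
      refine MvPolynomial.ringHom_ext (fun r => ?_) fun ℓ => ?_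
      · simp
      · have hℓM : ¬ (ℓ.1 : ℕ) ∣ M := fun h => ℓ.2 (hMS _ ℓ.1.2 h)
        have hℓS' : (ℓ.1 : ℕ) ∉ (↑S : Set ℕ) := fun h => ℓ.2 (Finset.mem_coe.mp h)
        change chig (anemicEval hMS (MvPolynomial.X ℓ)) =
          EigenCharOn.eigenCharOn (↑S : Set ℕ) hg.1 (anemicEval hMS (MvPolynomial.X ℓ))
        rw [anemicEval_X hMS ℓ hℓM hℓS', hchig, EigenCharOn.eigenCharOn_T]
    refine RingHom.ext fun y => ?_
    obtain ⟨a, rfl⟩ := anemicEval_surjective hMS y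
    exact DFunLike.congr_fun h3 a
  have hfin : Module.Finite ℤ chig.range := EigenCharOn.finite_range_of_heckeAlgebra chig
  have hint : Algebra.IsIntegral ℤ chig.range := Algebra.IsIntegral.of_finite ℤ _
  have hiota : Function.Injective iota := by
    rw [RingHom.injective_iff_ker_eq_bot]
    refine Ideal.eq_bot_of_comap_eq_bot (R := ℤ) ?_
    rw [RingHom.comap_ker, ← RingHom.injective_iff_ker_eq_bot]
    have : iota.comp (algebraMap ℤ chig.range) = Int.castRingHom O' := RingHom.ext_int _ _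
    rw [this]
    exact Int.cast_injective
  have hne0 : χ (anemicEval hMS t) ≠ 0 := by
    intro h
    have h3 : iota (chig.rangeRestrict (anemicEval hMS t)) = iota 0 := by
      rw [map_zero]; exact h
    have h4 := congrArg Subtype.val (hiota h3)
    apply htg
    rw [← hchar]
    exact h4
  have h3 : LinearMap.trace O' ρ.V (ρ.ρ σ) ^ 2 - ((q : O') + 1) ^ 2 = 0 :=
    (mul_eq_zero.mp h1).resolve_left hne0
  have h4 : (LinearMap.trace O' ρ.V (ρ.ρ σ) - ((q : O') + 1)) *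
      (LinearMap.trace O' ρ.V (ρ.ρ σ) + ((q : O') + 1)) = 0 := by
    rw [← h3]; ring
  rw [BN2.charpoly_eq_of_finrank_two ρ.finrank_eq, h2]
  rcases mul_eq_zero.mp h4 with h5 | h5
  · left
    rw [sub_eq_zero.mp h5]
  · right
    rw [eq_neg_of_add_eq_zero_left h5, C_neg]
    ring

end Fermat.Agent.CMP.S35Assembly
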