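import Mathlib
import Fermat.Agent.CMP.InertiaFixed
import Fermat.Agent.CMP.PushHecke
import Fermat.Agent.CMP.S35Assembly
import Fermat.Agent.DR.S36.Statement
import Fermat.Agent.JAN.Annihilate
import Fermat.Agent.JAN.JanMain
import Fermat.Agent.GAL.Final
import Fermat.Agent.FrobExists

/-!
# S36 from `S36Prime` and the inputs on `J₀(N)`
-/

set_option autoImplicit false
set_option linter.style.haveILetI false

open Polynomial IsLocalRing CongruenceSubgroup ModularFormClass ModularCurve AlgebraicCurve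

namespace Fermat.Agent.CMP.S36Assembly

open Fermat.Agent.S30Wiring Fermat.Agent.S30Assembly Fermat.Agent.CMP.StrongMult
  Fermat.Agent.CMP.Newness Fermat.Agent.CMP.S35Assembly Fermat.Agent.CMP.PushHecke
  Fermat.Agent.DR.S36 Fermat.Agent.Jan.HeckeInputs Fermat.Agent.Jan.HeckeCommute
  Fermat.Agent.Jan.RelFundamental Fermat.FF

local notation "Qbar" => AlgebraicClosure ℚ
local notation "Γℚ" => (AlgebraicClosure ℚ ≃ₐ[ℚ] AlgebraicClosure ℚ)

/-! ## Algebra -/

/-- If `s` kills the inertia invariants of `J₀(M)[p^n]` for all `n` and `tr ρ = 2` on inertia at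
`q ≠ p`, then `χ(s) = 0`. -/
theorem eval_eq_zero {p : ℕ} [Fact p.Prime] (hp2 : p ≠ 2) {M : ℕ} [NeZero M] {S : Finset ℕ}
    (hpS : p ∈ S) (hMS : ∀ q : ℕ, q.Prime → q ∣ M → q ∈ S) (I : Inputs M p S)
    (O' : Type) [CommRing O'] [IsDomain O'] [IsDiscreteValuationRing O']
    [IsAdicComplete (IsLocalRing.maximalIdeal O') O'] [CharZero O']
    (hpO' : (p : O') ∈ IsLocalRing.maximalIdeal O')
    (χ : CuspForm.heckeAlgebra M 2 (↑S : Set ℕ) →+* O') (ρ : GaloisRepAdic O')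
    (hρ : ∀ (ℓ : ℕ) (hℓ : ℓ.Prime) (hℓM : ¬ ℓ ∣ M) (hℓS : ℓ ∉ (↑S : Set ℕ)),
        ∀ A : ValuationSubring (AlgebraicClosure ℚ), A.LiesOverPrime ℓ →
          ∀ σ : AlgebraicClosure ℚ ≃ₐ[ℚ] AlgebraicClosure ℚ, A.IsFrobeniusAt σ ℓ →
            LinearMap.charpoly (ρ.ρ σ) =
              X ^ 2 - C (χ (CuspForm.heckeAlgebra.T hℓ hℓM hℓS)) * X + C ((ℓ : O')))
    (q : ℕ) (hq : q.Prime) (hqp : q ≠ p) (B : ValuationSubring Qbar) (hB : B.LiesOverPrime q)
    (hunip : ∀ τ ∈ B.inertiaSubgroupIn ℚ, LinearMap.trace O' ρ.V (ρ.ρ τ) = 2)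
    (s : AnemicAlg S)
    (hs : letI := heckeModuleBar M
      ∀ (n : ℕ) (x : JZero M), p ^ n • x = 0 → (∀ τ ∈ B.inertiaSubgroupIn ℚ, τ • x = x) →
        anemicIncl S s • x = 0) :
    χ (anemicEval hMS s) = 0 := by
  classical
  letI := heckeModuleBar M
  haveI : SMulCommClass Γℚ HeckeAlg (JZero M) := I.galois_hecke
  letI : Module (AnemicAlg S) (JZero M) := Module.compHom (JZero M) (anemicIncl S).toRingHom
  have hsmul : ∀ (a : AnemicAlg S) (x : JZero M), a • x = anemicIncl S a • x := fun _ _ => rfl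
  haveI : SMulCommClass Γℚ (AnemicAlg S) (JZero M) :=
    ⟨fun g a x => by rw [hsmul, hsmul, smul_comm]⟩
  have hspec : SpecializationExists (K := ℚ) (L := Qbar) M p (JZero M) :=
    I.specialization I.galois_hecke
  have hfrob := frobeniusQuadratic_of_specialization hspec
  have hsm : ∀ x : JZero M, ∃ L : IntermediateField ℚ Qbar, FiniteDimensional ℚ L ∧
      ∀ g : Γℚ, (∀ y ∈ L, g y = y) → g • x = x := I.smooth
  have hdvd : ∀ ℓ : ℕ, ℓ.Prime → ℓ ∉ S → ¬ ℓ ∣ M * p := by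
    intro ℓ hℓ hℓS h
    rcases (Nat.Prime.dvd_mul hℓ).mp h with h | h
    · exact hℓS (hMS ℓ hℓ h)
    · rw [(Nat.prime_dvd_prime_iff_eq hℓ Fact.out).mp h] at hℓS
      exact hℓS hpS
  let χ' : AnemicAlg S →+* O' := χ.comp (anemicEval hMS).toRingHom
  have hrep := fun (n : ℕ) (g : Γℚ) => Transfer.exists_represents_trace (A := AnemicAlg S)
    (M := JZero M) (p := p) S (gens S)
    (fun n => finite_level_of_smooth (J := JZero M) hsm n (I.finite n))
    (by
      intro ℓ hℓ hℓS B hB σ hσ m hm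
      have h := hfrob ℓ hℓ (hdvd ℓ hℓ hℓS) B hB σ hσ m hm
      rw [gens_eq ℓ hℓ hℓS, hsmul, anemicIncl, MvPolynomial.rename_X]
      exact h)
    hpO' χ' ρ
    (by
      intro ℓ hℓ hℓS B hB σ hσ
      have hℓM : ¬ ℓ ∣ M := fun h => hℓS (hMS ℓ hℓ h)
      have hℓS' : ℓ ∉ (↑S : Set ℕ) := fun h => hℓS (Finset.mem_coe.mp h)
      have hχ : χ' (MvPolynomial.X ⟨⟨ℓ, hℓ⟩, hℓS⟩) =
          χ (CuspForm.heckeAlgebra.T hℓ hℓM hℓS') := by
        change χ (anemicEval hMS (MvPolynomial.X _)) = _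
        rw [anemicEval_X hMS _ hℓM hℓS']
      rw [hρ ℓ hℓ hℓM hℓS' B hB σ hσ, gens_eq ℓ hℓ hℓS, hχ]) n g
  have hqp' : ∀ n, ¬ q ∣ p ^ n := fun n h => hqp ((Nat.prime_dvd_prime_iff_eq hq Fact.out).mp
    (hq.dvd_of_dvd_pow h))
  have hodd : Odd p := (Fact.out : p.Prime).odd_of_ne_two hp2
  refine InertiaFixed.eq_zero_of_kill_fixed (R := AnemicAlg S) (J := JZero M) (G := Γℚ) hodd
    (fun n => I.finite n) hpO' χ' (fun n a ha => I.support hMS O' χ n a ha)
    (B.inertiaSubgroupIn ℚ) ?_ s hs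
  intro n τ hτ
  obtain ⟨a, ha, htr, -⟩ := hrep n τ
  refine ⟨a, ?_, fun x hx => ?_⟩
  · rw [hunip τ hτ] at htr
    rw [← neg_sub]
    exact Ideal.neg_mem_iff _ |>.mpr htr
  · haveI : NeZero (p ^ n) := ⟨pow_ne_zero n (Fact.out : p.Prime).ne_zero⟩
    rw [ha x hx]
    congr 1
    have h1 : ((e p n τ : ℕ) : ZMod (p ^ n)) = ((1 : ℕ) : ZMod (p ^ n)) := by
      rw [e_cast, Cyclotomic.cyc_inertia hq (hqp' n) B hB hτ]
      simp
    have h2 : p ^ n • (τ⁻¹ • x) = 0 := nsmul_smul_gal hx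
    rw [nsmul_congr h1 h2, one_smul]

/-! ## Geometry -/

/-- All inputs, from S37. -/
theorem allInputs (h37 : GAL.Final.S37Prop) : GAL.Final.AllInputs where
  comm N _ := JAN.Degree.heckeOperatorsCommuteBar N
  hpd N _ := hasPrincipalDivisors_modular Qbar jAlg N
  jan N _ := JAN.janMain N
  s37 := h37

/-- Push-forwards commute with the anemic Hecke algebra. -/
theorem push_anemic {N M e : ℕ} [NeZero N] [NeZero M] [NeZero e] (h : N * e ∣ M) {S : Finset ℕ}
    (hMS : ∀ r : ℕ, r.Prime → r ∣ M → r ∈ S)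
    (hT : ∀ (ℓ : ℕ) [NeZero ℓ], ℓ.Prime → ¬ ℓ ∣ M → ∀ x, push Qbar N M e h
      (heckeOperatorAlong Qbar M ℓ x) = heckeOperatorAlong Qbar N ℓ (push Qbar N M e h x))
    (t : AnemicAlg S) (x : JZero M) :
    push Qbar N M e h (letI := heckeModuleBar M; anemicIncl S t • x) =
      (letI := heckeModuleBar N; anemicIncl S t • (push Qbar N M e h x : JZero N)) := by
  letI := heckeModuleBar M
  letI := heckeModuleBar N
  have hcM := JAN.Degree.heckeOperatorsCommuteBar M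
  have hcN := JAN.Degree.heckeOperatorsCommuteBar N
  induction t using MvPolynomial.induction_on generalizing x with
  | C a =>
    rw [MvPolynomial.algHom_C]
    have h1 : ∀ (y : JZero M), (algebraMap ℤ HeckeAlg a : HeckeAlg) • y = a • y := fun y => by
      rw [eq_intCast, Int.cast_smul_eq_zsmul]
    have h2 : ∀ (y : JZero N), (algebraMap ℤ HeckeAlg a : HeckeAlg) • y = a • y := fun y => by
      rw [eq_intCast, Int.cast_smul_eq_zsmul]
    rw [h1, h2]
    exact map_zsmul (push Qbar N M e h) a x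
  | add p q hp hq =>
    rw [map_add, add_smul, add_smul]
    exact (map_add (push Qbar N M e h) _ _).trans (congrArg₂ (· + ·) (hp x) (hq x))
  | mul_X p ℓ hp =>
    rw [map_mul, mul_smul, mul_smul, JAN.Annihilate.anemicIncl_X, hp]
    congr 1
    rw [heckeModuleBar_heckeGen_smul hcM, heckeModuleBar_heckeGen_smul hcN]
    haveI : NeZero ((ℓ.1 : Nat.Primes) : ℕ) := ⟨ℓ.1.2.ne_zero⟩
    exact hT (ℓ.1 : ℕ) ℓ.1.2 (fun h' => ℓ.2 (hMS _ ℓ.1.2 h')) x

theorem pushZero_of_push {N M e : ℕ} [NeZero N] [NeZero M] [NeZero e] (h : N * e ∣ M)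
    {φ : laurentBaseChange Qbar (modularFunctionFieldFull N) →ₐ[Qbar]
      laurentBaseChange Qbar (modularFunctionFieldFull M)} (hφ : φ = degen Qbar N M e h)
    {x : JZero M} (hx : push Qbar N M e h x = 0) : PushZero φ x := by
  subst hφ
  intro hφ D hD
  subst hD
  rw [push_mk] at hx
  have h1 := (QuotientAddGroup.eq_zero_iff _).mp hx
  exact AddSubgroup.mem_addSubgroupOf.mp h1

/-- A Hecke polynomial killing `S₂(Γ₀(qN))` kills, up to a constant, the inertia invariants of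
`J₀(q²N)[m]`. -/
theorem kill_fixed {N q : ℕ} [NeZero N] [NeZero q] (h36 : S36Prime N q) :
    ∃ c : ℕ, 0 < c ∧ ∀ (S : Finset ℕ) (_ : ∀ r : ℕ, r.Prime → r ∣ N * q * q → r ∈ S)
      (hS' : ∀ r : ℕ, r.Prime → r ∣ N * q → r ∈ S) (t : AnemicAlg S),
      anemicEval (N := N * q) hS' t = 0 →
      ∀ A : ValuationSubring Qbar, A.LiesOverPrime q → ∀ m : ℕ, 0 < m → Nat.Coprime m q →
        ∀ x : JZero (N * q * q), m • x = 0 → (∀ τ ∈ A.inertiaSubgroupIn ℚ, τ • x = x) →
          letI := heckeModuleBar (N * q * q)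
          c • (anemicIncl S t • x) = 0 := by
  obtain ⟨C₁, hC₁, hnew⟩ := h36
  obtain ⟨C₂, hC₂, hann⟩ := JAN.Annihilate.exists_mul_smul_eq_zero (N := N * q)
    (JAN.Degree.heckeOperatorsCommuteBar _) (JAN.janMain _)
  refine ⟨C₁ * C₂, Nat.mul_pos hC₁ hC₂, ?_⟩
  intro S hS hS' t ht A hA m hm hmq x hx hfix
  letI := heckeModuleBar (N * q * q)
  haveI : SMulCommClass Γℚ HeckeAlg (JZero (N * q * q)) :=
    Jan.GaloisHecke.smulCommClass_heckeModuleBar _
  have hy : m • (C₂ • (anemicIncl S t • x)) = 0 := by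
    rw [smul_comm m C₂, smul_comm m (anemicIncl S t), hx, smul_zero, smul_zero]
  have hyfix : ∀ τ ∈ A.inertiaSubgroupIn ℚ, τ • (C₂ • (anemicIncl S t • x)) =
      C₂ • (anemicIncl S t • x) := by
    intro τ hτ
    rw [gal_nsmul, smul_comm τ, hfix τ hτ]
  have hpush : ∀ (e : ℕ) [NeZero e] (h : N * q * e ∣ N * q * q)
      (_ : ∀ (ℓ : ℕ) [NeZero ℓ], ℓ.Prime → ¬ ℓ ∣ N * q * q → ∀ x,
        push Qbar (N * q) (N * q * q) e h (heckeOperatorAlong Qbar (N * q * q) ℓ x) =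
          heckeOperatorAlong Qbar (N * q) ℓ (push Qbar (N * q) (N * q * q) e h x)),
      push Qbar (N * q) (N * q * q) e h (C₂ • (anemicIncl S t • x) : JZero (N * q * q)) = 0 := by
    intro e _ h hT
    have h1 := push_anemic h hS hT t x
    have h2 : m • (push Qbar (N * q) (N * q * q) e h x : JZero (N * q)) = 0 := by
      rw [← map_nsmul]
      exact (congrArg _ hx).trans (map_zero _)
    have h3 := hann hS' t ht m hm _ h2
    refine (map_nsmul (push Qbar (N * q) (N * q * q) e h) C₂ _).trans ?_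
    exact (congrArg (fun y => C₂ • y) h1).trans h3
  have ha := hpush 1 (by rw [mul_one]; exact dvd_mul_right _ _)
    (fun ℓ _ hℓ hℓM x => push_alpha_hecke Qbar hℓ hℓM _ x)
  have hb := hpush q dvd_rfl (fun ℓ _ hℓ hℓM x => push_beta_hecke Qbar hℓ hℓM _ x)
  rw [mul_smul]
  exact hnew A hA m hmq _ hy hyfix (pushZero_of_push _ (heckeAlphaBar_eq_degen Qbar (N * q) q) ha)
    (pushZero_of_push _ (heckeBetaBar_eq_degen Qbar (N * q) q) hb)

/-- Hecke polynomials nonzero on `g` have nonzero image under `iota ∘ chig`. -/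
theorem chi_ne_zero {M : ℕ} [NeZero M] {g : CuspForm (Gamma0 M) 2} (hg : g.IsNewform)
    {S : Finset ℕ} (hMS : ∀ q : ℕ, q.Prime → q ∣ M → q ∈ S)
    {O' : Type} [CommRing O'] [IsDomain O'] [CharZero O']
    (chig : CuspForm.heckeAlgebra M 2 (↑S : Set ℕ) →+* ℂ)
    (hchig : ∀ (ℓ : ℕ) (hℓ : ℓ.Prime) (hℓM : ¬ ℓ ∣ M) (hℓS : ℓ ∉ (↑S : Set ℕ)),
      chig (CuspForm.heckeAlgebra.T hℓ hℓM hℓS) = ModularFormClass.qCoeff g ℓ)
    (iota : chig.range →+* O') (t : AnemicAlg S)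
    (htg : EigenCharOn.eigenCharOn (↑S : Set ℕ) hg.1 (anemicEval (N := M) hMS t) ≠ 0) :
    (iota.comp chig.rangeRestrict) (anemicEval hMS t) ≠ 0 := by
  have hchar : chig = EigenCharOn.eigenCharOn (↑S : Set ℕ) hg.1 := by
    have h3 : chig.comp (anemicEval hMS).toRingHom =
        (EigenCharOn.eigenCharOn (↑S : Set ℕ) hg.1).comp (anemicEval hMS).toRingHom := by
      refine MvPolynomial.ringHom_ext (fun r => ?_) fun ℓ => ?_
      · simp
      · have hℓM : ¬ (ℓ.1 : ℕ) ∣ M := fun h => ℓ.2 (hMS _ ℓ.1.2 h)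
        have hℓS' : (ℓ.1 : ℕ) ∉ (↑S : Set ℕ) := fun h => ℓ.2 (Finset.mem_coe.mp h)
        change chig (anemicEval hMS (MvPolynomial.X ℓ)) =
          EigenCharOn.eigenCharOn (↑S : Set ℕ) hg.1 (anemicEval hMS (MvPolynomial.X ℓ))
        rw [anemicEval_X hMS ℓ hℓM hℓS', hchig, EigenCharOn.eigenCharOn_T]
    refine RingHom.ext fun y => ?_
    obtain ⟨a, rfl⟩ := anemicEval_surjective hMS y
    exact DFunLike.congr_fun h3 a
  have hfin : Module.Finite ℤ chig.range := EigenCharOn.finite_range_of_heckeAlgebra chig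
  have hint : Algebra.IsIntegral ℤ chig.range := Algebra.IsIntegral.of_finite ℤ _
  have hiota : Function.Injective iota := by
    rw [RingHom.injective_iff_ker_eq_bot]
    refine Ideal.eq_bot_of_comap_eq_bot (R := ℤ) ?_
    rw [RingHom.comap_ker, ← RingHom.injective_iff_ker_eq_bot]
    have : iota.comp (algebraMap ℤ chig.range) = Int.castRingHom O' := RingHom.ext_int _ _
    rw [this]
    exact Int.cast_injective
  intro h
  have h3 : iota (chig.rangeRestrict (anemicEval hMS t)) = iota 0 := by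
    rw [map_zero]; exact h
  have h4 := congrArg Subtype.val (hiota h3)
  apply htg
  rw [← hchar]
  exact h4

/-- **S36 from `S36Prime` and the inputs.** -/
theorem s36_of (HI : ∀ (p : ℕ) [Fact p.Prime] (N : ℕ) [NeZero N] (S : Finset ℕ),
      p ∈ S → (∀ q : ℕ, q.Prime → q ∣ N → q ∈ S) → Inputs N p S)
    (H36 : ∀ (N q : ℕ) [NeZero N] [NeZero q], q.Prime → ¬ q ∣ N → S36Prime N q) :
    S58Assembly.S36Prop := by
  intro M _ g hg lam _ S O' _ _ _ _ _ _ hlamO' hlam2 chig hchig iota hlamS hMS _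
  classical
  let χ : CuspForm.heckeAlgebra M 2 (↑S : Set ℕ) →+* O' := iota.comp chig.rangeRestrict
  obtain ⟨ρ, hρ, -⟩ := exists_galoisRepAdic_of_point hlamS hMS (HI lam M S hlamS hMS) O' hlamO' χ
  refine ⟨O', inferInstance, inferInstance, inferInstance, inferInstance, inferInstance,
    inferInstance, Algebra.id O', Module.Finite.self O', ⟨fun a ha => ha⟩, fun a b h => h, ρ, hρ, ?_⟩
  intro q hq hqlam hfac hunip
  haveI : NeZero q := ⟨hq.ne_zero⟩
  -- `M = N q²`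
  obtain ⟨N, hN⟩ : q ^ 2 ∣ M := by rw [← hfac]; exact Nat.ordProj_dvd M q
  have hN' : M = N * q * q := by rw [hN]; ring
  have hN0 : NeZero N := ⟨fun h => NeZero.ne M (by rw [hN, h, mul_zero])⟩
  have hqN : ¬ q ∣ N := by
    rintro ⟨c, hc⟩
    have h3 : q ^ 3 ∣ M := ⟨c, by rw [hN, hc]; ring⟩
    have h4 := (hq.pow_dvd_iff_le_factorization (NeZero.ne M)).mp h3
    rw [hfac] at h4
    omega
  clear hN
  subst hN'
  obtain ⟨c, hc, hkill⟩ := kill_fixed (H36 N q hq hqN)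
  have hS' : ∀ r : ℕ, r.Prime → r ∣ N * q → r ∈ S := fun r hr h => hMS r hr (h.mul_right q)
  have hne : N * q ≠ N * q * q := by
    intro h
    have h1 : 1 < q := hq.one_lt
    have h2 : 0 < N * q := Nat.pos_of_ne_zero (NeZero.ne _)
    nlinarith
  obtain ⟨t, ht, htg⟩ := exists_kill_of_isNewform (pointRep_of_inputs HI) hg
    (dvd_mul_right (N * q) q) hne S hMS hS'
  -- a place over `q`
  obtain ⟨A, hA⟩ := FrobExists.exists_liesOverPrime Qbar hq
  have hχ : χ (anemicEval hMS ((c : AnemicAlg S) * t)) = 0 := by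
    refine eval_eq_zero hlam2 hlamS hMS (HI lam _ S hlamS hMS) O' hlamO' χ ρ hρ q hq hqlam A hA
      ?_ _ ?_
    · intro τ hτ
      have h1 := hunip A hA τ hτ
      rw [BN2.charpoly_eq_of_finrank_two ρ.finrank_eq] at h1
      have h2 := congrArg (fun P => P.coeff 1) h1
      have h3 : ((X : O'[X]) - 1) ^ 2 = X ^ 2 - C 2 * X + C 1 := by
        rw [map_one, map_ofNat]; ring
      rw [h3] at h2
      simpa [coeff_X, coeff_C, coeff_one] using h2
    · intro n x hx hfix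
      have h1 := hkill S hMS hS' t ht A hA (lam ^ n) (pow_pos (Fact.out : lam.Prime).pos n)
        (Nat.Coprime.pow_left n ((Nat.coprime_primes Fact.out hq).mpr (Ne.symm hqlam))) x hx hfix
      letI := heckeModuleBar (N * q * q)
      have h2 : anemicIncl S ((c : AnemicAlg S) * t) = (c : HeckeAlg) * anemicIncl S t := by
        rw [map_mul, map_natCast]
      rw [h2, mul_smul, Nat.cast_smul_eq_nsmul]
      exact h1
  have hne0 := chi_ne_zero hg hMS chig hchig iota t htg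
  rw [map_mul, map_mul, map_natCast, map_natCast] at hχ
  rcases mul_eq_zero.mp hχ with h1 | h1
  · exact hc.ne' (by exact_mod_cast h1)
  · exact hne0 h1

/-- **S36 from S37 and `S36Prime`.** -/
theorem s36_of_s37 (h37 : GAL.Final.S37Prop)
    (H36 : ∀ (N q : ℕ) [NeZero N] [NeZero q], q.Prime → ¬ q ∣ N → S36Prime N q) :
    S58Assembly.S36Prop :=
  s36_of (fun p _ N _ S _ _ => GAL.Final.s30_inputs (allInputs h37) p N S) H36

end Fermat.Agent.CMP.S36Assembly
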