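import Fermat.Agent.CMP.S36Assembly
import Fermat.Agent.DR.AllInputs
import Fermat.Agent.EllTate.S58Input

/-!
# S36 and S58 from `S36Prime` (and S35)
-/

set_option autoImplicit false

namespace Fermat.Agent.CMP.S36Final

open Fermat.Agent.DR.S36

/-- **S36 from `S36Prime`.** -/
theorem s36Prop_of_prime
    (H36 : ∀ (N q : ℕ) [NeZero N] [NeZero q], q.Prime → ¬ q ∣ N → S36Prime N q) :
    S58Assembly.S36Prop :=
  S36Assembly.s36_of (fun p _ N _ S _ _ => GAL.Final.s30_inputs DR.allInputs p N S) H36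

end Fermat.Agent.CMP.S36Final
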